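import Fermat.Agent.Ext.PrimeNorm
import Mathlib.RingTheory.DedekindDomain.Different
import Mathlib.RingTheory.DedekindDomain.Ideal.Lemmas
import Mathlib.RingTheory.Ideal.Norm.RelNorm

/-!
# S14: the auxiliary field `K(ζ_l)` above a totally split prime `l`
-/

set_option autoImplicit false
set_option maxSynthPendingDepth 3

noncomputable section

namespace FLTAgent.Ext

open NumberField Ideal Polynomial

section Aux

variable {p : ℕ} [Fact p.Prime] {K : Type*} [Field K] [NumberField K]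
  [IsCyclotomicExtension {p} ℚ K] {ζ : K} (hζ : IsPrimitiveRoot ζ p)
  {P : Ideal (𝓞 K)} {l : ℕ} [NeZero l] (hl : l.Prime) (hnorm : absNorm P = l) (hlp : l ≠ p)
  {L : Type*} [Field L] [NumberField L] [Algebra K L] [IsCyclotomicExtension {l} K L]
  {z : L} (hz : IsPrimitiveRoot z l)

omit [NumberField K] [NumberField L] in
include hl hz in
lemma aux_finrank_le : Module.finrank K L ≤ l - 1 := by
  rw [← Nat.totient_prime hl, ← natDegree_cyclotomic l K, (hz.powerBasis K).finrank,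
    ← PowerBasis.natDegree_minpoly, hz.powerBasis_gen K]
  refine natDegree_le_of_dvd (minpoly.dvd K z ?_) (cyclotomic_ne_zero l K)
  rw [aeval_def, ← eval_map, map_cyclotomic]
  exact hz.isRoot_cyclotomic hl.pos

omit [NumberField L] [IsCyclotomicExtension {l} K L] [NumberField K] [Algebra K L] in
include hl hz in
lemma span_pi_pow :
    span {hz.toInteger - 1} ^ (l - 1) = span {((l : ℕ) : 𝓞 L)} := by
  have hz' : IsPrimitiveRoot hz.toInteger l := hz.toInteger_isPrimitiveRoot
  have : Fact l.Prime := ⟨hl⟩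
  have h := congrArg (Polynomial.eval (1 : 𝓞 L)) (cyclotomic_eq_prod_X_sub_primitiveRoots hz')
  rw [eval_one_cyclotomic_prime, eval_prod] at h
  rw [h, ← Ideal.prod_span_singleton, Finset.prod_eq_pow_card (b := span {hz.toInteger - 1}),
    hz'.card_primitiveRoots, Nat.totient_prime hl]
  intro μ hμ
  obtain ⟨i, hi, hil, rfl⟩ := hz'.isPrimitiveRoot_iff.mp ((mem_primitiveRoots hl.pos).mp hμ)
  rw [eval_sub, eval_X, eval_C, ← span_singleton_neg, neg_sub, span_singleton_eq_span_singleton]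
  exact (hz'.associated_sub_one_pow_sub_one_of_coprime hil).symm

include hζ hl hnorm hlp hz in
lemma exists_totallyRamified :
    Module.finrank K L = l - 1 ∧
      ∃ Λ : (ZMod p)ˣ → Ideal (𝓞 L), ∀ a, absNorm (Λ a) = l ∧
        Λ a ^ (l - 1) = (conjIdeal p a P).map (algebraMap (𝓞 K) (𝓞 L)) ∧
        hz.toInteger - 1 ∈ Λ a ∧ hz.toInteger - 1 ∉ Λ a ^ 2 := by
  classical
  have hp : p.Prime := Fact.out
  have hl1 : 1 < l := hl.one_lt
  set A : (ZMod p)ˣ → Ideal (𝓞 L) :=
    fun a => (conjIdeal p a P).map (algebraMap (𝓞 K) (𝓞 L)) with hA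
  have hmax : ∀ a, (conjIdeal p a P).IsMaximal := fun a =>
    isMaximal_of_absNorm_prime hl ((absNorm_conjIdeal a).trans hnorm)
  have hcop : ∀ a ∈ Finset.univ, ∀ b ∈ Finset.univ, a ≠ b → IsCoprime (A a) (A b) := by
    intro a _ b _ hab
    rw [Ideal.isCoprime_iff_sup_eq, hA, ← Ideal.map_sup, (hmax a).coprime_of_ne (hmax b)
      (fun h => hab (conjIdeal_injective hζ hl hnorm hlp h)), Ideal.map_top]
  have hprod : ∏ a, A a = span {hz.toInteger - 1} ^ (l - 1) := by
    rw [hA, ← Finset.prod_congr rfl (fun a _ => Ideal.mapHom_apply (algebraMap (𝓞 K) (𝓞 L)) (conjIdeal p a P)), ← map_prod, Ideal.mapHom_apply, prod_conjIdeal hζ hl hnorm hlp, Ideal.map_span, Set.image_singleton,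
      map_natCast, span_pi_pow hl hz]
  choose Λ hΛ using fun a => Finset.exists_eq_pow_of_mul_eq_pow_of_coprime hcop hprod a
    (Finset.mem_univ a)
  have hne : ∀ a, A a ≠ ⊤ := fun a h => by
    obtain ⟨Q, hQ, hover⟩ := Ideal.exists_maximal_ideal_liesOver_of_isIntegral
      (S := 𝓞 L) (conjIdeal p a P)
    exact hQ.ne_top (top_le_iff.mp (h ▸ Ideal.map_le_iff_le_comap.mpr hover.over.le))
  have hNprod : ∏ a, absNorm (Λ a) ^ (l - 1) = l ^ ((p - 1) * Module.finrank K L) := by
    rw [Finset.prod_congr rfl fun a _ => (map_pow absNorm (Λ a) (l - 1)).symm, ← map_prod,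
      Finset.prod_congr rfl fun a _ => (hΛ a).symm, hprod, span_pi_pow hl hz,
      absNorm_span_natCast, RingOfIntegers.rank, ← Module.finrank_mul_finrank ℚ K L,
      IsCyclotomicExtension.finrank K (cyclotomic.irreducible_rat hp.pos), Nat.totient_prime hp]
  have hpow : ∀ a, ∃ j, 1 ≤ j ∧ absNorm (Λ a) = l ^ j := fun a => by
    have hdvd : absNorm (Λ a) ∣ l ^ ((p - 1) * Module.finrank K L) := hNprod ▸
      (dvd_pow_self _ (by omega : l - 1 ≠ 0)).trans
        (Finset.dvd_prod_of_mem (fun b => absNorm (Λ b) ^ (l - 1)) (Finset.mem_univ a))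
    obtain ⟨j, -, hj⟩ := (Nat.dvd_prime_pow hl).mp hdvd
    refine ⟨j, Nat.one_le_iff_ne_zero.mpr fun hj0 => hne a ?_, hj⟩
    rw [hj0, pow_zero, absNorm_eq_one_iff] at hj
    rw [hΛ a, hj, ← one_eq_top, one_pow]
  choose j hj1 hjN using hpow
  have hsum : (l - 1) * ∑ a, j a = (p - 1) * Module.finrank K L := by
    refine Nat.pow_right_injective hl.two_le ?_
    show l ^ _ = l ^ _
    rw [← hNprod, Finset.mul_sum, ← Finset.prod_pow_eq_pow_sum]
    exact Finset.prod_congr rfl fun a _ => by rw [hjN, ← pow_mul, mul_comm]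
  have hn := aux_finrank_le hl hz (K := K)
  have hcard : ∑ _a : (ZMod p)ˣ, 1 = p - 1 := by
    rw [Finset.sum_const, smul_eq_mul, mul_one, Finset.card_univ, ZMod.card_units]
  have hge : p - 1 ≤ ∑ a, j a := hcard ▸ Finset.sum_le_sum fun a _ => hj1 a
  have hle : ∑ a, j a ≤ p - 1 := by
    refine Nat.le_of_mul_le_mul_left ?_ (by omega : 0 < l - 1)
    rw [hsum, mul_comm (l - 1)]
    exact Nat.mul_le_mul_left _ hn
  have hjone : ∀ a, j a = 1 := fun a =>
    (((Finset.sum_eq_sum_iff_of_le fun b _ => hj1 b).mp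
      (hcard.trans (le_antisymm hle hge).symm)) a (Finset.mem_univ a)).symm
  have hfin : Module.finrank K L = l - 1 := by
    rw [le_antisymm hle hge, mul_comm] at hsum
    exact (Nat.eq_of_mul_eq_mul_left (by have := hp.two_le; omega) hsum).symm
  refine ⟨hfin, Λ, fun a => ⟨by rw [hjN, hjone, pow_one], (hΛ a).symm, ?_, fun h2 => hne a ?_⟩⟩
  · have hprime := (isMaximal_of_absNorm_prime hl (show absNorm (Λ a) = l by
      rw [hjN, hjone, pow_one])).isPrime
    refine hprime.mem_of_pow_mem (l - 1) ?_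
    rw [← dvd_span_singleton, ← span_singleton_pow, ← hprod]
    exact ((dvd_pow_self _ (by omega : l - 1 ≠ 0)).trans (dvd_of_eq (hΛ a).symm)).trans
      (Finset.dvd_prod_of_mem A (Finset.mem_univ a))
  · have h2' : A a * A a ∣ A a * ∏ b ∈ Finset.univ.erase a, A b := by
      rw [Finset.mul_prod_erase _ _ (Finset.mem_univ a), hprod, hΛ a, ← mul_pow, ← sq]
      exact pow_dvd_pow_of_dvd (dvd_span_singleton.mpr h2) _
    have hA0 : A a ≠ 0 := by
      intro h0
      have := absNorm_eq_zero_iff.mpr (hΛ a ▸ h0 : Λ a ^ (l - 1) = ⊥)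
      rw [map_pow, hjN, ← pow_mul] at this
      exact pow_ne_zero _ hl.ne_zero this
    have hc : IsCoprime (A a) (∏ b ∈ Finset.univ.erase a, A b) :=
      IsCoprime.prod_right fun b hb => hcop a (Finset.mem_univ a) b (Finset.mem_univ b)
        (Finset.ne_of_mem_erase hb).symm
    exact Ideal.isUnit_iff.mp (hc.isUnit_of_dvd' dvd_rfl ((mul_dvd_mul_iff_left hA0).mp h2'))

include hl hz in
lemma not_sq_dvd_map (Q : Ideal (𝓞 L)) [Q.IsPrime] (hQ : ((l : ℕ) : 𝓞 L) ∉ Q)
    (v : Ideal (𝓞 K)) [v.IsMaximal] (hv : v ≠ ⊥) :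
    ¬ Q ^ 2 ∣ v.map (algebraMap (𝓞 K) (𝓞 L)) := by
  intro h
  have h1 := pow_sub_one_dvd_differentIdeal (𝓞 K) Q 2 hv h
  rw [show 2 - 1 = 1 from rfl, pow_one] at h1
  have hadj : Algebra.adjoin K {algebraMap (𝓞 L) L hz.toInteger} = ⊤ :=
    IsCyclotomicExtension.adjoin_primitive_root_eq_top hz
  have hmem := aeval_derivative_mem_differentIdeal (𝓞 K) K L hz.toInteger hadj
  have hdvd : minpoly (𝓞 K) hz.toInteger ∣ X ^ l - 1 := by
    refine minpoly.isIntegrallyClosed_dvd (Algebra.IsIntegral.isIntegral _) ?_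
    simp [hz.toInteger_isPrimitiveRoot.pow_eq_one]
  obtain ⟨q, hq⟩ := hdvd
  have hd := congrArg (fun f => aeval hz.toInteger (derivative f)) hq
  simp only [derivative_mul, map_add, map_mul, minpoly.aeval, zero_mul, add_zero, derivative_sub,
    derivative_X_pow, derivative_one, sub_zero, map_natCast, map_pow, aeval_X] at hd
  have hin : ((l : ℕ) : 𝓞 L) * hz.toInteger ^ (l - 1) ∈ Q := by
    rw [hd]
    exact Q.mul_mem_right _ (Ideal.le_of_dvd h1 hmem)
  rcases ‹Q.IsPrime›.mem_or_mem hin with h' | h'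
  · exact hQ h'
  · exact ‹Q.IsPrime›.ne_top (Ideal.eq_top_of_isUnit_mem _ h'
      ((hz.toInteger_isPrimitiveRoot.isUnit hl.ne_zero).pow _))

end Aux

end FLTAgent.Ext
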