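import Fermat.Agent.Ext.Thaine
import Mathlib.GroupTheory.FiniteAbelian.Duality

/-!
# S14: the `ω²`-eigenspace of the `p`-torsion of the class group is trivial
-/

set_option autoImplicit false
set_option maxSynthPendingDepth 3

noncomputable section

namespace FLTAgent.Ext

open NumberField Ideal
open scoped nonZeroDivisors Classical

variable {p : ℕ} [Fact p.Prime] {K : Type} [Field K] [NumberField K]

/-- No nontrivial class character is trivial at all degree one primes at which `η` is not a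
`p`-th power. -/
def IsKummerGenerated (p : ℕ) (η : 𝓞 K) : Prop :=
  ∀ ψ : ClassGroup (𝓞 K) →* ℂˣ,
    (∀ P : (Ideal (𝓞 K))⁰, (P : Ideal (𝓞 K)).IsPrime → (absNorm (P : Ideal (𝓞 K))).Prime →
      (∀ y : 𝓞 K, y ^ p - η ∉ (P : Ideal (𝓞 K))) → ψ (ClassGroup.mk0 P) = 1) → ψ = 1

variable [IsCyclotomicExtension {p} ℚ K] {ζ : K} (hζ : IsPrimitiveRoot ζ p) (h3 : 3 ≤ p)

include hζ h3 in
lemma eigenProj_mem_pow (hgen : IsKummerGenerated p (etaUnit hζ h3 : 𝓞 K))
    (c : ClassGroup (𝓞 K)) : ∃ C, eigenProj p c = C ^ p := by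
  have : NeZero p := ⟨(Fact.out : p.Prime).ne_zero⟩
  let θ : ClassGroup (𝓞 K) →* ClassModPow p K :=
    (QuotientGroup.mk' _).comp (MonoidHom.mk' (eigenProj p) eigenProj_mul)
  have hθ : θ c = 1 := by
    by_contra h
    have : HasEnoughRootsOfUnity ℂ (Monoid.exponent (ClassModPow p K)) := by
      have : NeZero (Monoid.exponent (ClassModPow p K)) :=
        ⟨Monoid.exponent_ne_zero_of_finite⟩
      infer_instance
    obtain ⟨φ, hφ⟩ := CommGroup.exists_apply_ne_one_of_hasEnoughRootsOfUnity _ ℂ h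
    refine hφ (DFunLike.congr_fun (hgen (φ.comp θ) fun P _ hnorm hbad => ?_) c)
    obtain ⟨C, hC⟩ := eigenProj_prime_mem hζ h3 P hnorm rfl hbad
    rw [MonoidHom.comp_apply,
      show θ (ClassGroup.mk0 P) = 1 from (QuotientGroup.eq_one_iff _).mpr ⟨C, hC.symm⟩, map_one]
  obtain ⟨C, hC⟩ := (QuotientGroup.eq_one_iff _).mp hθ
  exact ⟨C, hC.symm⟩

include hζ h3 in
theorem eigen_class_eq_one (hgen : IsKummerGenerated p (etaUnit hζ h3 : 𝓞 K))
    (x : ClassGroup (𝓞 K)) (hx : x ^ p = 1)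
    (heig : ∀ a : (ZMod p)ˣ, galClass p a x = x ^ wexp p a) : x = 1 := by
  have hp : p.Prime := Fact.out
  have hE : eigenProj p x = x⁻¹ := by
    rw [eigenProj, Finset.prod_congr rfl fun a _ => show
      galClass p a x ^ wexp p a⁻¹ = x by
        rw [heig, ← pow_mul]
        obtain ⟨k, hk⟩ : p ∣ wexp p a * wexp p a⁻¹ - 1 := by
          rw [← ZMod.natCast_eq_zero_iff]
          rcases Nat.eq_zero_or_pos (wexp p a * wexp p a⁻¹) with h0 | h0
          · simp [h0]
          · rw [Nat.cast_sub h0, Nat.cast_mul, wexp_cast, wexp_cast, ← mul_pow, ← Units.val_mul,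
              mul_inv_cancel, Units.val_one, one_pow, Nat.cast_one, sub_self]
        have hpos : 1 ≤ wexp p a * wexp p a⁻¹ := by
          refine Nat.one_le_iff_ne_zero.mpr fun h0 => ?_
          have := congrArg (Nat.cast (R := ZMod p)) h0
          rw [Nat.cast_mul, wexp_cast, wexp_cast, ← mul_pow, ← Units.val_mul, mul_inv_cancel,
            Units.val_one, one_pow, Nat.cast_zero] at this
          exact one_ne_zero this
        rw [← Nat.sub_add_cancel hpos, hk, pow_succ, pow_mul, hx, one_pow, one_mul],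
      Finset.prod_const, Finset.card_univ, ZMod.card_units, eq_inv_iff_mul_eq_one, ← pow_succ,
      Nat.sub_add_cancel hp.one_le, hx]
  have hdiv : ∀ i, ∃ y, x = y ^ p ^ i := by
    intro i
    induction i with
    | zero => exact ⟨x, by rw [pow_zero, pow_one]⟩
    | succ i ih =>
      obtain ⟨y, hy⟩ := ih
      obtain ⟨C, hC⟩ := eigenProj_mem_pow hζ h3 hgen y
      refine ⟨C⁻¹, ?_⟩
      rw [inv_pow, pow_succ', pow_mul, ← hC, ← eigenProj_pow, ← hy, hE, inv_inv]
  obtain ⟨a, q, hq, hN⟩ := Nat.exists_eq_pow_mul_and_not_dvd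
    (Nat.card_pos (α := ClassGroup (𝓞 K))).ne' p hp.ne_one
  obtain ⟨y, hy⟩ := hdiv a
  have hxq : x ^ q = 1 := by rw [hy, ← pow_mul, ← hN, pow_card_eq_one']
  have := pow_gcd_eq_one.mpr ⟨hx, hxq⟩
  rwa [Nat.Coprime.gcd_eq_one (hp.coprime_iff_not_dvd.mpr hq), pow_one] at this

end FLTAgent.Ext
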