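import Fermat.Agent.Chebotarev.Split
import Mathlib.FieldTheory.KummerPolynomial
import Mathlib.FieldTheory.KummerExtension
import Mathlib.RingTheory.Ideal.Norm.RelNorm
import Mathlib.RingTheory.Ideal.GoingUp
import Mathlib.RingTheory.Polynomial.Cyclotomic.Basic
import Mathlib.NumberTheory.NumberField.Cyclotomic.Basic

/-!
Area EXT, analytic parcel: primes of prime norm modulo which `η` is a `p`-th power split completely
in `K(η^(1/p))`.
-/

set_option autoImplicit false
set_option maxHeartbeats 400000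

noncomputable section

open NumberField Ideal Module Polynomial
open scoped nonZeroDivisors

namespace FLTAgent.Ext

open Chebotarev (PrimeIdeal normRpow primeSum)

universe u

variable {K : Type u} [Field K] [NumberField K]

theorem prod_absNorm_dvd {T : Finset (Ideal (𝓞 K))} (hT : ∀ P ∈ T, Prime P) {I : Ideal (𝓞 K)}
    (h : ∀ P ∈ T, P ∣ I) : ∏ P ∈ T, absNorm P ∣ absNorm I := by
  rw [← map_prod]
  exact map_dvd _ (Finset.prod_primes_dvd I hT h)

theorem root_sub_one_not_mem {R : Type*} [CommRing R] [IsDomain R] {P : Ideal R}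
    {p : ℕ} {z : R} (hz : IsPrimitiveRoot z p) (hp : p.Prime) (hpP : (p : R) ∉ P) {m : ℕ}
    (hm : ¬ p ∣ m) : z ^ m - 1 ∉ P := fun h => hpP <| by
  have hw : IsPrimitiveRoot (z ^ m) p :=
    hz.pow_of_coprime m ((hp.coprime_iff_not_dvd.mpr hm).symm)
  have e : (p : R) = ∑ i ∈ Finset.range p, (1 - (z ^ m) ^ i) := by
    rw [Finset.sum_sub_distrib, hw.geom_sum_eq_zero hp.one_lt, sub_zero]
    simp
  rw [e]
  exact sum_mem fun i _ => by
    rw [← neg_sub, neg_mem_iff]
    exact Ideal.mem_of_dvd _ (sub_one_dvd_pow_sub_one _ i) h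

section Abstract

variable {L : Type*} [Field L] [NumberField L] [Algebra K L]

theorem exists_split {p : ℕ} (hp : p.Prime) {z : 𝓞 K} (hz : IsPrimitiveRoot z p) {η : 𝓞 K}
    {a : 𝓞 L} (ha : a ^ p = algebraMap (𝓞 K) (𝓞 L) η) (hdeg : finrank K L = p)
    (σ : ℕ → (𝓞 L →+* 𝓞 L)) (hσi : ∀ j x, σ j (algebraMap (𝓞 K) (𝓞 L) x) = algebraMap (𝓞 K) (𝓞 L) x)
    (hσ : ∀ j, σ j a = algebraMap (𝓞 K) (𝓞 L) (z ^ j) * a)
    (P : PrimeIdeal K) (hN : (absNorm P.1).Prime) (hη : η ∉ P.1) (hpP : (p : 𝓞 K) ∉ P.1)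
    (hy : ∃ y : 𝓞 K, y ^ p - η ∈ P.1) :
    ∃ f : Fin p → PrimeIdeal L, Function.Injective f ∧
      ∀ j, absNorm (f j).1 = absNorm P.1 ∧ (f j).1.comap (algebraMap (𝓞 K) (𝓞 L)) = P.1 := by
  classical
  haveI : P.1.IsPrime := isPrime_of_prime P.2
  haveI : P.1.IsMaximal := IsPrime.isMaximal inferInstance P.2.ne_zero
  haveI : Fact p.Prime := ⟨hp⟩
  set i := algebraMap (𝓞 K) (𝓞 L) with hi
  have hinj : Function.Injective i := FaithfulSMul.algebraMap_injective _ _
  obtain ⟨Q, hQ, hQc⟩ := exists_ideal_over_maximal_of_isIntegral (S := 𝓞 L) P.1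
    (by rw [(RingHom.injective_iff_ker_eq_bot _).mp hinj]; exact bot_le)
  haveI := hQ.isPrime
  obtain ⟨y, hy⟩ := hy
  have hzL : IsPrimitiveRoot (i z) p := hz.map_of_injective hinj
  have hyn : y ∉ P.1 := fun h => hη (by
    have h' := sub_mem (Ideal.pow_mem_of_mem _ h p hp.pos) hy
    simpa using h')
  obtain ⟨b, hb, hbn⟩ : ∃ b : 𝓞 K, a - i b ∈ Q ∧ b ∉ P.1 := by
    have hmem : a ^ p - i y ^ p ∈ Q := by
      rw [ha, ← map_pow, ← map_sub]
      refine Ideal.mem_comap.mp (hQc.symm ▸ ?_)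
      rw [← neg_sub]; exact neg_mem hy
    rw [hzL.pow_sub_pow_eq_prod_sub_mul _ _ hp.pos] at hmem
    obtain ⟨ξ, hξ, hξQ⟩ := IsPrime.prod_mem_iff.mp hmem
    rw [mem_nthRootsFinset hp.pos] at hξ
    obtain ⟨k, -, rfl⟩ := hzL.eq_pow_of_pow_eq_one hξ
    refine ⟨z ^ k * y, by rwa [map_mul, map_pow], fun h => ?_⟩
    rcases IsPrime.mem_or_mem inferInstance h with h | h
    · exact IsPrime.ne_top inferInstance (eq_top_of_isUnit_mem _ h ((hz.isUnit hp.ne_zero).pow k))
    · exact hyn h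
  have hcomap : ∀ j : ℕ, (Q.comap (σ j)).comap i = P.1 := fun j => by
    rw [← hQc, comap_comap]
    congr 1
    exact RingHom.ext (hσi j)
  have hprime : ∀ j : ℕ, Prime (Q.comap (σ j)) := fun j =>
    prime_of_isPrime (fun h => P.2.ne_zero (by
      rw [← hcomap j, h, Ideal.comap_bot_of_injective _ hinj]; rfl)) inferInstance
  have key : ∀ m n : ℕ, m < n → n < p → Q.comap (σ m) ≠ Q.comap (σ n) := by
    intro m n hmn hn he
    have hm : a - i (z ^ m * b) ∈ Q.comap (σ m) := by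
      rw [Ideal.mem_comap, map_sub, hσ, hσi,
        show i (z ^ m) * a - i (z ^ m * b) = i (z ^ m) * (a - i b) by rw [map_mul]; ring]
      exact Q.mul_mem_left _ hb
    rw [he, Ideal.mem_comap, map_sub, hσ, hσi] at hm
    have h2 : i ((z ^ n - z ^ m) * b) ∈ Q := by
      have e : i ((z ^ n - z ^ m) * b) =
          i (z ^ n) * a - i (z ^ m * b) - i (z ^ n) * (a - i b) := by
        simp only [map_mul, map_sub]; ring
      rw [e]
      exact sub_mem hm (Q.mul_mem_left _ hb)
    rw [← Ideal.mem_comap, hQc] at h2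
    rcases IsPrime.mem_or_mem inferInstance h2 with h2 | h2
    · rw [show z ^ n - z ^ m = z ^ m * (z ^ (n - m) - 1) by
        rw [mul_sub, ← pow_add, Nat.add_sub_cancel' hmn.le, mul_one]] at h2
      rcases IsPrime.mem_or_mem inferInstance h2 with h2 | h2
      · exact IsPrime.ne_top inferInstance (eq_top_of_isUnit_mem _ h2 ((hz.isUnit hp.ne_zero).pow m))
      · exact root_sub_one_not_mem hz hp hpP
          (Nat.not_dvd_of_pos_of_lt (by omega) (by omega)) h2
    · exact hbn h2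
  let f : Fin p → PrimeIdeal L := fun j => ⟨Q.comap (σ j), hprime j⟩
  have hf : Function.Injective f := fun j k hjk => by
    by_contra hne
    have hval : Q.comap (σ j) = Q.comap (σ k) := congrArg Subtype.val hjk
    rcases lt_or_gt_of_ne (fun h => hne (Fin.ext h) : (j : ℕ) ≠ k) with h | h
    · exact key j k h k.2 hval
    · exact key k j h j.2 hval.symm
  refine ⟨f, hf, fun j => ⟨?_, hcomap j⟩⟩
  -- the norms
  set l := absNorm P.1 with hl
  have hmapN : absNorm (P.1.map i) = l ^ p := by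
    rw [absNorm_algebraMap, ← IsFractionRing.finrank_eq (𝓞 K) K (𝓞 L) L, hdeg]
  have hdvd : ∀ j, (f j).1 ∣ P.1.map i := fun j =>
    dvd_iff_le.mpr (map_le_iff_le_comap.mpr (hcomap j).ge)
  have hprod : ∏ j, absNorm (f j).1 ∣ l ^ p := by
    rw [← hmapN]
    have := prod_absNorm_dvd (T := Finset.univ.map ⟨fun j => (f j).1, Subtype.val_injective.comp hf⟩)
      (fun Q hQ => by obtain ⟨j, -, rfl⟩ := Finset.mem_map.mp hQ; exact (f j).2)
      (I := P.1.map i) (fun Q hQ => by obtain ⟨j, -, rfl⟩ := Finset.mem_map.mp hQ; exact hdvd j)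
    simpa [Finset.prod_map] using this
  have hge : ∀ j, l ∣ absNorm (f j).1 := fun j => by
    obtain ⟨e, -, he⟩ := (Nat.dvd_prime_pow hN).mp ((Finset.dvd_prod_of_mem _ (Finset.mem_univ j)).trans hprod)
    rcases e with _ | e
    · have := Chebotarev.two_le_absNorm (f j).2
      rw [he, pow_zero] at this; omega
    · exact ⟨l ^ e, by rw [he, pow_succ']⟩
  choose g hg using hge
  rw [Finset.prod_congr rfl fun j _ => hg j, Finset.prod_mul_distrib, Finset.prod_const,
    Finset.card_univ, Fintype.card_fin] at hprod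
  have h1 : ∏ j, g j ∣ 1 :=
    (Nat.mul_dvd_mul_iff_left (pow_pos hN.pos p)).mp (by rwa [mul_one])
  have hgj : g j = 1 := Nat.dvd_one.mp ((Finset.dvd_prod_of_mem g (Finset.mem_univ j)).trans h1)
  rw [hg j, hgj, mul_one]

end Abstract

variable {p : ℕ} [Fact p.Prime] {ζ : K} (hζ : IsPrimitiveRoot ζ p) {η : 𝓞 K}
  (hη : ∀ y : K, y ^ p ≠ (η : K))

include hζ hη in
/-- `p` times the prime sum of the primes of prime norm modulo which `η` is a `p`-th power is at most
the prime sum of `K(η^(1/p))` -/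
theorem exists_splitting_field :
    ∃ (L : Type u) (_ : Field L) (_ : NumberField L), ∀ (S : Set (PrimeIdeal K)),
      (∀ P ∈ S, (absNorm P.1).Prime ∧ η ∉ P.1 ∧ (p : 𝓞 K) ∉ P.1 ∧ ∃ y : 𝓞 K, y ^ p - η ∈ P.1) →
      ∀ s : ℝ, 1 < s → (p : ℝ) * ∑' P : S, normRpow s P.1.1 ≤ primeSum L s := by
  classical
  have hp := (Fact.out : p.Prime)
  haveI : Fact (Irreducible (X ^ p - C (η : K))) := ⟨X_pow_sub_C_irreducible_of_prime hp hη⟩
  have hf0 : (X ^ p - C (η : K)) ≠ 0 := X_pow_sub_C_ne_zero hp.pos _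
  haveI : FiniteDimensional K (AdjoinRoot (X ^ p - C (η : K))) := (AdjoinRoot.powerBasis hf0).finite
  haveI : CharZero (AdjoinRoot (X ^ p - C (η : K))) :=
    charZero_of_injective_algebraMap (algebraMap K _).injective
  haveI : FiniteDimensional ℚ (AdjoinRoot (X ^ p - C (η : K))) :=
    Module.Finite.trans K (AdjoinRoot (X ^ p - C (η : K)))
  haveI hNF : NumberField (AdjoinRoot (X ^ p - C (η : K))) := ⟨⟩
  refine ⟨AdjoinRoot (X ^ p - C (η : K)), inferInstance, hNF, ?_⟩
  have hdeg : finrank K (AdjoinRoot (X ^ p - C (η : K))) = p := by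
    rw [(AdjoinRoot.powerBasis hf0).finrank, AdjoinRoot.powerBasis_dim, natDegree_X_pow_sub_C]
  set r : AdjoinRoot (X ^ p - C (η : K)) := AdjoinRoot.root _ with hr
  have hrp : r ^ p = algebraMap K _ (η : K) := by
    have h := AdjoinRoot.eval₂_root (X ^ p - C (η : K))
    rwa [eval₂_sub, eval₂_pow, eval₂_X, eval₂_C, sub_eq_zero] at h
  have hint : IsIntegral ℤ r := IsIntegral.of_pow hp.pos (by
    rw [hrp]; exact η.isIntegral_coe.algebraMap)
  let a : 𝓞 (AdjoinRoot (X ^ p - C (η : K))) := ⟨r, hint⟩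
  have hroot : ∀ j : ℕ, aeval (algebraMap K (AdjoinRoot (X ^ p - C (η : K))) (ζ ^ j) * r)
      (X ^ p - C (η : K)) = 0 := fun j => by
    rw [map_sub, aeval_X_pow, aeval_C, mul_pow, ← map_pow, pow_right_comm, hζ.pow_eq_one, one_pow,
      map_one, one_mul, hrp, sub_self]
  let τ : ℕ → AdjoinRoot (X ^ p - C (η : K)) →ₐ[K] AdjoinRoot (X ^ p - C (η : K)) := fun j =>
    AdjoinRoot.liftAlgHom (X ^ p - C (η : K)) (Algebra.ofId K _) _ (hroot j)
  let z : 𝓞 K := hζ.toInteger
  have hz : IsPrimitiveRoot z p := hζ.toInteger_isPrimitiveRoot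
  intro S hS s hs
  choose f hfi hf using fun P : S => exists_split (L := AdjoinRoot (X ^ p - C (η : K))) hp hz (η := η)
    (a := a) (RingOfIntegers.ext hrp) hdeg (fun j => RingOfIntegers.mapRingHom (τ j).toRingHom)
    (fun j x => RingOfIntegers.ext ((τ j).commutes (x : K)))
    (fun j => RingOfIntegers.ext (by
      show τ j r = _
      simp only [τ, hr, AdjoinRoot.liftAlgHom_root, map_mul, map_pow]
      rfl))
    P.1 (hS _ P.2).1 (hS _ P.2).2.1 (hS _ P.2).2.2.1 (hS _ P.2).2.2.2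
  have hinj : Function.Injective fun x : S × Fin p => f x.1 x.2 := by
    rintro ⟨P, j⟩ ⟨P', j'⟩ h
    simp only at h
    have h1 := (hf P j).2
    rw [h, (hf P' j').2] at h1
    obtain rfl : P = P' := Subtype.ext (Subtype.ext h1.symm)
    rw [hfi P h]
  have hsum : Summable fun P : S => normRpow s P.1.1 :=
    (Chebotarev.summable_primeSum hs).subtype S
  have hp' : Summable fun x : S × Fin p => normRpow s (f x.1 x.2).1 :=
    (Chebotarev.summable_primeSum hs).comp_injective hinj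
  refine le_trans (le_of_eq ?_) (tsum_comp_le_tsum_of_inj (Chebotarev.summable_primeSum hs)
    (fun P => Chebotarev.normRpow_nonneg s _) hinj)
  simp only [Function.comp_def]
  rw [hp'.tsum_prod, ← tsum_mul_left]
  refine tsum_congr fun P => ?_
  rw [tsum_fintype, Finset.sum_congr rfl fun j _ => show normRpow s (f P j).1 = normRpow s P.1.1 by
    rw [normRpow, normRpow, (hf P j).1]]
  simp

end FLTAgent.Ext
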