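import Fermat.Agent.Ext.LFunction
import Fermat.Agent.Ext.SplitRoots

/-!
Area EXT, analytic parcel: the classes of the primes of prime norm modulo which `η` is not a `p`-th
power generate the class group.
-/

set_option autoImplicit false
set_option maxHeartbeats 400000

noncomputable section

open NumberField Ideal Filter Topology Asymptotics Module
open scoped nonZeroDivisors Classical

namespace FLTAgent.Ext

open Chebotarev (PrimeIdeal normRpow primeSum PrimesAbove)

variable {K : Type*} [Field K] [NumberField K]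

theorem card_primesAbove_le_finrank (l : Nat.Primes) :
    Nat.card (PrimesAbove K l) ≤ finrank ℚ K := by
  let _ := Fintype.ofFinite (PrimesAbove K l)
  have hdvd : ∀ P : PrimesAbove K l, P.1 ∣ span ({((l : ℕ) : 𝓞 K)} : Set (𝓞 K)) := fun P => by
    rw [dvd_iff_le, span_singleton_le_iff_mem]
    have h := P.2.2.over ▸ mem_span_singleton_self ((l : ℕ) : ℤ)
    simpa [Ideal.mem_comap] using h
  have hprod : ∏ P : PrimesAbove K l, absNorm P.1 ∣ (l : ℕ) ^ finrank ℚ K := by
    have h := prod_absNorm_dvd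
      (T := Finset.univ.map ⟨fun P : PrimesAbove K l => P.1, Subtype.val_injective⟩)
      (fun Q hQ => by
        obtain ⟨P, -, rfl⟩ := Finset.mem_map.mp hQ; exact Chebotarev.prime_primesAbove l P)
      (fun Q hQ => by obtain ⟨P, -, rfl⟩ := Finset.mem_map.mp hQ; exact hdvd P)
    rw [Finset.prod_map, absNorm_span_singleton, show ((l : ℕ) : 𝓞 K) = algebraMap ℤ (𝓞 K) (l : ℕ)
      by simp, Algebra.norm_algebraMap, RingOfIntegers.rank, Int.natAbs_pow,
      Int.natAbs_natCast] at h
    exact h
  rw [Nat.card_eq_fintype_card]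
  have hle : (l : ℕ) ^ Fintype.card (PrimesAbove K l) ≤ (l : ℕ) ^ finrank ℚ K := by
    refine le_trans ?_ (Nat.le_of_dvd (pow_pos l.2.pos _) hprod)
    rw [← Finset.card_univ, ← Finset.prod_const]
    refine Finset.prod_le_prod' fun P _ => ?_
    have h2 := Chebotarev.two_le_absNorm (Chebotarev.prime_primesAbove l P)
    rw [Chebotarev.absNorm_primesAbove] at h2 ⊢
    refine Nat.le_self_pow (fun h => ?_) _
    rw [h, pow_zero] at h2
    omega
  exact (Nat.pow_le_pow_iff_right l.2.one_lt).mp hle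

/-- the terms of the primes whose norm is not prime -/
def highTerm (P : PrimeIdeal K) : ℝ := if (absNorm P.1).Prime then 0 else normRpow 1 P.1

theorem highTerm_nonneg (P : PrimeIdeal K) : 0 ≤ highTerm P := by
  rw [highTerm]
  split
  · exact le_rfl
  · exact Chebotarev.normRpow_nonneg _ _

theorem summable_highTerm : Summable (highTerm (K := K)) := by
  let e := Equiv.ofBijective _ (Chebotarev.toPrimeIdeal_bijective (K := K))
  rw [← e.summable_iff]
  refine (summable_sigma_of_nonneg fun x => highTerm_nonneg _).mpr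
    ⟨fun l => Summable.of_finite, ?_⟩
  have hs : Summable fun l : Nat.Primes => (finrank ℚ K : ℝ) * ((l : ℕ) : ℝ) ^ (-2 : ℝ) :=
    ((Real.summable_nat_rpow.mpr (by norm_num : (-2 : ℝ) < -1)).comp_injective
      Nat.Primes.coe_nat_injective).mul_left _
  refine Summable.of_nonneg_of_le (fun l => tsum_nonneg fun P => highTerm_nonneg _) (fun l => ?_) hs
  let _ := Fintype.ofFinite (PrimesAbove K l)
  rw [tsum_fintype]
  refine (Finset.sum_le_card_nsmul _ _ (((l : ℕ) : ℝ) ^ (-2 : ℝ)) fun P _ => ?_).trans ?_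
  · show highTerm (e ⟨l, P⟩) ≤ _
    have hP : (e ⟨l, P⟩).1 = P.1 := rfl
    rw [highTerm, hP]
    split
    · positivity
    rename_i hnp
    rw [Chebotarev.absNorm_primesAbove] at hnp
    have h2 := Chebotarev.two_le_absNorm (Chebotarev.prime_primesAbove l P)
    rw [Chebotarev.absNorm_primesAbove] at h2
    rw [normRpow, Chebotarev.absNorm_primesAbove, Nat.cast_pow, ← Real.rpow_natCast,
      ← Real.rpow_mul (Nat.cast_nonneg _)]
    refine Real.rpow_le_rpow_of_exponent_le (by exact_mod_cast l.2.one_le) ?_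
    have h3 : 2 ≤ inertiaDeg P.1 ℤ := by
      by_contra h
      rcases (by omega : inertiaDeg P.1 ℤ = 0 ∨ inertiaDeg P.1 ℤ = 1) with h | h
      · rw [h, pow_zero] at h2; omega
      · rw [h, pow_one] at hnp; exact hnp l.2
    have h4 : (2 : ℝ) ≤ (inertiaDeg P.1 ℤ : ℕ) := by exact_mod_cast h3
    linarith
  · rw [nsmul_eq_mul, Finset.card_univ, ← Nat.card_eq_fintype_card]
    exact mul_le_mul_of_nonneg_right (Nat.cast_le.mpr (card_primesAbove_le_finrank l))
      (by positivity)

theorem finite_primes_mem {x : 𝓞 K} (hx : x ≠ 0) : {P : PrimeIdeal K | x ∈ P.1}.Finite := by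
  refine Set.Finite.subset ((Multiset.toFinset (UniqueFactorizationMonoid.normalizedFactors
    (span ({x} : Set (𝓞 K))))).finite_toSet.preimage Subtype.val_injective.injOn) fun P hP => ?_
  simp only [Set.mem_preimage, Finset.mem_coe, Multiset.mem_toFinset]
  obtain ⟨Q, hQ, hass⟩ := UniqueFactorizationMonoid.exists_mem_normalizedFactors_of_dvd
    (a := span ({x} : Set (𝓞 K))) (by simpa using hx) P.2.irreducible
    (dvd_iff_le.mpr ((span_singleton_le_iff_mem P.1).mpr hP))
  rwa [associated_iff_eq.mp hass]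

theorem classChar_eq_one_of_kummer {p : ℕ} [Fact p.Prime] (h3 : 3 ≤ p) {K : Type*} [Field K]
    [NumberField K] {ζ : K} (hζ : IsPrimitiveRoot ζ p) (η : 𝓞 K)
    (hη : ∀ y : K, y ^ p ≠ (η : K)) (ψ : ClassGroup (𝓞 K) →* ℂˣ)
    (h : ∀ P : (Ideal (𝓞 K))⁰, (P : Ideal (𝓞 K)).IsPrime →
      (Ideal.absNorm (P : Ideal (𝓞 K))).Prime →
      (∀ y : 𝓞 K, y ^ p - η ∉ (P : Ideal (𝓞 K))) → ψ (ClassGroup.mk0 P) = 1) :
    ψ = 1 := by
  by_contra hψ
  have hp := (Fact.out : p.Prime)
  obtain ⟨L, _, _, hL⟩ := exists_splitting_field hζ hη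
  have hη0 : η ≠ 0 := fun h0 => hη 0 (by rw [h0, zero_pow hp.ne_zero]; simp)
  have hp0 : (p : 𝓞 K) ≠ 0 := Nat.cast_ne_zero.mpr hp.ne_zero
  set S : Set (PrimeIdeal K) := {P | (absNorm P.1).Prime ∧ η ∉ P.1 ∧ (p : 𝓞 K) ∉ P.1 ∧
    ∃ y : 𝓞 K, y ^ p - η ∈ P.1} with hS
  set E : Set (PrimeIdeal K) := {P | η * (p : 𝓞 K) ∈ P.1} with hE
  have hEfin : E.Finite := finite_primes_mem (mul_ne_zero hη0 hp0)
  set C3 : ℝ := (∑' P, highTerm (K := K) P) + hEfin.toFinset.card with hC3
  have hB : ∀ s : ℝ, 1 < s → (p : ℝ) * badSum ψ s ≤ primeSum L s + p * C3 := by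
    intro s hs
    have hA : Summable (Set.indicator S fun P => normRpow s P.1) :=
      (Chebotarev.summable_primeSum hs).indicator S
    have hF : HasSum (Set.indicator E fun _ : PrimeIdeal K => (1 : ℝ)) (hEfin.toFinset.card : ℝ) := by
      have h1 : ∀ P ∉ hEfin.toFinset, Set.indicator E (fun _ : PrimeIdeal K => (1 : ℝ)) P = 0 :=
        fun P hP => Set.indicator_of_notMem (by simpa using hP) _
      have h2 := hasSum_sum_of_ne_finset_zero (L := SummationFilter.unconditional _) h1
      rwa [Finset.sum_congr rfl fun P hP => Set.indicator_of_mem (by simpa using hP) _,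
        Finset.sum_const, nsmul_eq_mul, mul_one] at h2
    have hle : badSum ψ s ≤ ∑' P, Set.indicator S (fun P => normRpow s P.1) P + C3 := by
      rw [hC3, ← hF.tsum_eq, ← summable_highTerm.tsum_add hF.summable,
        ← hA.tsum_add (summable_highTerm.add hF.summable)]
      refine (summable_badTerm ψ hs).tsum_le_tsum (fun P => ?_)
        (hA.add (summable_highTerm.add hF.summable))
      have h0A : 0 ≤ Set.indicator S (fun P => normRpow s P.1) P :=
        Set.indicator_nonneg (fun P _ => Chebotarev.normRpow_nonneg s _) _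
      have h0F : 0 ≤ Set.indicator E (fun _ : PrimeIdeal K => (1 : ℝ)) P :=
        Set.indicator_nonneg (fun _ _ => zero_le_one) _
      have h0H := highTerm_nonneg P
      rw [badTerm]
      split
      · positivity
      rename_i hne
      by_cases hN : (absNorm P.1).Prime
      · by_cases hPE : P ∈ E
        · rw [Set.indicator_of_mem hPE]
          linarith [Chebotarev.normRpow_prime_le_half P.2 hs.le]
        · have hη' : η ∉ P.1 := fun h' => hPE (P.1.mul_mem_right _ h')
          have hp' : (p : 𝓞 K) ∉ P.1 := fun h' => hPE (P.1.mul_mem_left _ h')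
          have hy : ∃ y : 𝓞 K, y ^ p - η ∈ P.1 := by
            by_contra hcon
            push Not at hcon
            refine hne ?_
            have hmem : P.1 ∈ (Ideal (𝓞 K))⁰ := mem_nonZeroDivisors_iff_ne_zero.mpr P.2.ne_zero
            rw [← Subtype.coe_mk P.1 hmem, chiFun_coe,
              h ⟨P.1, hmem⟩ (isPrime_of_prime P.2) hN hcon, Units.val_one]
          have hPS : P ∈ S := ⟨hN, hη', hp', hy⟩
          rw [Set.indicator_of_mem hPS]
          linarith
      · rw [highTerm, if_neg hN]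
        have : normRpow s P.1 ≤ normRpow 1 P.1 := Real.rpow_le_rpow_of_exponent_le
          (by exact_mod_cast le_trans one_le_two (Chebotarev.two_le_absNorm P.2)) (by linarith)
        linarith
    rw [← tsum_subtype S fun P => normRpow s P.1] at hle
    have h1 := hL S (fun P hP => hP) s hs
    have hp1 : (0 : ℝ) ≤ p := Nat.cast_nonneg _
    nlinarith [mul_le_mul_of_nonneg_left hle hp1]
  obtain ⟨C, hC⟩ := primeSum_le_badSum ψ hψ
  obtain ⟨C1, hC1⟩ := (Chebotarev.primeSum_add_log_isBigO (K := K)).bound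
  obtain ⟨C2, hC2⟩ := (Chebotarev.primeSum_add_log_isBigO (K := L)).bound
  have hlog : Tendsto (fun s : ℝ => Real.log (s - 1)) (𝓝[>] 1) atBot := by
    refine Real.tendsto_log_nhdsGT_zero.comp (tendsto_nhdsWithin_iff.mpr ⟨?_, ?_⟩)
    · have hc : Continuous fun s : ℝ => s - 1 := by fun_prop
      simpa using (hc.tendsto (1 : ℝ)).mono_left (nhdsWithin_le_nhds (s := Set.Ioi 1))
    · filter_upwards [self_mem_nhdsWithin] with s (hs : 1 < s)
      exact sub_pos.mpr hs
  obtain ⟨s, hs0, hs1, hs2, hsl, hs⟩ := (hC.and (hC1.and (hC2.and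
    ((hlog.eventually (eventually_lt_atBot
      (-(p * (C + C1) + 2 * C2 + 2 * p * C3) / ((p : ℝ) - 2)))).and
        self_mem_nhdsWithin)))).exists
  have hs' : (1 : ℝ) < s := hs
  rw [norm_one, mul_one, Real.norm_eq_abs, abs_le] at hs1 hs2
  have hpR : (3 : ℝ) ≤ p := by exact_mod_cast h3
  have hb := hB s hs'
  rw [lt_div_iff₀ (by linarith : (0 : ℝ) < (p : ℝ) - 2)] at hsl
  have h4 := mul_le_mul_of_nonneg_left hs0 (by linarith : (0 : ℝ) ≤ (p : ℝ))
  have h5 := mul_le_mul_of_nonneg_left hs1.1 (by linarith : (0 : ℝ) ≤ (p : ℝ))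
  linarith [hs2.2]

end FLTAgent.Ext
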