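import Mathlib.NumberTheory.NumberField.CanonicalEmbedding.FundamentalCone
import Mathlib.Algebra.Module.ZLattice.Summable
import Mathlib.Analysis.SpecialFunctions.Pow.Real

/-!
Area EXT, analytic parcel: a compactly supported partition of unity for the action of the units and
the associated weight `F_s(x) = cutoff(logMap x) |N x| ^ (-s)` on the mixed space.
-/

set_option autoImplicit false

noncomputable section

open NumberField NumberField.InfinitePlace NumberField.mixedEmbedding NumberField.Units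
  NumberField.Units.dirichletUnitTheorem NumberField.mixedEmbedding.fundamentalCone Module

open scoped Classical

namespace FLTAgent.Ext

/-- the tent function -/
def tent (t : ℝ) : ℝ := max 0 (1 - |t|)

theorem tent_nonneg (t : ℝ) : 0 ≤ tent t := le_max_left _ _

theorem tent_le_one (t : ℝ) : tent t ≤ 1 := max_le zero_le_one (by linarith [abs_nonneg t])

theorem tent_lip (a b : ℝ) : |tent a - tent b| ≤ |a - b| := by
  unfold tent
  have h1 := abs_sub_abs_le_abs_sub a b
  have h2 := abs_sub_abs_le_abs_sub b a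
  rw [abs_sub_comm b a] at h2
  refine (abs_max_sub_max_le_max _ _ _ _).trans (max_le (by simp) ?_)
  rw [abs_le]
  constructor <;> linarith

theorem abs_lt_one_of_tent_ne_zero {t : ℝ} (h : tent t ≠ 0) : |t| < 1 := by
  by_contra h'
  push Not at h'
  exact h (max_eq_left (by linarith))

/-- the two integer translates on which the tent is not zero -/
def tentSet (a : ℝ) : Finset ℤ := {-⌊a⌋, -⌊a⌋ - 1}

theorem sum_tent (a : ℝ) : ∑ n ∈ tentSet a, tent (a + n) = 1 := by
  rw [tentSet, Finset.sum_pair (by omega)]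
  have h1 := Int.floor_le a
  have h2 := Int.lt_floor_add_one a
  simp only [tent, Int.cast_neg, Int.cast_sub, Int.cast_one]
  rw [abs_of_nonneg (show 0 ≤ a + -(⌊a⌋ : ℝ) by linarith),
    abs_of_nonpos (show a + (-(⌊a⌋ : ℝ) - 1) ≤ 0 by linarith), max_eq_right (by linarith),
    max_eq_right (by linarith)]
  ring

theorem tent_eq_zero_of_not_mem {a : ℝ} {n : ℤ} (h : n ∉ tentSet a) : tent (a + n) = 0 := by
  by_contra h'
  have h3 := abs_lt.mp (abs_lt_one_of_tent_ne_zero h')
  have h1 := Int.floor_le a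
  have h2 := Int.lt_floor_add_one a
  have h4 : ((-2 : ℤ) : ℝ) < ((⌊a⌋ + n : ℤ) : ℝ) := by push_cast; linarith
  have h5 : ((⌊a⌋ + n : ℤ) : ℝ) < ((1 : ℤ) : ℝ) := by push_cast; linarith
  rw [Int.cast_lt] at h4 h5
  simp only [tentSet, Finset.mem_insert, Finset.mem_singleton] at h
  omega

theorem abs_prod_sub_prod_le {ι : Type*} (S : Finset ι) {a b : ι → ℝ} (ha : ∀ i, 0 ≤ a i)
    (ha' : ∀ i, a i ≤ 1) (hb : ∀ i, 0 ≤ b i) (hb' : ∀ i, b i ≤ 1) :
    |∏ i ∈ S, a i - ∏ i ∈ S, b i| ≤ ∑ i ∈ S, |a i - b i| := by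
  classical
  induction S using Finset.induction with
  | empty => simp
  | insert i S hi ih =>
    rw [Finset.prod_insert hi, Finset.prod_insert hi, Finset.sum_insert hi,
      show a i * ∏ j ∈ S, a j - b i * ∏ j ∈ S, b j =
        (a i - b i) * ∏ j ∈ S, a j + b i * (∏ j ∈ S, a j - ∏ j ∈ S, b j) by ring]
    refine (abs_add_le _ _).trans (add_le_add ?_ ?_)
    · rw [abs_mul]
      refine mul_le_of_le_one_right (abs_nonneg _) ?_
      rw [abs_of_nonneg (Finset.prod_nonneg fun j _ => ha j)]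
      exact Finset.prod_le_one (fun j _ => ha j) fun j _ => ha' j
    · rw [abs_mul, abs_of_nonneg (hb i)]
      exact (mul_le_of_le_one_left (abs_nonneg _) (hb' i)).trans ih

variable (K : Type*) [Field K] [NumberField K]

/-- coordinates in the basis of the unit lattice -/
def unitCoord : logSpace K →L[ℝ] (Fin (rank K) → ℝ) :=
  LinearMap.toContinuousLinearMap
    (((basisUnitLattice K).ofZLatticeBasis ℝ (unitLattice K)).equivFun : logSpace K →ₗ[ℝ] _)

variable {K}

theorem unitCoord_logEmbedding (u : (𝓞 K)ˣ) {ζ : torsion K} {n : Fin (rank K) → ℤ}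
    (h : u = ζ * ∏ i, fundSystem K i ^ n i) (i : Fin (rank K)) :
    unitCoord K (logEmbedding K (Additive.ofMul u)) i = n i := by
  have hz : logEmbedding K (Additive.ofMul (ζ : (𝓞 K)ˣ)) = 0 := logEmbedding_eq_zero_iff.mpr ζ.2
  have he : logEmbedding K (Additive.ofMul u) =
      ((∑ j, n j • basisUnitLattice K j : unitLattice K) : logSpace K) := by
    rw [h, ofMul_mul, map_add, hz, zero_add, ofMul_prod, map_sum, AddSubmonoidClass.coe_finset_sum]
    refine Finset.sum_congr rfl fun j _ => ?_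
    rw [ofMul_zpow, map_zsmul, logEmbedding_fundSystem]
    rfl
  simp only [unitCoord, LinearMap.coe_toContinuousLinearMap', LinearEquiv.coe_coe,
    Basis.equivFun_apply]
  rw [he, Basis.ofZLatticeBasis_repr_apply, Basis.repr_sum_self]

/-- the cut-off function on the logarithmic space -/
def cutoff (t : logSpace K) : ℝ := ∏ i, tent (unitCoord K t i)

theorem cutoff_nonneg (t : logSpace K) : 0 ≤ cutoff t :=
  Finset.prod_nonneg fun _ _ => tent_nonneg _

theorem cutoff_le_one (t : logSpace K) : cutoff t ≤ 1 :=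
  Finset.prod_le_one (fun _ _ => tent_nonneg _) fun _ _ => tent_le_one _

variable (K) in
/-- units as torsion times exponents -/
def unitsEquiv : torsion K × (Fin (rank K) → ℤ) ≃ (𝓞 K)ˣ :=
  Equiv.ofBijective (fun ζe => ζe.1 * ∏ i, fundSystem K i ^ ζe.2 i)
    ((Function.bijective_iff_existsUnique _).mpr fun u => by
      obtain ⟨ζe, h1, h2⟩ := exist_unique_eq_mul_prod K u
      exact ⟨ζe, h1.symm, fun y hy => h2 y hy.symm⟩)

/-- the translates of the cut-off by the units add up to the number of roots of unity -/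
theorem hasSum_cutoff (t : logSpace K) :
    HasSum (fun u : (𝓞 K)ˣ => cutoff (logEmbedding K (Additive.ofMul u) + t)) (torsionOrder K) := by
  classical
  rw [← (unitsEquiv K).hasSum_iff]
  have := Fintype.ofFinite (torsion K)
  let S : Finset (torsion K × (Fin (rank K) → ℤ)) :=
    Finset.univ ×ˢ Fintype.piFinset fun i => tentSet (unitCoord K t i)
  have e : ∀ x : torsion K × (Fin (rank K) → ℤ),
      cutoff (logEmbedding K (Additive.ofMul (unitsEquiv K x)) + t) =
        ∏ i, tent (unitCoord K t i + x.2 i) := fun x => by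
    refine Finset.prod_congr rfl fun i _ => ?_
    rw [map_add, Pi.add_apply,
      unitCoord_logEmbedding (unitsEquiv K x) (ζ := x.1) (n := x.2) rfl, add_comm]
  have hsum : ∑ x ∈ S, ∏ i, tent (unitCoord K t i + x.2 i) = torsionOrder K := by
    rw [Finset.sum_product]
    simp only [Finset.sum_const, Finset.sum_prod_piFinset, sum_tent, Finset.prod_const_one,
      nsmul_eq_mul, mul_one, Finset.card_univ]
    rw [torsionOrder, Nat.card_eq_fintype_card]
    rw [← Finset.prod_univ_sum (t := fun i => tentSet (unitCoord K t i))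
      (f := fun i (n : ℤ) => tent (unitCoord K t i + n))]
    simp [sum_tent]
  rw [← hsum]
  simp only [Function.comp_def, e]
  refine hasSum_sum_of_ne_finset_zero fun x hx => ?_
  simp only [S, Finset.mem_product, Finset.mem_univ, true_and, Fintype.mem_piFinset, not_forall] at hx
  obtain ⟨i, hi⟩ := hx
  exact Finset.prod_eq_zero (Finset.mem_univ i) (tent_eq_zero_of_not_mem hi)

/-- the weight -/
def wt (s : ℝ) (x : mixedSpace K) : ℝ := cutoff (logMap x) * mixedEmbedding.norm x ^ (-s)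

theorem wt_nonneg (s : ℝ) (x : mixedSpace K) : 0 ≤ wt s x :=
  mul_nonneg (cutoff_nonneg _) (Real.rpow_nonneg (mixedEmbedding.norm_nonneg _) _)

theorem wt_eq_zero {s : ℝ} (hs : s ≠ 0) {x : mixedSpace K} (h : mixedEmbedding.norm x = 0) :
    wt s x = 0 := by
  rw [wt, h, Real.zero_rpow (neg_ne_zero.mpr hs), mul_zero]

theorem wt_smul {s : ℝ} (hs : s ≠ 0) {c : ℝ} (hc : 0 < c) (x : mixedSpace K) :
    wt s (c • x) = (c ^ finrank ℚ K) ^ (-s) * wt s x := by
  have hn : mixedEmbedding.norm (c • x) = c ^ finrank ℚ K * mixedEmbedding.norm x := by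
    rw [mixedEmbedding.norm_smul, abs_of_pos hc]
  by_cases hx : mixedEmbedding.norm x = 0
  · rw [wt_eq_zero hs hx, wt_eq_zero hs (by rw [hn, hx, mul_zero]), mul_zero]
  · rw [wt, wt, logMap_real_smul hx hc.ne', hn,
      Real.mul_rpow (by positivity) (mixedEmbedding.norm_nonneg _)]
    ring

theorem log_norm_eq {x : mixedSpace K} (hx : ∀ w, normAtPlace w x ≠ 0) :
    Real.log (mixedEmbedding.norm x) = ∑ w, (mult w : ℝ) * Real.log (normAtPlace w x) := by
  rw [mixedEmbedding.norm_apply, Real.log_prod fun w _ => pow_ne_zero _ (hx w)]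
  simp only [Real.log_pow]

theorem normAtPlace_le_norm (w : InfinitePlace K) (x : mixedSpace K) : normAtPlace w x ≤ ‖x‖ := by
  rw [norm_eq_sup'_normAtPlace]
  exact Finset.le_sup' (fun w => normAtPlace w x) (Finset.mem_univ w)

/-- on the support of the cut-off all the absolute values are comparable -/
theorem exists_supp_const : ∃ c : ℝ, 0 < c ∧ ∀ x : mixedSpace K,
    mixedEmbedding.norm x ≠ 0 → cutoff (logMap x) ≠ 0 → ∀ w, c * ‖x‖ ≤ normAtPlace w x := by
  classical
  let e := ((basisUnitLattice K).ofZLatticeBasis ℝ (unitLattice K)).equivFun.symm.toLinearMap.toContinuousLinearMap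
  set B : ℝ := ‖e‖ * (Fintype.card (InfinitePlace K) + 1) with hB
  refine ⟨Real.exp (-(2 * B)), Real.exp_pos _, fun x hx hc w => ?_⟩
  have hne := mixedEmbedding.norm_ne_zero_iff.mp hx
  set m : ℝ := Real.log (mixedEmbedding.norm x) * (finrank ℚ K : ℝ)⁻¹ with hm
  have ht : ‖logMap x‖ ≤ ‖e‖ := by
    have h1 : ‖unitCoord K (logMap x)‖ ≤ 1 := (pi_norm_le_iff_of_nonneg zero_le_one).mpr fun i =>
      (abs_lt_one_of_tent_ne_zero (Finset.prod_ne_zero_iff.mp hc i (Finset.mem_univ i))).le
    calc ‖logMap x‖ = ‖e (unitCoord K (logMap x))‖ := by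
          congr 1
          exact (LinearEquiv.symm_apply_apply _ _).symm
      _ ≤ ‖e‖ * ‖unitCoord K (logMap x)‖ := e.le_opNorm _
      _ ≤ ‖e‖ := mul_le_of_le_one_right (norm_nonneg e) h1
  have hcomp : ∀ v : InfinitePlace K, v ≠ w₀ →
      |(mult v : ℝ) * (Real.log (normAtPlace v x) - m)| ≤ ‖e‖ := fun v hv => by
    rw [← logMap_apply x ⟨v, hv⟩]
    exact ((norm_le_pi_norm (logMap x) ⟨v, hv⟩).trans ht)
  have hall : ∀ v : InfinitePlace K, |Real.log (normAtPlace v x) - m| ≤ B := by
    intro v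
    have hmul : |Real.log (normAtPlace v x) - m| ≤
        |(mult v : ℝ) * (Real.log (normAtPlace v x) - m)| := by
      rw [abs_mul, Nat.abs_cast]
      exact le_mul_of_one_le_left (abs_nonneg _) one_le_mult
    by_cases hv : v = w₀
    · subst hv
      refine hmul.trans ?_
      have hsum : ∑ u, (mult u : ℝ) * (Real.log (normAtPlace u x) - m) = 0 := by
        simp only [mul_sub, Finset.sum_sub_distrib, ← Finset.sum_mul, ← log_norm_eq hne,
          ← Nat.cast_sum, sum_mult_eq, hm]
        have : (finrank ℚ K : ℝ) ≠ 0 := Nat.cast_ne_zero.mpr finrank_pos.ne'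
        field_simp
        ring
      rw [← Finset.add_sum_erase _ _ (Finset.mem_univ (w₀ : InfinitePlace K)),
        add_eq_zero_iff_eq_neg] at hsum
      rw [hsum, abs_neg]
      refine (Finset.abs_sum_le_sum_abs _ _).trans ((Finset.sum_le_card_nsmul _ _ ‖e‖
        fun u hu => hcomp u (Finset.ne_of_mem_erase hu)).trans ?_)
      rw [nsmul_eq_mul, hB, mul_comm]
      refine mul_le_mul_of_nonneg_left ?_ (norm_nonneg e)
      have : ((Finset.univ.erase (w₀ : InfinitePlace K)).card : ℝ) ≤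
          Fintype.card (InfinitePlace K) := by exact_mod_cast Finset.card_le_univ _
      linarith
    · exact (hmul.trans (hcomp v hv)).trans (le_mul_of_one_le_right (norm_nonneg e) (by simp))
  have hpos : ∀ v, 0 < normAtPlace v x := fun v =>
    lt_of_le_of_ne (normAtPlace_nonneg v x) (hne v).symm
  have hup : ‖x‖ ≤ Real.exp (m + B) := by
    rw [norm_eq_sup'_normAtPlace]
    refine Finset.sup'_le _ _ fun v _ => ?_
    rw [← Real.exp_log (hpos v)]
    exact Real.exp_le_exp.mpr (by linarith [(abs_le.mp (hall v)).2])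
  calc Real.exp (-(2 * B)) * ‖x‖ ≤ Real.exp (-(2 * B)) * Real.exp (m + B) :=
        mul_le_mul_of_nonneg_left hup (Real.exp_pos _).le
    _ ≤ normAtPlace w x := by
        rw [← Real.exp_add, ← Real.exp_log (hpos w)]
        exact Real.exp_le_exp.mpr (by linarith [(abs_le.mp (hall w)).1])

theorem abs_log_sub_log_le {a b ρ D : ℝ} (hρ : 0 < ρ) (ha : ρ ≤ a) (hb : ρ ≤ b)
    (h : |a - b| ≤ D) : |Real.log a - Real.log b| ≤ D / ρ := by
  have key : ∀ u v : ℝ, ρ ≤ u → ρ ≤ v → |u - v| ≤ D → Real.log u - Real.log v ≤ D / ρ := by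
    intro u v hu hv huv
    have hv0 : 0 < v := hρ.trans_le hv
    have hu0 : 0 < u := hρ.trans_le hu
    rw [← Real.log_div hu0.ne' hv0.ne']
    refine (Real.log_le_sub_one_of_pos (by positivity)).trans ?_
    rw [div_sub_one hv0.ne', div_le_div_iff₀ hv0 hρ]
    have h1 := (abs_le.mp huv).2
    have h2 : 0 ≤ D := (abs_nonneg _).trans huv
    nlinarith
  rw [abs_le]
  exact ⟨by linarith [key b a hb ha (by rwa [abs_sub_comm])], key a b ha hb h⟩

theorem abs_exp_sub_exp_le {u v T : ℝ} (hu : Real.exp u ≤ T) (hv : Real.exp v ≤ T) :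
    |Real.exp u - Real.exp v| ≤ |u - v| * T := by
  have key : ∀ a b : ℝ, Real.exp a ≤ T → Real.exp a - Real.exp b ≤ |a - b| * T := by
    intro a b ha
    have h1 : Real.exp b = Real.exp a * Real.exp (b - a) := by rw [← Real.exp_add]; ring_nf
    have h2 := Real.add_one_le_exp (b - a)
    have h3 := Real.exp_pos a
    calc Real.exp a - Real.exp b ≤ (a - b) * Real.exp a := by rw [h1]; nlinarith
      _ ≤ |a - b| * Real.exp a := mul_le_mul_of_nonneg_right (le_abs_self _) h3.le
      _ ≤ |a - b| * T := mul_le_mul_of_nonneg_left ha (abs_nonneg _)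
  rw [abs_le]
  refine ⟨?_, key u v hu⟩
  have := key v u hv
  rw [abs_sub_comm v u] at this
  linarith

/-- the weight varies little over a bounded translation -/
theorem exists_wt_bound (r : mixedSpace K) : ∃ C R : ℝ, 0 ≤ C ∧ 0 < R ∧
    ∀ x : mixedSpace K, R ≤ ‖x‖ → ∀ s ∈ Set.Icc (1 : ℝ) 2,
      |wt s (x + r) - wt s x| ≤ C * ‖x‖ ^ (-((finrank ℚ K : ℝ) + 1)) := by
  classical
  obtain ⟨c, hc, hsupp⟩ := exists_supp_const (K := K)
  set d : ℕ := finrank ℚ K with hd
  set D : ℝ := ‖r‖ with hD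
  set A : ℝ := rank K * (‖unitCoord K‖ * 4) + 2 * d with hA
  refine ⟨A * D * (4 / c) ^ (d + 1), 4 / c + 2 * D + 4 * D / c, by positivity, by positivity,
    fun x hx s hs => ?_⟩
  have hD0 : 0 ≤ D := norm_nonneg r
  have hDc : 0 ≤ 4 * D / c := by positivity
  have h4c : 0 < 4 / c := by positivity
  have hx0 : 0 < ‖x‖ := by linarith
  set ρ : ℝ := c * ‖x‖ / 4 with hρdef
  have hρ1 : 1 ≤ ρ := by
    have : 4 / c ≤ ‖x‖ := by linarith
    rw [div_le_iff₀ hc] at this
    rw [hρdef]; linarith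
  have hρ0 : 0 < ρ := by linarith
  have hDρ : D ≤ ρ := by
    have : 4 * D / c ≤ ‖x‖ := by linarith
    rw [div_le_iff₀ hc] at this
    rw [hρdef]; linarith
  have hrw : ‖x‖ ^ (-((d : ℝ) + 1)) = (‖x‖ ^ (d + 1))⁻¹ := by
    rw [Real.rpow_neg (norm_nonneg x), ← Nat.cast_succ, Real.rpow_natCast]
  rw [hrw]
  have hs0 : s ≠ 0 := by linarith [hs.1]
  by_cases hzero : wt s (x + r) = 0 ∧ wt s x = 0
  · rw [hzero.1, hzero.2, sub_zero, abs_zero]
    positivity
  have hdiff : ∀ w, |normAtPlace w (x + r) - normAtPlace w x| ≤ D := fun w => by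
    have h1 := normAtPlace_add_le w x r
    have h2 := normAtPlace_add_le w (x + r) (-r)
    rw [normAtPlace_neg, add_neg_cancel_right] at h2
    have h3 := normAtPlace_le_norm w r
    rw [abs_le]; constructor <;> linarith
  have hne : ∀ {z : mixedSpace K}, wt s z ≠ 0 → ∀ w, c * ‖z‖ ≤ normAtPlace w z := fun {z} hz =>
    hsupp z (fun h => hz (wt_eq_zero hs0 h)) (left_ne_zero_of_mul hz)
  have hlow : ∀ w, ρ ≤ normAtPlace w x ∧ ρ ≤ normAtPlace w (x + r) := by
    intro w
    have hd' := abs_le.mp (hdiff w)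
    rcases not_and_or.mp hzero with h | h
    · have h1 := hne h w
      have h2 : ‖x‖ / 2 ≤ ‖x + r‖ := by
        have h5 := norm_le_add_norm_add x r
        linarith
      have h3 : c * (‖x‖ / 2) ≤ c * ‖x + r‖ := mul_le_mul_of_nonneg_left h2 hc.le
      rw [hρdef] at hDρ ⊢
      constructor <;> linarith
    · have h1 := hne h w
      rw [hρdef] at hDρ ⊢
      constructor <;> linarith
  set δ : ℝ := D / ρ with hδ
  have hδ0 : 0 ≤ δ := by positivity
  have hlog : ∀ w, |Real.log (normAtPlace w (x + r)) - Real.log (normAtPlace w x)| ≤ δ := fun w =>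
    abs_log_sub_log_le hρ0 (hlow w).2 (hlow w).1 (hdiff w)
  have hnz : ∀ z : mixedSpace K, (∀ w, ρ ≤ normAtPlace w z) → ∀ w, normAtPlace w z ≠ 0 := fun z hz w =>
    (hρ0.trans_le (hz w)).ne'
  have hz1 : ∀ w, ρ ≤ normAtPlace w (x + r) := fun w => (hlow w).2
  have hz2 : ∀ w, ρ ≤ normAtPlace w x := fun w => (hlow w).1
  set L₁ := Real.log (mixedEmbedding.norm (x + r)) with hL₁
  set L₂ := Real.log (mixedEmbedding.norm x) with hL₂
  have hL : |L₁ - L₂| ≤ d * δ := by
    rw [hL₁, hL₂, log_norm_eq (hnz _ hz1), log_norm_eq (hnz _ hz2), ← Finset.sum_sub_distrib]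
    refine (Finset.abs_sum_le_sum_abs _ _).trans ?_
    calc _ ≤ ∑ w : InfinitePlace K, (mult w : ℝ) * δ := Finset.sum_le_sum fun w _ => by
          rw [← mul_sub, abs_mul, Nat.abs_cast]
          exact mul_le_mul_of_nonneg_left (hlog w) (Nat.cast_nonneg _)
      _ = d * δ := by rw [← Finset.sum_mul, ← Nat.cast_sum, sum_mult_eq]
  have hd0 : (0 : ℝ) < d := Nat.cast_pos.mpr finrank_pos
  have hmap : ‖logMap (x + r) - logMap x‖ ≤ 4 * δ := by
    refine (pi_norm_le_iff_of_nonneg (by positivity)).mpr fun w => ?_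
    rw [Pi.sub_apply, logMap_apply, logMap_apply, ← mul_sub, Real.norm_eq_abs, abs_mul,
      Nat.abs_cast, ← hL₁, ← hL₂]
    have h2 : (mult w.1 : ℝ) ≤ 2 := by
      have : mult w.1 ≤ 2 := by unfold mult; split_ifs <;> norm_num
      exact_mod_cast this
    have h1 := abs_le.mp (hlog w.1)
    have h3 : |L₁ * (d : ℝ)⁻¹ - L₂ * (d : ℝ)⁻¹| ≤ δ := by
      rw [← sub_mul, abs_mul, abs_of_nonneg (by positivity : (0 : ℝ) ≤ (d : ℝ)⁻¹),
        ← div_eq_mul_inv, div_le_iff₀ hd0, mul_comm δ]
      exact hL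
    have h4 := abs_le.mp h3
    refine (mul_le_mul h2 (d := 2 * δ) ?_ (abs_nonneg _) zero_le_two).trans (by linarith)
    rw [abs_le]; constructor <;> linarith
  have hcut : |cutoff (logMap (x + r)) - cutoff (logMap x)| ≤ rank K * (‖unitCoord K‖ * 4) * δ := by
    refine (abs_prod_sub_prod_le _ (fun _ => tent_nonneg _) (fun _ => tent_le_one _)
      (fun _ => tent_nonneg _) (fun _ => tent_le_one _)).trans ?_
    refine (Finset.sum_le_card_nsmul _ _ (‖unitCoord K‖ * (4 * δ)) fun i _ => ?_).trans ?_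
    · refine (tent_lip _ _).trans ?_
      rw [← Pi.sub_apply, ← map_sub]
      exact (norm_le_pi_norm (unitCoord K (logMap (x + r) - logMap x)) i).trans
        (((unitCoord K).le_opNorm _).trans (mul_le_mul_of_nonneg_left hmap (norm_nonneg _)))
    · simp only [Finset.card_univ, Fintype.card_fin, nsmul_eq_mul]
      exact le_of_eq (by ring)
  have hN : ∀ z : mixedSpace K, (∀ w, ρ ≤ normAtPlace w z) → 0 < mixedEmbedding.norm z ∧
      mixedEmbedding.norm z ^ (-s) ≤ (ρ ^ d)⁻¹ ∧
      mixedEmbedding.norm z ^ (-s) = Real.exp (Real.log (mixedEmbedding.norm z) * -s) := by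
    intro z hz
    have h1 : ρ ^ d ≤ mixedEmbedding.norm z := by
      rw [hd, ← sum_mult_eq, ← Finset.prod_pow_eq_pow_sum, mixedEmbedding.norm_apply]
      exact Finset.prod_le_prod (fun w _ => by positivity) fun w _ =>
        pow_le_pow_left₀ hρ0.le (hz w) _
    have h2 : 1 ≤ mixedEmbedding.norm z := (one_le_pow₀ hρ1).trans h1
    refine ⟨by linarith, ?_, Real.rpow_def_of_pos (by linarith) _⟩
    calc mixedEmbedding.norm z ^ (-s) ≤ mixedEmbedding.norm z ^ (-1 : ℝ) :=
          Real.rpow_le_rpow_of_exponent_le h2 (by linarith [hs.1])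
      _ ≤ (ρ ^ d)⁻¹ := by rw [Real.rpow_neg_one]; exact inv_anti₀ (by positivity) h1
  obtain ⟨hp1, hb1, he1⟩ := hN _ hz1
  obtain ⟨hp2, hb2, he2⟩ := hN _ hz2
  have hpow : |mixedEmbedding.norm (x + r) ^ (-s) - mixedEmbedding.norm x ^ (-s)| ≤
      2 * d * δ * (ρ ^ d)⁻¹ := by
    rw [he1, he2]
    refine (abs_exp_sub_exp_le (he1 ▸ hb1) (he2 ▸ hb2)).trans ?_
    refine mul_le_mul_of_nonneg_right ?_ (by positivity)
    rw [← sub_mul, abs_mul, abs_neg, abs_of_nonneg (show 0 ≤ s by linarith [hs.1]), ← hL₁, ← hL₂,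
      mul_assoc, mul_comm |L₁ - L₂|]
    exact mul_le_mul hs.2 hL (abs_nonneg _) zero_le_two
  calc |wt s (x + r) - wt s x|
      = |(cutoff (logMap (x + r)) - cutoff (logMap x)) * mixedEmbedding.norm (x + r) ^ (-s) +
          cutoff (logMap x) *
            (mixedEmbedding.norm (x + r) ^ (-s) - mixedEmbedding.norm x ^ (-s))| := by
        simp only [wt]; ring_nf
    _ ≤ rank K * (‖unitCoord K‖ * 4) * δ * (ρ ^ d)⁻¹ + 1 * (2 * d * δ * (ρ ^ d)⁻¹) := by
        refine (abs_add_le _ _).trans (add_le_add ?_ ?_) <;> rw [abs_mul]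
        · exact mul_le_mul hcut (by rwa [abs_of_nonneg (Real.rpow_nonneg hp1.le _)]) (abs_nonneg _)
            (by positivity)
        · exact mul_le_mul (by rw [abs_of_nonneg (cutoff_nonneg _)]; exact cutoff_le_one _) hpow
            (abs_nonneg _) zero_le_one
    _ = A * D * (4 / c) ^ (d + 1) * (‖x‖ ^ (d + 1))⁻¹ := by
        rw [hA, hδ, hρdef, div_pow, div_pow, mul_pow]
        have := hx0.ne'
        have := hc.ne'
        field_simp
        ring

end FLTAgent.Ext
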