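import Fermat.Agent.Ext.ClassWeight
import Fermat.Agent.Chebotarev.Zeta

/-!
Area EXT, analytic parcel: the partial zeta functions of two ideal classes differ by a bounded
function on `(1, 2]`.
-/

set_option autoImplicit false

noncomputable section

open NumberField NumberField.mixedEmbedding NumberField.Units
  NumberField.Units.dirichletUnitTheorem NumberField.mixedEmbedding.fundamentalCone Module
  Ideal Filter Topology Asymptotics
open scoped nonZeroDivisors Classical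

set_option maxHeartbeats 400000

namespace FLTAgent.Ext

open Chebotarev (normRpow zetaReal)

variable {K : Type*} [Field K] [NumberField K]

/-- partial zeta function of an ideal class -/
def classZeta (C : ClassGroup (𝓞 K)) (s : ℝ) : ℝ :=
  ∑' I : {I : (Ideal (𝓞 K))⁰ // ClassGroup.mk0 I = C}, normRpow s (I.1 : Ideal (𝓞 K))

theorem summable_classZeta (C : ClassGroup (𝓞 K)) {s : ℝ} (hs : 1 < s) :
    Summable fun I : {I : (Ideal (𝓞 K))⁰ // ClassGroup.mk0 I = C} =>
      normRpow s (I.1 : Ideal (𝓞 K)) :=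
  (Chebotarev.summable_normRpow hs).comp_injective
    (Subtype.val_injective.comp Subtype.val_injective)

theorem classZeta_nonneg (C : ClassGroup (𝓞 K)) (s : ℝ) : 0 ≤ classZeta C s :=
  tsum_nonneg fun _ => Chebotarev.normRpow_nonneg _ _

theorem classZeta_le (C : ClassGroup (𝓞 K)) {s : ℝ} (hs : 1 < s) : classZeta C s ≤ zetaReal K s :=
  tsum_comp_le_tsum_of_inj (Chebotarev.summable_normRpow hs)
    (fun I => Chebotarev.normRpow_nonneg s I) (Subtype.val_injective.comp Subtype.val_injective)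

/-- the mixed embedding of an integer -/
abbrev embI (x : 𝓞 K) : mixedSpace K := mixedEmbedding K (x : K)

theorem norm_embI (x : 𝓞 K) :
    mixedEmbedding.norm (embI x) = (absNorm (span ({x} : Set (𝓞 K))) : ℝ) := by
  rw [norm_eq_norm, absNorm_span_singleton, ← Algebra.coe_norm_int, Nat.cast_natAbs]
  push_cast
  simp

theorem wt_embI_le_one {s : ℝ} (hs : 1 < s) (x : 𝓞 K) : wt s (embI x) ≤ 1 := by
  rcases eq_or_ne (mixedEmbedding.norm (embI x)) 0 with h | h
  · rw [wt_eq_zero (by linarith) h]; exact zero_le_one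
  · have h1 : 1 ≤ mixedEmbedding.norm (embI x) := by
      rw [norm_embI] at h ⊢
      exact_mod_cast Nat.one_le_iff_ne_zero.mpr (by exact_mod_cast h)
    exact (mul_le_mul_of_nonneg_right (cutoff_le_one _) (Real.rpow_nonneg (by linarith) _)).trans
      (by rw [one_mul]; exact Real.rpow_le_one_of_one_le_of_nonpos h1 (by linarith))

theorem exists_gen {C : ClassGroup (𝓞 K)} {J : (Ideal (𝓞 K))⁰} (hJ : ClassGroup.mk0 J = C⁻¹)
    (I : {I : (Ideal (𝓞 K))⁰ // ClassGroup.mk0 I = C}) :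
    ∃ g : 𝓞 K, g ≠ 0 ∧ span {g} = (J : Ideal (𝓞 K)) * (I.1 : Ideal (𝓞 K)) := by
  have h : ClassGroup.mk0 (J * I.1) = 1 := by rw [map_mul, hJ, I.2, inv_mul_cancel]
  obtain ⟨g, hg⟩ := (ClassGroup.mk0_eq_one_iff (J * I.1).2).mp h
  have hg' : span {g} = (J : Ideal (𝓞 K)) * (I.1 : Ideal (𝓞 K)) := by
    rw [← Submonoid.coe_mul, hg]
  refine ⟨g, ?_, hg'⟩
  rintro rfl
  have := mem_nonZeroDivisors_iff_ne_zero.mp (J * I.1).2
  rw [Submonoid.coe_mul, ← hg'] at this
  exact this (by simp)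

/-- the sum of the weight over an ideal -/
theorem hasSum_wt_ideal (C : ClassGroup (𝓞 K)) {J : (Ideal (𝓞 K))⁰}
    (hJ : ClassGroup.mk0 J = C⁻¹) {s : ℝ} (hs : 1 < s) :
    HasSum (fun x : (J : Ideal (𝓞 K)) => wt s (embI (x : 𝓞 K)))
      ((torsionOrder K : ℝ) * normRpow s (J : Ideal (𝓞 K)) * classZeta C s) := by
  choose g hg0 hg using exists_gen hJ
  have hmem : ∀ I, g I ∈ (J : Ideal (𝓞 K)) := fun I =>
    Ideal.mul_le_left (I := (J : Ideal (𝓞 K))) (J := (I.1 : Ideal (𝓞 K)))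
      (by rw [← hg I]; exact mem_span_singleton_self _)
  let Φ : {I : (Ideal (𝓞 K))⁰ // ClassGroup.mk0 I = C} × (𝓞 K)ˣ → (J : Ideal (𝓞 K)) := fun p =>
    ⟨(p.2 : 𝓞 K) * g p.1, Ideal.mul_mem_left _ _ (hmem p.1)⟩
  have hΦ : Function.Injective Φ := by
    rintro ⟨I, u⟩ ⟨I', u'⟩ h
    have h' : (u : 𝓞 K) * g I = (u' : 𝓞 K) * g I' := congrArg Subtype.val h
    have hI : I = I' := by
      have h2 : span ({g I} : Set (𝓞 K)) = span {g I'} := by
        rw [← span_singleton_mul_left_unit u.isUnit, h', span_singleton_mul_left_unit u'.isUnit]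
      rw [hg, hg] at h2
      exact Subtype.ext (Subtype.ext (mul_left_cancel₀ (mem_nonZeroDivisors_iff_ne_zero.mp J.2) h2))
    subst hI
    rw [Units.ext (mul_right_cancel₀ (hg0 I) h')]
  have hrange : ∀ x ∉ Set.range Φ, wt s (embI (x : 𝓞 K)) = 0 := by
    rintro ⟨x, hx⟩ hr
    by_cases hx0 : x = 0
    · subst hx0
      exact wt_eq_zero (by linarith) (by simp)
    exfalso
    obtain ⟨I, hI⟩ := dvd_iff_le.mpr ((span_singleton_le_iff_mem (J : Ideal (𝓞 K))).mpr hx)
    have hI0 : I ∈ (Ideal (𝓞 K))⁰ := mem_nonZeroDivisors_iff_ne_zero.mpr fun h => hx0 (by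
      rw [h, mul_zero, Submodule.zero_eq_bot, span_singleton_eq_bot] at hI; exact hI)
    have hC : ClassGroup.mk0 (⟨I, hI0⟩ : (Ideal (𝓞 K))⁰) = C := by
      have h1 : ClassGroup.mk0 (J * ⟨I, hI0⟩) = 1 :=
        (ClassGroup.mk0_eq_one_iff (J * (⟨I, hI0⟩ : (Ideal (𝓞 K))⁰)).2).mpr
          ⟨⟨x, by rw [Submonoid.coe_mul]; exact hI.symm⟩⟩
      rw [map_mul, hJ] at h1
      exact (inv_mul_eq_one.mp h1).symm
    obtain ⟨u, hu⟩ := (span_singleton_eq_span_singleton.mp
      ((hg ⟨⟨I, hI0⟩, hC⟩).trans hI.symm) : Associated _ _)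
    exact hr ⟨(⟨⟨I, hI0⟩, hC⟩, u), Subtype.ext (by simp only [Φ]; rw [mul_comm]; exact hu)⟩
  rw [← hΦ.hasSum_iff hrange]
  have key : ∀ p, wt s (embI (Φ p : 𝓞 K)) =
      cutoff (logEmbedding K (Additive.ofMul p.2) + logMap (embI (g p.1))) *
        (normRpow s (J : Ideal (𝓞 K)) * normRpow s (p.1.1 : Ideal (𝓞 K))) := by
    intro p
    have hne : mixedEmbedding.norm (embI (g p.1)) ≠ 0 := by
      rw [norm_embI]
      exact Nat.cast_ne_zero.mpr fun h => hg0 p.1 (by simpa using absNorm_eq_zero_iff.mp h)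
    have e : embI (Φ p : 𝓞 K) = p.2 • embI (g p.1) := by
      simp only [Φ, embI, unitSMul_smul, ← map_mul]
    rw [wt, e, logMap_unit_smul _ hne, norm_unit_smul, norm_embI, hg, ← Chebotarev.normRpow_mul]
    rfl
  simp only [Function.comp_def, key]
  have hfib : ∀ I : {I : (Ideal (𝓞 K))⁰ // ClassGroup.mk0 I = C},
      HasSum (fun u : (𝓞 K)ˣ => cutoff (logEmbedding K (Additive.ofMul u) + logMap (embI (g I))) *
          (normRpow s (J : Ideal (𝓞 K)) * normRpow s (I.1 : Ideal (𝓞 K))))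
        ((torsionOrder K : ℝ) * normRpow s (J : Ideal (𝓞 K)) * normRpow s (I.1 : Ideal (𝓞 K))) :=
    fun I => by
      rw [mul_assoc]
      exact (hasSum_cutoff _).mul_right _
  have hsum : Summable fun p : {I : (Ideal (𝓞 K))⁰ // ClassGroup.mk0 I = C} × (𝓞 K)ˣ =>
      cutoff (logEmbedding K (Additive.ofMul p.2) + logMap (embI (g p.1))) *
        (normRpow s (J : Ideal (𝓞 K)) * normRpow s (p.1.1 : Ideal (𝓞 K))) := by
    refine (summable_prod_of_nonneg fun p => ?_).mpr ⟨fun I => (hfib I).summable, ?_⟩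
    · exact mul_nonneg (cutoff_nonneg _)
        (mul_nonneg (Chebotarev.normRpow_nonneg _ _) (Chebotarev.normRpow_nonneg _ _))
    · exact ((summable_classZeta C hs).mul_left _).congr fun I => (hfib I).tsum_eq.symm
  have h2 : HasSum (fun I : {I : (Ideal (𝓞 K))⁰ // ClassGroup.mk0 I = C} =>
      (torsionOrder K : ℝ) * normRpow s (J : Ideal (𝓞 K)) * normRpow s (I.1 : Ideal (𝓞 K)))
      ((torsionOrder K : ℝ) * normRpow s (J : Ideal (𝓞 K)) * classZeta C s) :=
    (summable_classZeta C hs).hasSum.mul_left _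
  exact (hsum.hasSum.prod_fiberwise hfib).unique h2 ▸ hsum.hasSum

theorem hasSum_wt_one {s : ℝ} (hs : 1 < s) :
    HasSum (fun x : 𝓞 K => wt s (embI x)) ((torsionOrder K : ℝ) * classZeta (1 : ClassGroup (𝓞 K)) s) := by
  have h := hasSum_wt_ideal (K := K) 1 (J := 1) (by simp) hs
  have e : ((1 : (Ideal (𝓞 K))⁰) : Ideal (𝓞 K)) = ⊤ := by simp
  rw [show normRpow s ((1 : (Ideal (𝓞 K))⁰) : Ideal (𝓞 K)) = 1 by
    rw [Submonoid.coe_one, Chebotarev.normRpow_one], mul_one] at h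
  let E : 𝓞 K ≃ ((1 : (Ideal (𝓞 K))⁰) : Ideal (𝓞 K)) :=
    ⟨fun x => ⟨x, e.symm ▸ Submodule.mem_top⟩, Subtype.val, fun _ => rfl, fun _ => rfl⟩
  exact E.hasSum_iff.mpr h

theorem finrank_integerLattice : finrank ℤ (mixedEmbedding.integerLattice K) = finrank ℚ K := by
  have hinj : Function.Injective
      ((mixedEmbedding K).comp (algebraMap (𝓞 K) K)).toIntAlgHom.toLinearMap :=
    (mixedEmbedding_injective K).comp RingOfIntegers.coe_injective
  rw [LinearMap.finrank_range_of_inj hinj, RingOfIntegers.rank]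

theorem summable_embI_rpow {r : ℝ} (hr : r < -(finrank ℚ K : ℝ)) :
    Summable fun y : 𝓞 K => ‖embI y‖ ^ r := by
  have h1 := ZLattice.summable_norm_rpow (mixedEmbedding.integerLattice K) r
    (by rw [finrank_integerLattice]; exact hr)
  let i : 𝓞 K → mixedEmbedding.integerLattice K := fun y => ⟨embI y, ⟨y, rfl⟩⟩
  have hi : Function.Injective i := fun a b h =>
    RingOfIntegers.coe_injective (mixedEmbedding_injective K (congrArg Subtype.val h))
  exact (h1.comp_injective hi).congr fun y => rfl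

/-- the translation by a fixed element changes the weighted sum over `M 𝓞` by a bounded amount -/
theorem exists_coset_bound (M : ℕ) (hM : 0 < M) (r : 𝓞 K) :
    ∃ B : ℝ, ∀ s : ℝ, 1 < s → s ≤ 2 →
      Summable (fun y : 𝓞 K => wt s (embI (r + (M : 𝓞 K) * y)) - wt s (embI ((M : 𝓞 K) * y))) ∧
      |∑' y : 𝓞 K, (wt s (embI (r + (M : 𝓞 K) * y)) - wt s (embI ((M : 𝓞 K) * y)))| ≤ B := by
  obtain ⟨C, R, hC, hR, hbd⟩ := exists_wt_bound (embI r)
  set e : ℝ := (finrank ℚ K : ℝ) + 1 with he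
  have he0 : 0 < e := by positivity
  set C' : ℝ := max C (R ^ e) with hC'
  set b : 𝓞 K → ℝ := fun y => (if y = 0 then 1 else 0) +
    C' * (M : ℝ) ^ (-e) * ‖embI y‖ ^ (-e) with hb
  have hbsum : Summable b := by
    refine Summable.add ?_ ((summable_embI_rpow (by linarith)).mul_left _)
    exact summable_of_ne_finset_zero (s := {0}) fun y hy => if_neg (by simpa using hy)
  refine ⟨∑' y, b y, fun s hs1 hs2 => ?_⟩
  have hle : ∀ y : 𝓞 K, ‖wt s (embI (r + (M : 𝓞 K) * y)) - wt s (embI ((M : 𝓞 K) * y))‖ ≤ b y := by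
    intro y
    rw [Real.norm_eq_abs]
    have hone : |wt s (embI (r + (M : 𝓞 K) * y)) - wt s (embI ((M : 𝓞 K) * y))| ≤ 1 := by
      have h1 := wt_embI_le_one hs1 (r + (M : 𝓞 K) * y)
      have h2 := wt_embI_le_one hs1 ((M : 𝓞 K) * y)
      have h3 := wt_nonneg s (embI (r + (M : 𝓞 K) * y))
      have h4 := wt_nonneg s (embI ((M : 𝓞 K) * y))
      rw [abs_le]; constructor <;> linarith
    by_cases hy : y = 0
    · refine hone.trans ?_
      simp only [hb, if_pos hy, le_add_iff_nonneg_right]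
      positivity
    simp only [hb, if_neg hy, zero_add]
    have hx : embI ((M : 𝓞 K) * y) = (M : ℝ) • embI y := by
      simp only [embI, map_mul, map_natCast, Nat.cast_smul_eq_nsmul, nsmul_eq_mul]
    have hn : ‖embI ((M : 𝓞 K) * y)‖ = (M : ℝ) * ‖embI y‖ := by
      rw [hx, _root_.norm_smul, Real.norm_natCast]
    have hy0 : 0 < ‖embI y‖ := norm_pos_iff.mpr ((_root_.map_ne_zero _).mpr
      (RingOfIntegers.coe_ne_zero_iff.mpr hy))
    have hpos : 0 < ‖embI ((M : 𝓞 K) * y)‖ := by rw [hn]; positivity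
    rw [mul_assoc, ← Real.mul_rpow (Nat.cast_nonneg _) (norm_nonneg _), ← hn]
    by_cases hlarge : R ≤ ‖embI ((M : 𝓞 K) * y)‖
    · have h := hbd _ hlarge s ⟨hs1.le, hs2⟩
      rw [show embI ((M : 𝓞 K) * y) + embI r = embI (r + (M : 𝓞 K) * y) by
        simp only [embI, map_add]; ring] at h
      exact h.trans (mul_le_mul_of_nonneg_right (le_max_left _ _) (by positivity))
    · push Not at hlarge
      refine hone.trans ?_
      calc (1 : ℝ) = R ^ e * R ^ (-e) := by
            rw [← Real.rpow_add hR, add_neg_cancel, Real.rpow_zero]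
        _ ≤ C' * ‖embI ((M : 𝓞 K) * y)‖ ^ (-e) := mul_le_mul (le_max_right _ _)
            (Real.rpow_le_rpow_of_nonpos hpos hlarge.le (by linarith)) (by positivity)
            (hC.trans (le_max_left _ _))
  exact ⟨Summable.of_norm_bounded hbsum hle, tsum_of_norm_bounded hbsum.hasSum hle⟩

/-- every class has the same partial zeta function up to a bounded error -/
theorem classZeta_sub_isBigO (C : ClassGroup (𝓞 K)) :
    (fun s : ℝ => classZeta C s - classZeta (1 : ClassGroup (𝓞 K)) s) =O[𝓝[>] (1 : ℝ)] fun _ => (1 : ℝ) := by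
  obtain ⟨J, hJ⟩ := ClassGroup.mk0_surjective C⁻¹
  set M := absNorm (J : Ideal (𝓞 K)) with hM
  have hM0 : 0 < M := absNorm_pos_of_nonZeroDivisors J
  set d := finrank ℚ K with hd
  let m : 𝓞 K →+ (J : Ideal (𝓞 K)) :=
    { toFun := fun y => ⟨(M : 𝓞 K) * y, mul_mem_right _ _ (absNorm_mem _)⟩
      map_zero' := Subtype.ext (mul_zero _)
      map_add' := fun a b => Subtype.ext (mul_add _ _ _) }
  have hminj : Function.Injective m := fun a b h =>
    mul_left_cancel₀ (Nat.cast_ne_zero.mpr hM0.ne') (congrArg Subtype.val h)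
  set H : AddSubgroup (J : Ideal (𝓞 K)).toAddSubgroup := m.range with hH
  have hidx : H.index * M = M ^ d := by
    have h1 := AddSubgroup.index_map_subtype (H := (J : Ideal (𝓞 K)).toAddSubgroup) H
    have h2 : H.map (J : Ideal (𝓞 K)).toAddSubgroup.subtype =
        (span ({(M : 𝓞 K)} : Set (𝓞 K))).toAddSubgroup := by
      ext x
      simp only [AddSubgroup.mem_map, Submodule.mem_toAddSubgroup, mem_span_singleton']
      constructor
      · rintro ⟨_, ⟨y, rfl⟩, rfl⟩; exact ⟨y, mul_comm _ _⟩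
      · rintro ⟨y, rfl⟩; exact ⟨m y, ⟨y, rfl⟩, mul_comm _ _⟩
    rw [h2, ← absNorm_eq_index, ← absNorm_eq_index, absNorm_span_singleton,
      show (M : 𝓞 K) = algebraMap ℤ (𝓞 K) (M : ℤ) by simp, Algebra.norm_algebraMap,
      RingOfIntegers.rank, Int.natAbs_pow, Int.natAbs_natCast, ← hM] at h1
    exact h1.symm
  haveI : H.FiniteIndex := ⟨fun h => by
    rw [h, zero_mul] at hidx; exact (pow_pos hM0 d).ne hidx⟩
  haveI : Fintype ((J : Ideal (𝓞 K)).toAddSubgroup ⧸ H) := Fintype.ofFinite _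
  set n : ℕ := Fintype.card ((J : Ideal (𝓞 K)).toAddSubgroup ⧸ H) with hn
  have hnidx : n * M = M ^ d := by
    rw [hn, ← Nat.card_eq_fintype_card, ← AddSubgroup.index_eq_card, hidx]
  let E : ((J : Ideal (𝓞 K)).toAddSubgroup ⧸ H) × 𝓞 K ≃ (J : Ideal (𝓞 K)) :=
    Equiv.ofBijective (fun qy => qy.1.out + m qy.2) ⟨by
      rintro ⟨q, y⟩ ⟨q', y'⟩ h
      have h1 := congrArg (fun z : (J : Ideal (𝓞 K)).toAddSubgroup =>
        (z : (J : Ideal (𝓞 K)).toAddSubgroup ⧸ H)) h
      have h0 : ∀ z, ((m z : (J : Ideal (𝓞 K)).toAddSubgroup) :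
          (J : Ideal (𝓞 K)).toAddSubgroup ⧸ H) = 0 := fun z =>
        (QuotientAddGroup.eq_zero_iff _).mpr ⟨z, rfl⟩
      simp only [QuotientAddGroup.mk_add, QuotientAddGroup.out_eq', h0, add_zero] at h1
      subst h1
      simp only at h
      exact Prod.ext rfl (hminj (add_left_cancel h)), fun x => by
      have hx : -(Quotient.out (x : (J : Ideal (𝓞 K)).toAddSubgroup ⧸ H)) + x ∈ H :=
        QuotientAddGroup.eq.mp (QuotientAddGroup.out_eq' _)
      obtain ⟨y, hy⟩ := hx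
      exact ⟨(_, y), by simp only [hy]; abel⟩⟩
  choose B hB using fun q : (J : Ideal (𝓞 K)).toAddSubgroup ⧸ H =>
    exists_coset_bound M hM0 (q.out : 𝓞 K)
  -- the comparison
  have key : ∀ s : ℝ, 1 < s → s ≤ 2 →
      |classZeta C s - ((n * M : ℕ) / M : ℝ) ^ (1 - s) * classZeta (1 : ClassGroup (𝓞 K)) s| ≤
        (M : ℝ) ^ 2 * (∑ q, B q) := by
    intro s hs1 hs2
    have hMR : (0 : ℝ) < M := Nat.cast_pos.mpr hM0
    have hJsum := E.hasSum_iff.mpr (hasSum_wt_ideal C hJ hs1)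
    have hbase : HasSum (fun y : 𝓞 K => wt s (embI ((M : 𝓞 K) * y)))
        (((M : ℝ) ^ d) ^ (-s) * ((torsionOrder K : ℝ) * classZeta (1 : ClassGroup (𝓞 K)) s)) := by
      refine ((hasSum_wt_one hs1).mul_left _).congr_fun fun y => ?_
      rw [show embI ((M : 𝓞 K) * y) = (M : ℝ) • embI y by
        simp only [embI, map_mul, map_natCast, Nat.cast_smul_eq_nsmul, nsmul_eq_mul],
        wt_smul (by linarith) hMR]
    have hfib : ∀ q, HasSum (fun y : 𝓞 K => wt s (embI ((E (q, y) : 𝓞 K))))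
        (∑' y : 𝓞 K, (wt s (embI ((q.out : 𝓞 K) + (M : 𝓞 K) * y)) - wt s (embI ((M : 𝓞 K) * y))) +
          ((M : ℝ) ^ d) ^ (-s) * ((torsionOrder K : ℝ) * classZeta (1 : ClassGroup (𝓞 K)) s)) := fun q => by
      refine ((hB q s hs1 hs2).1.hasSum.add hbase).congr_fun fun y => ?_
      simp only [sub_add_cancel]
      rfl
    have htot := (hJsum.prod_fiberwise hfib).unique (hasSum_fintype _)
    rw [Finset.sum_add_distrib, Finset.sum_const, Finset.card_univ, ← hn, nsmul_eq_mul] at htot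
    have hMs : normRpow s (J : Ideal (𝓞 K)) = (M : ℝ) ^ (-s) := rfl
    rw [hMs] at htot
    have hw : (1 : ℝ) ≤ torsionOrder K := by
      exact_mod_cast Nat.one_le_iff_ne_zero.mpr (torsionOrder_ne_zero K)
    have hnpos : (0 : ℝ) < n := Nat.cast_pos.mpr (by
      rcases Nat.eq_zero_or_pos n with h | h
      · rw [h, zero_mul] at hnidx; exact absurd hnidx (pow_pos hM0 d).ne
      · exact h)
    have hcoef : (n : ℝ) * ((M : ℝ) ^ d) ^ (-s) =
        (M : ℝ) ^ (-s) * ((n * M : ℕ) / M : ℝ) ^ (1 - s) := by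
      have e1 : ((M : ℝ) ^ d) = n * M := by exact_mod_cast hnidx.symm
      rw [e1, Nat.cast_mul, mul_div_assoc, div_self hMR.ne', mul_one,
        Real.mul_rpow hnpos.le hMR.le, Real.rpow_sub hnpos, Real.rpow_one, Real.rpow_neg hnpos.le]
      ring
    have h3 : |∑ q : (J : Ideal (𝓞 K)).toAddSubgroup ⧸ H, ∑' y : 𝓞 K,
        (wt s (embI ((q.out : 𝓞 K) + (M : 𝓞 K) * y)) - wt s (embI ((M : 𝓞 K) * y)))| ≤ ∑ q, B q :=
      (Finset.abs_sum_le_sum_abs _ _).trans (Finset.sum_le_sum fun q _ => (hB q s hs1 hs2).2)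
    have h4 : classZeta C s - ((n * M : ℕ) / M : ℝ) ^ (1 - s) * classZeta (1 : ClassGroup (𝓞 K)) s =
        ((M : ℝ) ^ s / torsionOrder K) * ∑ q : (J : Ideal (𝓞 K)).toAddSubgroup ⧸ H, ∑' y : 𝓞 K,
          (wt s (embI ((q.out : 𝓞 K) + (M : 𝓞 K) * y)) - wt s (embI ((M : 𝓞 K) * y))) := by
      have hpos : (0 : ℝ) < (M : ℝ) ^ s := Real.rpow_pos_of_pos hMR s
      rw [Real.rpow_neg hMR.le] at htot hcoef
      rw [← mul_assoc (n : ℝ), hcoef] at htot
      field_simp at htot ⊢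
      linear_combination htot
    rw [h4, abs_mul, abs_of_nonneg (by positivity)]
    refine mul_le_mul ?_ h3 (abs_nonneg _) (by positivity)
    refine (div_le_self (by positivity) hw).trans ?_
    rw [← Real.rpow_natCast (M : ℝ) 2]
    exact Real.rpow_le_rpow_of_exponent_le (by exact_mod_cast hM0) (by push_cast; linarith)
  have hO1 : (fun s : ℝ => classZeta C s - ((n * M : ℕ) / M : ℝ) ^ (1 - s) * classZeta (1 : ClassGroup (𝓞 K)) s)
      =O[𝓝[>] (1 : ℝ)] fun _ => (1 : ℝ) := by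
    refine IsBigO.of_bound ((M : ℝ) ^ 2 * ∑ q, B q) ?_
    filter_upwards [Ioc_mem_nhdsGT one_lt_two] with s hs
    rw [norm_one, mul_one, Real.norm_eq_abs]
    exact key s hs.1 hs.2
  have hO2 : (fun s : ℝ => (((n * M : ℕ) / M : ℝ) ^ (1 - s) - 1) * classZeta (1 : ClassGroup (𝓞 K)) s)
      =O[𝓝[>] (1 : ℝ)] fun _ => (1 : ℝ) := by
    have ha : ((n * M : ℕ) / M : ℝ) ≠ 0 := by
      rw [hnidx]; positivity
    have hd1 : (fun s : ℝ => ((n * M : ℕ) / M : ℝ) ^ (1 - s) - 1) =O[𝓝[>] (1 : ℝ)]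
        fun s => s - 1 := by
      have hdiff : DifferentiableAt ℝ (fun s : ℝ => ((n * M : ℕ) / M : ℝ) ^ (1 - s)) 1 := by
        fun_prop (disch := exact ha)
      simpa using hdiff.hasDerivAt.isBigO_sub.mono nhdsWithin_le_nhds
    refine (hd1.mul (isBigO_refl (fun s => classZeta (1 : ClassGroup (𝓞 K)) s) _)).trans ?_
    refine IsBigO.trans ?_ ((Chebotarev.tendsto_sub_one_mul_zetaReal (K := K)).isBigO_one ℝ)
    refine IsBigO.of_bound 1 ?_
    filter_upwards [self_mem_nhdsWithin] with s (hs : 1 < s)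
    rw [one_mul, norm_mul, norm_mul]
    refine mul_le_mul_of_nonneg_left ?_ (norm_nonneg _)
    rw [Real.norm_of_nonneg (classZeta_nonneg 1 s),
      Real.norm_of_nonneg (zero_le_one.trans (Chebotarev.one_le_zetaReal hs))]
    exact classZeta_le 1 hs
  exact (hO1.add hO2).congr_left fun s => by ring

end FLTAgent.Ext
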