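import Mathlib.NumberTheory.NumberField.Cyclotomic.Basic
import Mathlib.RingTheory.RootsOfUnity.CyclotomicUnits
import Mathlib.NumberTheory.Cyclotomic.Gal

/-!
# S14: the cyclotomic field, the Galois action on units, and the unit `η`

`η = ∏ a, (1 + ζ ^ a) ^ (a⁻¹)²` lies in the `ω²`-eigenspace of units modulo `p`-th powers.
-/

set_option autoImplicit false

noncomputable section

namespace FLTAgent.Ext

open NumberField Polynomial

variable (p : ℕ) [Fact p.Prime] (K : Type*) [Field K] [NumberField K]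
  [IsCyclotomicExtension {p} ℚ K]

/-- The automorphism `ζ ↦ ζ ^ a`. -/
def gal : (ZMod p)ˣ ≃* (K ≃ₐ[ℚ] K) :=
  (IsCyclotomicExtension.autEquivPow K
    (cyclotomic.irreducible_rat (Fact.out : p.Prime).pos)).symm

variable {p K}

lemma gal_apply_of_pow_eq_one (a : (ZMod p)ˣ) {x : K} (hx : x ^ p = 1) :
    gal p K a x = x ^ (a : ZMod p).val := by
  have hζ := IsCyclotomicExtension.zeta_spec p ℚ K
  obtain ⟨i, -, rfl⟩ := hζ.eq_pow_of_pow_eq_one hx
  have h := hζ.autToPow_spec ℚ (gal p K a)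
  have e : hζ.autToPow ℚ (gal p K a) = a :=
    (IsCyclotomicExtension.autEquivPow K
      (cyclotomic.irreducible_rat (Fact.out : p.Prime).pos)).apply_symm_apply a
  rw [e] at h
  rw [map_pow, ← h, ← pow_mul, ← pow_mul, mul_comm]

variable (p K) in
/-- The action on the integers. -/
def galInt (a : (ZMod p)ˣ) : 𝓞 K ≃+* 𝓞 K :=
  RingOfIntegers.mapRingEquiv (gal p K a : K ≃+* K)

@[simp]
lemma coe_galInt (a : (ZMod p)ˣ) (x : 𝓞 K) : (galInt p K a x : K) = gal p K a (x : K) := rfl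

lemma galInt_one (x : 𝓞 K) : galInt p K 1 x = x :=
  RingOfIntegers.ext (by simp)

lemma galInt_mul (a b : (ZMod p)ˣ) (x : 𝓞 K) :
    galInt p K (a * b) x = galInt p K a (galInt p K b x) :=
  RingOfIntegers.ext (by simp)

variable (p K) in
/-- The action on the units. -/
def galUnits (a : (ZMod p)ˣ) : (𝓞 K)ˣ →* (𝓞 K)ˣ :=
  Units.map (galInt p K a : 𝓞 K →+* 𝓞 K).toMonoidHom

@[simp]
lemma coe_galUnits (a : (ZMod p)ˣ) (x : (𝓞 K)ˣ) :
    ((galUnits p K a x : 𝓞 K) : K) = gal p K a ((x : 𝓞 K) : K) := rfl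

lemma galUnits_one (x : (𝓞 K)ˣ) : galUnits p K 1 x = x :=
  Units.ext (galInt_one _)

lemma galUnits_mul (a b : (ZMod p)ˣ) (x : (𝓞 K)ˣ) :
    galUnits p K (a * b) x = galUnits p K a (galUnits p K b x) :=
  Units.ext (galInt_mul a b _)

variable (p) in
/-- The exponent `ω(a)²`. -/
def wexp (a : (ZMod p)ˣ) : ℕ := ((a : ZMod p) ^ 2).val

lemma wexp_cast (a : (ZMod p)ˣ) : (wexp p a : ZMod p) = (a : ZMod p) ^ 2 := by
  rw [wexp, ZMod.natCast_val, ZMod.cast_id]

/-- Equal exponents modulo `p` give the same class modulo `p`-th powers. -/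
lemma exists_zpow_eq_mul_pow {G : Type*} [CommGroup G] (x : G) {m n : ℤ}
    (h : (m : ZMod p) = (n : ZMod p)) : ∃ y : G, x ^ m = x ^ n * y ^ p := by
  obtain ⟨k, hk⟩ := (ZMod.intCast_eq_intCast_iff_dvd_sub n m p).mp h.symm
  refine ⟨x ^ k, ?_⟩
  rw [← zpow_natCast (x ^ k), ← zpow_mul, ← zpow_add, show n + k * p = m by linarith]

lemma exists_pow_eq_mul_pow {G : Type*} [CommGroup G] (x : G) {m n : ℕ}
    (h : (m : ZMod p) = (n : ZMod p)) : ∃ y : G, x ^ m = x ^ n * y ^ p := by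
  simpa using exists_zpow_eq_mul_pow (p := p) x (m := m) (n := n) (by simpa using h)

/-- `x` lies in the `ω²`-eigenspace modulo `p`-th powers. -/
def IsEigenUnit (p : ℕ) [Fact p.Prime] [IsCyclotomicExtension {p} ℚ K] (x : (𝓞 K)ˣ) : Prop :=
  ∀ a : (ZMod p)ˣ, ∃ y : (𝓞 K)ˣ, galUnits p K a x = x ^ wexp p a * y ^ p

section Eta

variable {ζ : K} (hζ : IsPrimitiveRoot ζ p) (h3 : 3 ≤ p)

/-- `ζ` as an integer. -/
def zint : 𝓞 K := hζ.toInteger

omit [NumberField K] [IsCyclotomicExtension {p} ℚ K] in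
lemma coe_zint : ((zint hζ : 𝓞 K) : K) = ζ := rfl

omit [NumberField K] [IsCyclotomicExtension {p} ℚ K] in
lemma zint_spec : IsPrimitiveRoot (zint hζ) p := hζ.toInteger_isPrimitiveRoot

lemma galInt_zint (a : (ZMod p)ˣ) : galInt p K a (zint hζ) = zint hζ ^ (a : ZMod p).val :=
  RingOfIntegers.ext (by
    rw [coe_galInt, coe_zint, gal_apply_of_pow_eq_one a hζ.pow_eq_one]
    simp [coe_zint])

lemma galInt_zint_pow (a b : (ZMod p)ˣ) :
    galInt p K a (zint hζ ^ (b : ZMod p).val) = zint hζ ^ ((a * b : (ZMod p)ˣ) : ZMod p).val := by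
  rw [map_pow, galInt_zint, ← pow_mul, Units.val_mul, ZMod.val_mul]
  exact pow_eq_pow_mod _ (zint_spec hζ).pow_eq_one

include h3 in
omit [NumberField K] [IsCyclotomicExtension {p} ℚ K] in
lemma isUnit_one_add_zint (a : (ZMod p)ˣ) : IsUnit (1 + zint hζ ^ (a : ZMod p).val) := by
  have hp : p.Prime := Fact.out
  have h := ((zint_spec hζ).pow_of_coprime _ (ZMod.val_coe_unit_coprime a)).geom_sum_isUnit
    (j := 2) (by omega) ((Nat.coprime_primes Nat.prime_two hp).mpr (by omega))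
  simpa [Finset.sum_range_succ] using h

/-- The unit `1 + ζ ^ a`. -/
def onePlus (a : (ZMod p)ˣ) : (𝓞 K)ˣ := (isUnit_one_add_zint hζ h3 a).unit

omit [NumberField K] [IsCyclotomicExtension {p} ℚ K] in
lemma coe_onePlus (a : (ZMod p)ˣ) :
    (onePlus hζ h3 a : 𝓞 K) = 1 + zint hζ ^ (a : ZMod p).val := rfl

lemma galUnits_onePlus (a b : (ZMod p)ˣ) :
    galUnits p K a (onePlus hζ h3 b) = onePlus hζ h3 (a * b) := by
  refine Units.ext ?_
  show galInt p K a (onePlus hζ h3 b : 𝓞 K) = _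
  rw [coe_onePlus, coe_onePlus, map_add, map_one, galInt_zint_pow]

/-- The unit `η`. -/
def etaUnit : (𝓞 K)ˣ := ∏ a : (ZMod p)ˣ, onePlus hζ h3 a ^ wexp p a⁻¹

lemma etaUnit_isEigen : IsEigenUnit p (etaUnit hζ h3) := by
  intro b
  have hy : ∀ c : (ZMod p)ˣ, ∃ y : (𝓞 K)ˣ,
      onePlus hζ h3 c ^ wexp p (b * c⁻¹) = onePlus hζ h3 c ^ (wexp p c⁻¹ * wexp p b) * y ^ p :=
    fun c => exists_pow_eq_mul_pow _ (by
      rw [Nat.cast_mul, wexp_cast, wexp_cast, wexp_cast, Units.val_mul]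
      ring)
  choose y hy using hy
  refine ⟨∏ c, y c, ?_⟩
  rw [etaUnit, map_prod, ← Finset.prod_pow, ← Finset.prod_pow, ← Finset.prod_mul_distrib]
  refine Fintype.prod_equiv (Equiv.mulLeft b) _ _ fun a => ?_
  rw [map_pow, galUnits_onePlus, Equiv.coe_mulLeft, ← pow_mul, ← hy (b * a)]
  congr 2
  rw [mul_inv, mul_inv_cancel_left]

end Eta

end FLTAgent.Ext
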