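import Fermat.Agent.Ext.Kummer
import Fermat.Agent.Ext.ClassEigen
import Fermat.Agent.Ext.ClassPrimes
import Mathlib.NumberTheory.NumberField.Cyclotomic.PID

/-!
# S14: an admissible cocycle vanishes on `Gal(ℚ̄/ℚ(ζ_p))`
-/

set_option autoImplicit false
set_option maxSynthPendingDepth 3
set_option synthInstance.maxHeartbeats 200000

noncomputable section

namespace FLTAgent.Ext

open NumberField FLTAgent.Common ExtCitation UniqueFactorizationMonoid
open scoped Pointwise nonZeroDivisors Classical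

variable {p : ℕ} [Fact p.Prime]

section Ideals

variable {K : Type*} [Field K] [NumberField K]

lemma ideal_pow_left_inj {n : ℕ} (hn : n ≠ 0) {I J : Ideal (𝓞 K)} (h : I ^ n = J ^ n) : I = J := by
  rcases eq_or_ne I 0 with rfl | hI
  · rw [zero_pow hn] at h
    exact (eq_zero_of_pow_eq_zero h.symm).symm
  have hJ : J ≠ 0 := by
    rintro rfl
    exact hI (eq_zero_of_pow_eq_zero (h.trans (zero_pow hn)))
  rw [← Ideal.prod_normalizedFactors_eq_self (I := I) hI, ← Ideal.prod_normalizedFactors_eq_self (I := J) hJ]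
  congr 1
  refine Multiset.ext.mpr fun v => Nat.eq_of_mul_eq_mul_left (Nat.pos_of_ne_zero hn) ?_
  have := congrArg (idealCount v) h
  rwa [idealCount_pow, idealCount_pow] at this

/-- An ideal all of whose exponents are divisible by `n` is an `n`-th power. -/
lemma exists_eq_pow_of_dvd_idealCount {n : ℕ} {J : Ideal (𝓞 K)} (hJ : J ≠ 0)
    (h : ∀ v, Prime v → n ∣ idealCount v J) : ∃ I, J = I ^ n := by
  refine ⟨∏ v ∈ (normalizedFactors J).toFinset, v ^ (idealCount v J / n), ?_⟩
  conv_lhs => rw [← Ideal.prod_normalizedFactors_eq_self (I := J) hJ, Finset.prod_multiset_count]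
  rw [← Finset.prod_pow]
  refine Finset.prod_congr rfl fun v hv => ?_
  rw [← pow_mul, Nat.div_mul_cancel (h v (prime_of_normalized_factor v (Multiset.mem_toFinset.mp hv)))]
  rfl

end Ideals

lemma exists_valuation_eq {α : QBar} (hα0 : α ≠ 0) {l : ℕ} (hl : l.Prime)
    {A : ValuationSubring QBar} (hA : A.LiesOverPrime l)
    (hfix : ∀ σ ∈ A.inertiaSubgroupIn ℚ, σ α = α) :
    ∃ i : ℤ, A.valuation α = A.valuation (l : QBar) ^ i := by
  have := isAlgebraic_qbar
  have : FiniteDimensional ℚ (IntermediateField.adjoin ℚ ({α} : Set QBar)) :=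
    IntermediateField.adjoin.finiteDimensional (Algebra.IsIntegral.isIntegral α)
  refine SS2.exists_zpow_valuation hl hA _ (fun σ hσ a ha => ?_)
    (IntermediateField.mem_adjoin_simple_self ℚ α) hα0
  have hle : IntermediateField.adjoin ℚ ({α} : Set QBar) ≤
      IntermediateField.fixedField (A.inertiaSubgroupIn ℚ) :=
    IntermediateField.adjoin_simple_le_iff.mpr
      ((IntermediateField.mem_fixedField_iff _ _).mpr hfix)
  exact (IntermediateField.mem_fixedField_iff _ _).mp (hle ha) σ hσ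

/-- At a prime away from `p` the exponent of a `p`-th power unramified there is divisible by
`p`. -/
lemma dvd_idealCount_of_unramified {α : QBar} (hα0 : α ≠ 0) (a : 𝓞 (cycloField p))
    (ha : a ≠ 0) (hα : α ^ p = ((a : cycloField p) : QBar))
    {A : ValuationSubring QBar} {l : ℕ} (hl : l.Prime) (hA : A.LiesOverPrime l)
    (hfix : ∀ σ ∈ A.inertiaSubgroupIn ℚ, σ α = α) :
    p ∣ idealCount (centreAt (algebraMap (cycloField p) QBar) A) (Ideal.span {a}) := by
  obtain ⟨i, hi⟩ := exists_valuation_eq hα0 hl hA hfix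
  set ι := algebraMap (cycloField p) QBar
  have hne := centreAt_ne_bot ι hl.ne_zero hA
  have hl0 : A.valuation (l : QBar) ≠ 0 :=
    (_root_.map_ne_zero _).mpr (Nat.cast_ne_zero.mpr hl.ne_zero)
  have hl1 : A.valuation (l : QBar) < 1 := A.mem_nonunits_iff.mp hA
  have hva : A.valuation (ι (a : cycloField p)) = (A.valuation (l : QBar) ^ i) ^ p := by
    rw [← hi, ← _root_.map_pow, hα]
    rfl
  rcases i with n | n
  · have hy : ((l : 𝓞 (cycloField p)) ^ (n * p)) ≠ 0 :=
      pow_ne_zero _ (Nat.cast_ne_zero.mpr hl.ne_zero)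
    have h := idealCount_eq_of_valuation_eq ι hne ha hy (by
      rw [hva, Int.ofNat_eq_natCast, zpow_natCast, ← pow_mul,
        show ι (((l : 𝓞 (cycloField p)) ^ (n * p) : 𝓞 (cycloField p)) : cycloField p) =
          (l : QBar) ^ (n * p) by simp, _root_.map_pow])
    rw [h, ← Ideal.span_singleton_pow, idealCount_pow]
    exact dvd_mul_of_dvd_left (dvd_mul_left p n) _
  · exfalso
    have h1 := valuation_le_one ι A a
    rw [hva, zpow_negSucc, inv_pow, ← pow_mul,
      inv_le_one₀ (zero_lt_iff.mpr (pow_ne_zero _ hl0))] at h1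
    exact absurd h1 (not_le.mpr (pow_lt_one₀ zero_le hl1
      (mul_ne_zero (Nat.succ_ne_zero n) (Fact.out : p.Prime).ne_zero)))

theorem classGroup_eigen_eq_one (h3 : 3 ≤ p) (x : ClassGroup (𝓞 (cycloField p))) (hx : x ^ p = 1)
    (heig : ∀ a : (ZMod p)ˣ, galClass p a x = x ^ wexp p a) : x = 1 := by
  rcases Nat.lt_or_ge p 5 with h5 | h5
  · obtain rfl : p = 3 := by
      rcases (show p = 3 ∨ p = 4 by omega) with h | h
      · exact h
      · exact absurd (h ▸ (Fact.out : p.Prime)) (by norm_num)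
    have := IsCyclotomicExtension.Rat.three_pid (cycloField 3)
    obtain ⟨I, rfl⟩ := ClassGroup.mk0_surjective x
    exact (ClassGroup.mk0_eq_one_iff I.2).mpr (IsPrincipalIdealRing.principal _)
  · exact eigen_class_eq_one cycloRoot_spec h3 (fun ψ hψ => classChar_eq_one_of_kummer h3
      cycloRoot_spec _ (etaUnit_not_pow cycloRoot_spec h3 h5) ψ hψ) x hx heig

theorem unit_eigen_pow (h3 : 3 ≤ p) (u : (𝓞 (cycloField p))ˣ) (hu : IsEigenUnit p u)
    (θ : QBar) (hθ : θ ^ p = (((u : 𝓞 (cycloField p)) : cycloField p) : QBar))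
    (hsplit : IsSplitAt (cycloField p) p θ) : ∃ w : (𝓞 (cycloField p))ˣ, u = w ^ p := by
  have hp : p.Prime := Fact.out
  have hζ : IsPrimitiveRoot (cycloRoot p) p := cycloRoot_spec
  rcases Nat.lt_or_ge p 5 with h5 | h5
  · have hp3 : p = 3 := by
      rcases (show p = 3 ∨ p = 4 by omega) with h | h
      · exact h
      · exact absurd (h ▸ hp) (by norm_num)
    refine exists_torsion_eigen_eq_pow h3 hζ ?_ hu
    refine (NumberField.Units.mem_torsion _).mpr fun w => ?_
    have : IsTotallyComplex (cycloField p) := isTotallyComplex_cyclotomic (p := p) h3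
    have hcard : Fintype.card (InfinitePlace (cycloField p)) = 1 := by
      have h := IsTotallyComplex.finrank (cycloField p)
      rw [IsCyclotomicExtension.finrank (cycloField p) (Polynomial.cyclotomic.irreducible_rat hp.pos),
        Nat.totient_prime hp] at h
      rw [InfinitePlace.card_eq_nrRealPlaces_add_nrComplexPlaces,
        IsTotallyComplex.nrRealPlaces_eq_zero (cycloField p)]
      omega
    have : Subsingleton (InfinitePlace (cycloField p)) :=
      Fintype.card_le_one_iff_subsingleton.mp hcard.le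
    have h := NumberField.Units.sum_mult_mul_log u
    rw [Fintype.sum_subsingleton _ w, IsTotallyComplex.mult_eq, mul_eq_zero] at h
    exact Real.eq_one_of_pos_of_log_eq_zero (NumberField.Units.pos_at_place u w)
      (h.resolve_left (by norm_num))
  · obtain ⟨k, y, hy⟩ := exists_eq_etaUnit_pow_mul h5 hζ h3 hu
    set η : (𝓞 (cycloField p))ˣ := etaUnit hζ h3
    have hy0 : (((y : 𝓞 (cycloField p)) : (cycloField p)) : QBar) ≠ 0 := by simp
    have hθ' : (θ / (((y : 𝓞 (cycloField p)) : (cycloField p)) : QBar)) ^ p = ((((η : 𝓞 (cycloField p)) ^ k : 𝓞 (cycloField p)) : (cycloField p)) : QBar) := by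
      rw [div_pow, hθ, hy, div_eq_iff (pow_ne_zero _ hy0)]
      simp
    have hsplit' : IsSplitAt (cycloField p) p (θ / (((y : 𝓞 (cycloField p)) : (cycloField p)) : QBar)) := fun A hA σ hσ hfix => by
      rw [map_div₀, hsplit A hA σ hσ hfix, hfix _ (Subtype.coe_prop _)]
    obtain ⟨n, hn⟩ := exists_pow_congr_of_split (cycloField p) hζ _ _ hθ' hsplit'
    obtain ⟨j, rfl⟩ := dvd_of_etaUnit_pow_congr hζ h3 h5 k n hn
    exact ⟨η ^ j * y, by rw [hy, mul_pow, ← pow_mul, mul_comm j]⟩

theorem AdmCocycle.eq_zero (h3 : 3 ≤ p) (c : AdmCocycle p) {σ₀ : GalQ}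
    (hσ₀ : cycloChar p σ₀ = 1) : c.toFun σ₀ = 0 := by
  by_contra hc
  have hp : p.Prime := Fact.out
  have : NeZero p := ⟨hp.ne_zero⟩
  have := isGalois_qbar
  set ι := algebraMap (cycloField p) QBar
  set z : QBar := (cycloRoot p : QBar)
  have hζ : IsPrimitiveRoot (cycloRoot p) p := cycloRoot_spec
  -- normalise
  set s : GalQ := σ₀ ^ ((c.toFun σ₀)⁻¹).val with hs_def
  have hs : cycloChar p s = 1 := by rw [hs_def, _root_.map_pow, hσ₀, one_pow]
  have hcs : c.toFun s = 1 := by
    rw [hs_def, c.map_pow hσ₀, ZMod.natCast_val, ZMod.cast_id, inv_mul_cancel₀ hc]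
  obtain ⟨α, hα0, hαint, hαK, hsα, hact⟩ := c.exists_kummer hs hcs
  have haint : IsIntegral ℤ (⟨α ^ p, hαK⟩ : (cycloField p)) :=
    (isIntegral_algHom_iff ((cycloField p).val.restrictScalars ℤ) Subtype.val_injective).mp (hαint.pow p)
  set a : 𝓞 (cycloField p) := ⟨⟨α ^ p, hαK⟩, haint⟩ with ha_def
  have hαa : α ^ p = ((a : (cycloField p)) : QBar) := rfl
  have ha0 : a ≠ 0 := fun h => pow_ne_zero p hα0 (by rw [hαa, h]; simp)
  -- exponents
  have hsplit : IsSplitAt (cycloField p) p α := fun A hA σ hσ hfix => by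
    have h1 := (mem_cycloField_iff σ).mp hfix
    rw [hact σ h1, c.split A hA σ hσ h1, ZMod.val_zero, pow_zero, one_mul]
  have hcount : ∀ v : Ideal (𝓞 (cycloField p)), Prime v → p ∣ idealCount v (Ideal.span {a}) := by
    intro v hv
    have hvp : v.IsPrime := Ideal.isPrime_of_prime hv
    have hvm : v.IsMaximal := hvp.isMaximal hv.ne_zero
    obtain ⟨l, n, -, hlmem, hl, -⟩ := Ideal.exists_prime_and_absNorm_eq_pow v
    obtain ⟨A, hA⟩ := exists_centreAt_eq ι v
    rcases eq_or_ne l p with hlp | hlp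
    · have hlmem' : (p : 𝓞 (cycloField p)) ∈ v := hlp ▸ hlmem
      have hl' : p.Prime := hp
      have hπ : zint hζ - 1 ∈ v := by
        refine hvp.mem_of_pow_mem (p - 1) ?_
        have h : Ideal.span {zint hζ - 1} ^ (p - 1) ≤ v := by
          rw [show zint hζ = hζ.toInteger from rfl, span_pi_pow (L := (cycloField p)) hl' hζ,
            Ideal.span_singleton_le_iff_mem]
          exact hlmem'
        exact h (Ideal.pow_mem_pow (Ideal.mem_span_singleton_self _) _)
      have heq : Ideal.span {zint hζ - 1} = v :=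
        (isMaximal_of_absNorm_prime hl' (absNorm_zint_sub_one (cycloField p) hζ)).eq_of_le hvm.ne_top
          ((Ideal.span_singleton_le_iff_mem _).mpr hπ)
      rw [← heq]
      exact dvd_idealCount_zint (cycloField p) hζ a ha0 α hαa hsplit
    · have hAl : A.LiesOverPrime l := by
        rw [← hA, mem_centreAt] at hlmem
        show (l : QBar) ∈ A.nonunits
        rw [A.mem_nonunits_iff]
        simpa using hlmem
      rw [← hA]
      refine dvd_idealCount_of_unramified hα0 a ha0 hαa hl hAl fun σ hσ => ?_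
      obtain ⟨h1, h2⟩ := c.unramified l hl hlp A hAl σ hσ
      rw [hact σ h1, h2, ZMod.val_zero, pow_zero, one_mul]
  obtain ⟨I, hI⟩ := exists_eq_pow_of_dvd_idealCount
    (fun h => ha0 (Ideal.span_singleton_eq_bot.mp h)) hcount
  -- the Galois relation
  have hrel : ∀ b : (ZMod p)ˣ, ∃ y : (cycloField p), y ≠ 0 ∧
      gal p (cycloField p) b (a : (cycloField p)) = (a : (cycloField p)) ^ wexp p b * y ^ p := by
    intro b
    obtain ⟨d, hd⟩ := exists_cycloChar_eq b
    have hd0 : d α / α ^ wexp p b ≠ 0 :=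
      div_ne_zero ((_root_.map_ne_zero d).mpr hα0) (pow_ne_zero _ hα0)
    have hmem : d α / α ^ wexp p b ∈ (cycloField p) := by
      show _ ∈ cycloField p
      rw [← InfiniteGalois.fixedField_fixingSubgroup (cycloField p),
        IntermediateField.mem_fixedField_iff]
      intro σ hσ
      have hσ1 := (mem_cycloField_iff σ).mp ((IntermediateField.mem_fixingSubgroup_iff _ σ).mp hσ)
      have hσ' : cycloChar p (d⁻¹ * σ * d) = 1 := by
        rw [_root_.map_mul, _root_.map_mul, map_inv, hσ1, mul_one, inv_mul_cancel]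
      have hzp : IsPrimitiveRoot z p :=
        hζ.map_of_injective (f := (cycloField p).val) Subtype.val_injective
      have hdz : d z = z ^ (b : ZMod p).val := by
        rw [cycloChar_spec d hzp.pow_eq_one, hd]
      have h1 : σ (d α) = d ((d⁻¹ * σ * d) α) := by
        rw [← AlgEquiv.mul_apply, ← AlgEquiv.mul_apply, mul_assoc, mul_inv_cancel_left]
      rw [map_div₀, _root_.map_pow, h1, hact _ hσ', c.map_conj hσ1, hd, _root_.map_mul,
        _root_.map_pow, hdz, hact _ hσ1, mul_pow, ← pow_mul, ← pow_mul]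
      have hexp : z ^ ((b : ZMod p).val * (c.toFun σ * (b : ZMod p)).val) =
          z ^ ((c.toFun σ).val * wexp p b) := by
        refine pow_eq_pow_of_modEq ?_ hzp.pow_eq_one
        rw [← ZMod.natCast_eq_natCast_iff]
        simp only [Nat.cast_mul, ZMod.natCast_val, ZMod.cast_id, wexp_cast]
        ring
      rw [hexp, mul_div_mul_left _ _ (pow_ne_zero _ (hzp.ne_zero hp.ne_zero))]
    refine ⟨⟨_, hmem⟩, fun h => hd0 (congrArg Subtype.val h), Subtype.ext ?_⟩
    have e := apply_eq_gal d (a : (cycloField p))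
    rw [hd] at e
    refine e.symm.trans ?_
    push_cast
    rw [← hαa, _root_.map_pow, div_pow, ← pow_mul, ← pow_mul, mul_comm p,
      mul_div_cancel₀ _ (pow_ne_zero _ hα0)]
  -- the class
  have hI0 : I ≠ 0 := fun h => ha0 (Ideal.span_singleton_eq_bot.mp (by
    rw [hI, h, zero_pow hp.ne_zero]; rfl))
  set I' : (Ideal (𝓞 (cycloField p)))⁰ := ⟨I, mem_nonZeroDivisors_of_ne_zero hI0⟩
  have hx : ClassGroup.mk0 I' ^ p = 1 := by
    rw [← _root_.map_pow]
    refine (ClassGroup.mk0_eq_one_iff (I' ^ p).2).mpr ⟨⟨a, ?_⟩⟩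
    exact hI.symm
  have heig : ∀ b : (ZMod p)ˣ,
      galClass p b (ClassGroup.mk0 I') = ClassGroup.mk0 I' ^ wexp p b := by
    intro b
    obtain ⟨y, hy0, hy⟩ := hrel b
    obtain ⟨num, den, hden, hyd⟩ := IsFractionRing.div_surjective (A := 𝓞 (cycloField p)) y
    have hden0 : den ≠ 0 := nonZeroDivisors.ne_zero hden
    have hnum0 : num ≠ 0 := fun h => hy0 (by rw [← hyd, h, _root_.map_zero, zero_div])
    have heq : galInt p (cycloField p) b a * den ^ p = a ^ wexp p b * num ^ p := by
      refine RingOfIntegers.coe_injective ?_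
      rw [_root_.map_mul, _root_.map_mul, _root_.map_pow, _root_.map_pow, _root_.map_pow]
      show gal p (cycloField p) b (a : (cycloField p)) * (den : (cycloField p)) ^ p = (a : (cycloField p)) ^ wexp p b * (num : (cycloField p)) ^ p
      rw [hy, mul_assoc, ← mul_pow, ← hyd, div_mul_cancel₀ _ (by simpa using hden0)]
    have hideal : I.map (galInt p (cycloField p) b : 𝓞 (cycloField p) →+* 𝓞 (cycloField p)) * Ideal.span {den} =
        I ^ wexp p b * Ideal.span {num} := by
      refine ideal_pow_left_inj hp.ne_zero ?_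
      rw [mul_pow, mul_pow, ← Ideal.map_pow, ← hI, Ideal.map_span, Set.image_singleton,
        ← pow_mul, mul_comm _ p, pow_mul, ← hI, Ideal.span_singleton_pow,
        Ideal.span_singleton_pow, Ideal.span_singleton_pow, Ideal.span_singleton_mul_span_singleton,
        Ideal.span_singleton_mul_span_singleton]
      exact congrArg (fun t => Ideal.span {t}) heq
    have hD : Ideal.span {den} ∈ (Ideal (𝓞 (cycloField p)))⁰ :=
      mem_nonZeroDivisors_of_ne_zero (by simpa using hden0)
    have hN : Ideal.span {num} ∈ (Ideal (𝓞 (cycloField p)))⁰ :=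
      mem_nonZeroDivisors_of_ne_zero (by simpa using hnum0)
    have hsub : Ideal.mapNonZero (galInt p (cycloField p) b) I' * ⟨_, hD⟩ = I' ^ wexp p b * ⟨_, hN⟩ :=
      Subtype.ext hideal
    have := congrArg ClassGroup.mk0 hsub
    rw [_root_.map_mul, _root_.map_mul, (ClassGroup.mk0_eq_one_iff hD).mpr ⟨⟨den, rfl⟩⟩,
      (ClassGroup.mk0_eq_one_iff hN).mpr ⟨⟨num, rfl⟩⟩, mul_one, mul_one, _root_.map_pow] at this
    rw [galClass_mk0]
    exact this
  obtain ⟨⟨x, hxI⟩⟩ := (ClassGroup.mk0_eq_one_iff I'.2).mp (classGroup_eigen_eq_one h3 _ hx heig)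
  change I = Ideal.span {x} at hxI
  rw [hxI, Ideal.span_singleton_pow, Ideal.span_singleton_eq_span_singleton] at hI
  obtain ⟨u₀, hu₀⟩ := hI.symm
  have hx0 : x ≠ 0 := fun h => hI0 (by rw [hxI, h]; simp)
  set θ : QBar := α / ((x : (cycloField p)) : QBar)
  have hxQ : ((x : (cycloField p)) : QBar) ≠ 0 := by simpa using hx0
  have hθ : θ ^ p = (((u₀ : 𝓞 (cycloField p)) : (cycloField p)) : QBar) := by
    rw [div_pow, hαa, ← hu₀, div_eq_iff (pow_ne_zero _ hxQ)]
    push_cast
    ring
  have hθsplit : IsSplitAt (cycloField p) p θ := fun A hA σ hσ hfix => by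
    rw [map_div₀, hsplit A hA σ hσ hfix, hfix _ (Subtype.coe_prop _)]
  have hueig : IsEigenUnit p u₀ := by
    intro b
    obtain ⟨y, hy0, hy⟩ := hrel b
    have hxK : (x : (cycloField p)) ≠ 0 := by simpa using hx0
    have hgx : gal p (cycloField p) b (x : (cycloField p)) ≠ 0 := (_root_.map_ne_zero _).mpr hxK
    set y' : (cycloField p) := y * (x : (cycloField p)) ^ wexp p b / gal p (cycloField p) b (x : (cycloField p)) with hy'
    have hu : gal p (cycloField p) b ((u₀ : 𝓞 (cycloField p)) : (cycloField p)) = ((u₀ : 𝓞 (cycloField p)) : (cycloField p)) ^ wexp p b * y' ^ p := by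
      have ha : (a : (cycloField p)) = (x : (cycloField p)) ^ p * ((u₀ : 𝓞 (cycloField p)) : (cycloField p)) := by
        rw [← hu₀]; push_cast; rfl
      rw [ha, _root_.map_mul, _root_.map_pow, mul_pow] at hy
      rw [hy', div_pow, mul_pow, mul_div_assoc', eq_div_iff (pow_ne_zero _ hgx), mul_comm, hy,
        ← pow_mul, ← pow_mul, mul_comm p (wexp p b)]
      ring
    set u₁ : (𝓞 (cycloField p))ˣ := galUnits p (cycloField p) b u₀ * (u₀ ^ wexp p b)⁻¹
    have hu₁ : y' ^ p = ((u₁ : 𝓞 (cycloField p)) : (cycloField p)) := by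
      have h0 : ((u₀ : 𝓞 (cycloField p)) : (cycloField p)) ^ wexp p b ≠ 0 := pow_ne_zero _ (by simp)
      have h1 : galUnits p (cycloField p) b u₀ = u₁ * u₀ ^ wexp p b := (inv_mul_cancel_right _ _).symm
      have h2 := congrArg (fun w : (𝓞 (cycloField p))ˣ => ((w : 𝓞 (cycloField p)) : (cycloField p))) h1
      simp only [coe_galUnits, Units.val_mul, Units.val_pow_eq_pow_val] at h2
      rw [hu] at h2
      push_cast at h2
      rw [mul_comm] at h2
      exact mul_right_cancel₀ h0 h2
    have hy'int : IsIntegral ℤ y' :=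
      IsIntegral.of_pow hp.pos (hu₁ ▸ RingOfIntegers.isIntegral_coe _)
    have hy'pow : (⟨y', hy'int⟩ : 𝓞 (cycloField p)) ^ p = (u₁ : 𝓞 (cycloField p)) := RingOfIntegers.ext hu₁
    obtain ⟨w, hw⟩ := (isUnit_pow_iff hp.ne_zero).mp (hy'pow ▸ u₁.isUnit)
    refine ⟨w, ?_⟩
    have hwp : w ^ p = u₁ := Units.ext ((Units.val_pow_eq_pow_val _ _).trans
      ((congrArg (· ^ p) hw).trans hy'pow))
    rw [hwp, mul_comm, inv_mul_cancel_right]
  obtain ⟨w, hw⟩ := unit_eigen_pow h3 u₀ hueig θ hθ hθsplit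
  have hwQ : (((w : 𝓞 (cycloField p)) : (cycloField p)) : QBar) ≠ 0 := by simp
  have hzp : IsPrimitiveRoot z p := hζ.map_of_injective (f := (cycloField p).val) Subtype.val_injective
  obtain ⟨i, -, hi⟩ := hzp.eq_pow_of_pow_eq_one
    (show (θ / (((w : 𝓞 (cycloField p)) : (cycloField p)) : QBar)) ^ p = 1 by
      rw [div_pow, hθ, hw, div_eq_one_iff_eq (pow_ne_zero _ hwQ)]
      simp)
  apply hsα
  have hα' : α = z ^ i * (((w : 𝓞 (cycloField p)) : (cycloField p)) : QBar) * ((x : (cycloField p)) : QBar) := by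
    rw [hi, div_mul_cancel₀ _ hwQ, div_mul_cancel₀ _ hxQ]
  have hfix := (mem_cycloField_iff s).mpr hs
  rw [hα']
  exact hfix _ (mul_mem (mul_mem (pow_mem (cycloRoot p).2 _) (Subtype.coe_prop _))
    (Subtype.coe_prop _))

end FLTAgent.Ext
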