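import Fermat.Prelude.Def_ClassGroup_GaloisAction
import Fermat.Agent.Ext.Cyclo

/-!
# S14: prime factorisations of ideals and their classes modulo `p`-th powers
-/

set_option autoImplicit false
set_option maxSynthPendingDepth 3

noncomputable section

namespace FLTAgent.Ext

open Ideal UniqueFactorizationMonoid NumberField
open scoped nonZeroDivisors Classical

section Count

variable {R : Type*} [CommRing R] [IsDedekindDomain R]

/-- The exponent of `Q` in `I`. -/
def idealCount (Q I : Ideal R) : ℕ := Multiset.count Q (normalizedFactors I)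

lemma pow_dvd_iff_le_idealCount {Q I : Ideal R} (hQ : Prime Q) (hI : I ≠ 0) (k : ℕ) :
    Q ^ k ∣ I ↔ k ≤ idealCount Q I := by
  rw [idealCount, dvd_iff_normalizedFactors_le_normalizedFactors (pow_ne_zero _ hQ.ne_zero) hI,
    normalizedFactors_pow, normalizedFactors_irreducible hQ.irreducible, normalize_eq,
    Multiset.nsmul_singleton, Multiset.le_count_iff_replicate_le]

lemma idealCount_mul {Q I J : Ideal R} (hI : I ≠ 0) (hJ : J ≠ 0) :
    idealCount Q (I * J) = idealCount Q I + idealCount Q J := by
  rw [idealCount, normalizedFactors_mul hI hJ, Multiset.count_add, idealCount, idealCount]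

lemma idealCount_pow {Q I : Ideal R} (k : ℕ) : idealCount Q (I ^ k) = k * idealCount Q I := by
  rw [idealCount, normalizedFactors_pow, Multiset.count_nsmul, idealCount]

lemma idealCount_self {Q : Ideal R} (hQ : Prime Q) : idealCount Q Q = 1 := by
  rw [idealCount, normalizedFactors_irreducible hQ.irreducible, normalize_eq,
    Multiset.count_singleton_self]

lemma idealCount_eq_zero {Q I : Ideal R} (h : ¬ Q ∣ I) : idealCount Q I = 0 :=
  Multiset.count_eq_zero.mpr fun hQ => h (dvd_of_mem_normalizedFactors hQ)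

variable {S : Type*} [CommRing S] [IsDedekindDomain S] [Algebra R S] [Module.IsTorsionFree R S]

/-- Exponents in an extended ideal. -/
lemma idealCount_map {v J : Ideal R} (hv : Prime v) (hJ : J ≠ 0) {Q : Ideal S}
    (hover : Q.LiesOver v) :
    idealCount Q (J.map (algebraMap R S)) =
      idealCount v J * idealCount Q (v.map (algebraMap R S)) := by
  obtain ⟨J', hJ'⟩ := (pow_dvd_iff_le_idealCount hv hJ _).mpr le_rfl
  have hJ'0 : J' ≠ 0 := fun h => hJ (by rw [hJ', h, mul_zero])
  have hnd : ¬ v ∣ J' := fun hd => by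
    have h1 : v ^ (idealCount v J + 1) ∣ v ^ idealCount v J * J' := by
      rw [pow_succ]; exact mul_dvd_mul_left _ hd
    rw [← hJ'] at h1
    have h := (pow_dvd_iff_le_idealCount hv hJ (idealCount v J + 1)).mp h1
    omega
  have hinj := FaithfulSMul.algebraMap_injective R S
  have hne : ∀ {I : Ideal R}, I ≠ 0 → I.map (algebraMap R S) ≠ 0 := fun h h0 =>
    h ((Ideal.map_eq_bot_iff_of_injective hinj).mp h0)
  have hQ : ¬ Q ∣ J'.map (algebraMap R S) := fun hd =>
    hnd (Ideal.dvd_iff_le.mpr (hover.over ▸ Ideal.map_le_iff_le_comap.mp (Ideal.le_of_dvd hd)))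
  conv_lhs => rw [hJ', Ideal.map_mul, Ideal.map_pow,
    idealCount_mul (pow_ne_zero _ (hne hv.ne_zero)) (hne hJ'0), idealCount_pow,
    idealCount_eq_zero hQ, add_zero]

end Count

section ClassMod

variable (p : ℕ) (K : Type*) [Field K] [NumberField K]

/-- The class group modulo `p`-th powers. -/
abbrev ClassModPow := ClassGroup (𝓞 K) ⧸ (powMonoidHom p : ClassGroup (𝓞 K) →* ClassGroup (𝓞 K)).range

variable {p K}

omit [NumberField K] in
lemma classModPow_pow_eq_one (x : ClassModPow p K) : x ^ p = 1 := by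
  obtain ⟨c, rfl⟩ := QuotientGroup.mk_surjective x
  rw [← QuotientGroup.mk_pow, QuotientGroup.eq_one_iff]
  exact ⟨c, rfl⟩

variable (p) in
/-- The class of an ideal modulo `p`-th powers. -/
def idealClassMod (I : Ideal (𝓞 K)) : ClassModPow p K :=
  if h : I ∈ (Ideal (𝓞 K))⁰ then QuotientGroup.mk (ClassGroup.mk0 ⟨I, h⟩) else 1

lemma idealClassMod_coe (I : (Ideal (𝓞 K))⁰) :
    idealClassMod p (I : Ideal (𝓞 K)) = QuotientGroup.mk (ClassGroup.mk0 I) := by
  rw [idealClassMod, dif_pos I.2]

lemma idealClassMod_prod (s : Multiset (Ideal (𝓞 K))) (h : ∀ I ∈ s, I ≠ 0) :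
    idealClassMod p s.prod = (s.map (idealClassMod p)).prod := by
  induction s using Multiset.induction with
  | empty =>
    rw [Multiset.prod_zero, Multiset.map_zero, Multiset.prod_zero, idealClassMod,
      dif_pos (one_mem _)]
    exact congrArg QuotientGroup.mk (map_one ClassGroup.mk0)
  | cons a s ih =>
    have ha : a ∈ (Ideal (𝓞 K))⁰ := mem_nonZeroDivisors_of_ne_zero (h a (Multiset.mem_cons_self a s))
    have hs : s.prod ∈ (Ideal (𝓞 K))⁰ := mem_nonZeroDivisors_of_ne_zero
      (Multiset.prod_ne_zero fun h0 => h 0 (Multiset.mem_cons_of_mem h0) rfl)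
    rw [Multiset.prod_cons, Multiset.map_cons, Multiset.prod_cons,
      ← ih fun I hI => h I (Multiset.mem_cons_of_mem hI), idealClassMod, idealClassMod,
      idealClassMod, dif_pos ha, dif_pos hs, dif_pos (mul_mem ha hs), ← QuotientGroup.mk_mul,
      ← map_mul]
    rfl

/-- Primes outside `f` occur with exponents divisible by `p`, so only `f` contributes. -/
lemma idealClassMod_eq_prod {ι : Type*} [Fintype ι] {f : ι → Ideal (𝓞 K)}
    (hf : Function.Injective f) {J : Ideal (𝓞 K)} (hJ : J ≠ 0)
    (h : ∀ v, Prime v → v ∉ Set.range f → p ∣ idealCount v J) :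
    idealClassMod p J = ∏ i, idealClassMod p (f i) ^ idealCount (f i) J := by
  conv_lhs => rw [← Ideal.prod_normalizedFactors_eq_self (I := J) hJ]
  rw [idealClassMod_prod _ (fun I hI => (prime_of_normalized_factor I hI).ne_zero),
    Finset.prod_multiset_map_count, ← Finset.prod_image (f := fun v => idealClassMod p v ^ idealCount v J)
      (g := f) (s := Finset.univ) (fun i _ j _ hij => hf hij)]
  refine Finset.prod_congr_of_eq_on_inter ?_ ?_ fun v _ _ => rfl
  · intro v hv hv'
    obtain ⟨k, hk⟩ := h v (prime_of_normalized_factor v (Multiset.mem_toFinset.mp hv))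
      (fun ⟨i, hi⟩ => hv' (Finset.mem_image.mpr ⟨i, Finset.mem_univ i, hi⟩))
    rw [show Multiset.count v (normalizedFactors J) = p * k from hk, pow_mul,
      classModPow_pow_eq_one, one_pow]
  · intro v _ hv
    rw [show idealCount v J = 0 from Multiset.count_eq_zero.mpr
      (fun hm => hv (Multiset.mem_toFinset.mpr hm)), pow_zero]

end ClassMod

section ClassAction

variable {p : ℕ} [Fact p.Prime] {K : Type*} [Field K] [NumberField K]
  [IsCyclotomicExtension {p} ℚ K]

variable (p) in
/-- The action on the class group. -/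
def galClass (a : (ZMod p)ˣ) : ClassGroup (𝓞 K) →* ClassGroup (𝓞 K) :=
  (ClassGroup.mulEquiv (galInt p K a)).toMonoidHom

lemma galClass_mk0 (a : (ZMod p)ˣ) (I : (Ideal (𝓞 K))⁰) :
    galClass p a (ClassGroup.mk0 I) = ClassGroup.mk0 (Ideal.mapNonZero (galInt p K a) I) :=
  ClassGroup.mulEquiv_mk0 _ I

variable (p) in
/-- The projection onto the `ω²`-eigenspace, up to sign and `p`-th powers. -/
def eigenProj (x : ClassGroup (𝓞 K)) : ClassGroup (𝓞 K) :=
  ∏ a : (ZMod p)ˣ, galClass p a x ^ wexp p a⁻¹

lemma eigenProj_mul (x y : ClassGroup (𝓞 K)) :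
    eigenProj p (x * y) = eigenProj p x * eigenProj p y := by
  simp [eigenProj, mul_pow, Finset.prod_mul_distrib]

lemma eigenProj_pow (x : ClassGroup (𝓞 K)) (n : ℕ) :
    eigenProj p (x ^ n) = eigenProj p x ^ n := by
  simp [eigenProj, ← Finset.prod_pow, ← pow_mul, mul_comm]

end ClassAction

end FLTAgent.Ext
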