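import Fermat.Agent.Ext.Cyclo
import Mathlib.Algebra.DualNumber
import Mathlib.FieldTheory.Finite.Basic

/-!
# S14: the second logarithmic derivative modulo `p`

A ring homomorphism `𝓞 K → 𝔽_p[ε₁, ε₂]`, `ζ ↦ exp (ε₁ + ε₂)`, shows that no power of `η` with
exponent prime to `p` is congruent to a `p`-th power modulo `p`.
-/

set_option autoImplicit false

noncomputable section

namespace FLTAgent.Ext

open NumberField Polynomial TrivSqZeroExt

/-- `𝔽_p[ε₁, ε₂]`. -/
abbrev TwoJet (p : ℕ) := DualNumber (DualNumber (ZMod p))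

variable {p : ℕ} [Fact p.Prime]

/-- The jet of `exp (i (ε₁ + ε₂))`. -/
def expJet (p : ℕ) (i : ZMod p) : TwoJet p :=
  inl (inl 1 + inr i) + inr (inl i + inr (i * i))

lemma expJet_mul (i j : ZMod p) : expJet p i * expJet p j = expJet p (i + j) := by
  apply TrivSqZeroExt.ext <;> apply TrivSqZeroExt.ext <;>
    simp [expJet, TrivSqZeroExt.fst_mul, TrivSqZeroExt.snd_mul] <;> ring

lemma expJet_zero : expJet p 0 = 1 := by
  apply TrivSqZeroExt.ext <;> apply TrivSqZeroExt.ext <;> simp [expJet]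

lemma expJet_one_pow (i : ℕ) : expJet p 1 ^ i = expJet p (i : ZMod p) := by
  induction i with
  | zero => simp [expJet_zero]
  | succ i ih => rw [pow_succ, ih, expJet_mul, Nat.cast_succ]

lemma sum_range_cast_pow (h5 : 5 ≤ p) (k : ℕ) (hk : k < 3) :
    ∑ i ∈ Finset.range p, (i : ZMod p) ^ k = 0 := by
  rw [← FiniteField.sum_pow_lt_card_sub_one (ZMod p) k (by rw [ZMod.card]; omega)]
  refine Finset.sum_bij (fun i _ => (i : ZMod p)) (fun _ _ => Finset.mem_univ _) ?_ ?_
    (fun _ _ => rfl)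
  · intro i hi j hj h
    have := congrArg ZMod.val h
    rwa [ZMod.val_natCast, ZMod.val_natCast, Nat.mod_eq_of_lt (Finset.mem_range.mp hi),
      Nat.mod_eq_of_lt (Finset.mem_range.mp hj)] at this
  · exact fun b _ => ⟨b.val, Finset.mem_range.mpr b.val_lt, by simp⟩

lemma aeval_expJet_cyclotomic (h5 : 5 ≤ p) : aeval (expJet p 1) (cyclotomic p ℤ) = 0 := by
  have h0 := sum_range_cast_pow h5 0 (by norm_num)
  have h1 := sum_range_cast_pow h5 1 (by norm_num)
  have h2 := sum_range_cast_pow h5 2 (by norm_num)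
  simp only [pow_zero, pow_one, sq] at h0 h1 h2
  rw [cyclotomic_prime, map_sum]
  simp only [map_pow, aeval_X, expJet_one_pow]
  apply TrivSqZeroExt.ext <;> apply TrivSqZeroExt.ext <;>
    simp_all [expJet, TrivSqZeroExt.fst_sum, TrivSqZeroExt.snd_sum]

/-- The second logarithmic derivative. -/
def logJet (x : TwoJet p) : ZMod p :=
  x.snd.snd / x.fst.fst - x.fst.snd * x.snd.fst / x.fst.fst ^ 2

lemma logJet_mul {x y : TwoJet p} (hx : x.fst.fst ≠ 0) (hy : y.fst.fst ≠ 0) :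
    logJet (x * y) = logJet x + logJet y := by
  simp only [logJet, TrivSqZeroExt.fst_mul, TrivSqZeroExt.snd_mul, TrivSqZeroExt.fst_add,
    TrivSqZeroExt.snd_add, smul_eq_mul, MulOpposite.smul_eq_mul_unop, MulOpposite.unop_op]
  field_simp
  ring

lemma logJet_one : logJet (1 : TwoJet p) = 0 := by simp [logJet]

lemma fst_fst_pow (x : TwoJet p) (n : ℕ) : (x ^ n).fst.fst = x.fst.fst ^ n := by
  simp [TrivSqZeroExt.fst_pow]

lemma logJet_pow {x : TwoJet p} (hx : x.fst.fst ≠ 0) (n : ℕ) :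
    logJet (x ^ n) = n * logJet x := by
  induction n with
  | zero => simp [logJet_one]
  | succ n ih =>
    rw [pow_succ, logJet_mul (by rw [fst_fst_pow]; exact pow_ne_zero _ hx) hx, ih, Nat.cast_succ]
    ring

lemma logJet_prod {ι : Type*} (s : Finset ι) (f : ι → TwoJet p)
    (hf : ∀ i ∈ s, (f i).fst.fst ≠ 0) :
    (∏ i ∈ s, f i).fst.fst ≠ 0 ∧ logJet (∏ i ∈ s, f i) = ∑ i ∈ s, logJet (f i) := by
  classical
  induction s using Finset.induction with
  | empty => simp [logJet_one]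
  | insert a s ha ih =>
    obtain ⟨hne, hsum⟩ := ih fun i hi => hf i (Finset.mem_insert_of_mem hi)
    have hfa := hf a (Finset.mem_insert_self a s)
    rw [Finset.prod_insert ha, Finset.sum_insert ha, logJet_mul hfa hne, hsum]
    refine ⟨?_, rfl⟩
    simp only [TrivSqZeroExt.fst_mul]
    exact mul_ne_zero hfa hne

variable {K : Type*} [Field K] [NumberField K] [IsCyclotomicExtension {p} ℚ K]
  {ζ : K} (hζ : IsPrimitiveRoot ζ p)

lemma exists_jetHom (h5 : 5 ≤ p) :
    ∃ φ : 𝓞 K →+* TwoJet p, φ (zint hζ) = expJet p 1 := by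
  have : NeZero p := ⟨(Fact.out : p.Prime).ne_zero⟩
  let B := hζ.integralPowerBasis
  have hgen : B.gen = zint hζ := hζ.integralPowerBasis_gen
  have hmin : minpoly ℤ B.gen = cyclotomic p ℤ := by
    rw [cyclotomic_eq_minpoly hζ (Fact.out : p.Prime).pos, hgen]
    exact (minpoly.algebraMap_eq RingOfIntegers.coe_injective (zint hζ)).symm
  refine ⟨(B.lift (expJet p 1) (by rw [hmin, aeval_expJet_cyclotomic h5])).toRingHom, ?_⟩
  rw [← hgen]
  exact B.lift_gen _ _

variable (h3 : 3 ≤ p)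

/-- `η ^ k` congruent to a `p`-th power modulo `p` forces `p ∣ k`. -/
theorem dvd_of_etaUnit_pow_congr (h5 : 5 ≤ p) (k : ℕ) (n : 𝓞 K)
    (h : (p : 𝓞 K) ∣ (etaUnit hζ h3 : 𝓞 K) ^ k - n ^ p) : p ∣ k := by
  obtain ⟨φ, hφ⟩ := exists_jetHom hζ h5
  have h2 : (2 : ZMod p) ≠ 0 := by
    intro h0
    have : ((2 : ℕ) : ZMod p) = 0 := by exact_mod_cast h0
    rw [ZMod.natCast_eq_zero_iff] at this
    exact absurd (Nat.le_of_dvd two_pos this) (by omega)
  have h4 : (4 : ZMod p) ≠ 0 := by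
    rw [show (4 : ZMod p) = 2 * 2 by norm_num]
    exact mul_ne_zero h2 h2
  have hj : ∀ a : (ZMod p)ˣ, φ (onePlus hζ h3 a : 𝓞 K) = 1 + expJet p (a : ZMod p) := fun a => by
    rw [coe_onePlus, map_add, map_one, map_pow, hφ, expJet_one_pow, ZMod.natCast_val, ZMod.cast_id]
  have hfst : ∀ a : (ZMod p)ˣ, (φ (onePlus hζ h3 a : 𝓞 K)).fst.fst = 2 := fun a => by
    rw [hj]
    simp [expJet, one_add_one_eq_two]
  have hL : ∀ a : (ZMod p)ˣ, logJet (φ (onePlus hζ h3 a : 𝓞 K)) = (a : ZMod p) ^ 2 / 4 := fun a => by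
    rw [hj]
    simp [logJet, expJet, one_add_one_eq_two]
    field_simp
    ring
  set e : TwoJet p := φ (etaUnit hζ h3 : 𝓞 K) with he
  have hprod : e = ∏ a : (ZMod p)ˣ, φ (onePlus hζ h3 a : 𝓞 K) ^ wexp p a⁻¹ := by
    simp [he, etaUnit, Units.coe_prod, map_prod]
  obtain ⟨he0, hsum⟩ := logJet_prod Finset.univ
    (fun a : (ZMod p)ˣ => φ (onePlus hζ h3 a : 𝓞 K) ^ wexp p a⁻¹)
    (fun a _ => by rw [fst_fst_pow, hfst]; exact pow_ne_zero _ h2)
  rw [← hprod] at he0 hsum
  have hLe : logJet e = -1 / 4 := by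
    rw [hsum, Finset.sum_congr rfl fun a _ => show
      logJet (φ (onePlus hζ h3 a : 𝓞 K) ^ wexp p a⁻¹) = 1 / 4 by
        rw [logJet_pow (by rw [hfst]; exact h2), hL, wexp_cast, ← mul_div_assoc, ← mul_pow,
          ← Units.val_mul, inv_mul_cancel, Units.val_one, one_pow]]
    rw [Finset.sum_const, Finset.card_univ, ZMod.card_units_eq_totient,
      Nat.totient_prime Fact.out, nsmul_eq_mul, Nat.cast_sub (Fact.out : p.Prime).one_le]
    simp [neg_div]
  obtain ⟨c, hc⟩ := h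
  have hpR : ((p : ℕ) : TwoJet p) = 0 := by
    apply TrivSqZeroExt.ext <;> apply TrivSqZeroExt.ext <;> simp
  have hpow : e ^ k = φ n ^ p := by
    rw [← sub_eq_zero, he, ← map_pow, ← map_pow, ← map_sub, hc, map_mul, map_natCast, hpR,
      zero_mul]
  have hn0 : (φ n).fst.fst ≠ 0 := by
    intro hz
    have := congrArg (fun x : TwoJet p => x.fst.fst) hpow
    simp only [fst_fst_pow, hz, zero_pow (Fact.out : p.Prime).ne_zero] at this
    exact pow_ne_zero k he0 this
  have := congrArg logJet hpow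
  rw [logJet_pow he0, logJet_pow hn0, ZMod.natCast_self, zero_mul, hLe, mul_eq_zero,
    ZMod.natCast_eq_zero_iff] at this
  exact this.resolve_right (div_ne_zero (neg_ne_zero.mpr one_ne_zero) h4)

theorem etaUnit_not_pow (h5 : 5 ≤ p) (y : K) :
    y ^ p ≠ ((etaUnit hζ h3 : 𝓞 K) : K) := by
  intro hy
  have hint : IsIntegral ℤ y :=
    IsIntegral.of_pow (Fact.out : p.Prime).pos (hy ▸ RingOfIntegers.isIntegral_coe _)
  have h1 := dvd_of_etaUnit_pow_congr hζ h3 h5 1 ⟨y, hint⟩ ⟨0, by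
    rw [mul_zero, pow_one, sub_eq_zero]
    exact RingOfIntegers.ext hy.symm⟩
  have := Nat.le_of_dvd one_pos h1
  omega

end FLTAgent.Ext
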