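import Fermat.Agent.Ext.Jet
import Mathlib.NumberTheory.NumberField.Cyclotomic.Embeddings
import Mathlib.NumberTheory.NumberField.Units.DirichletTheorem
import Mathlib.NumberTheory.NumberField.InfinitePlace.Ramification
import Mathlib.Data.ZMod.QuotientGroup
import Mathlib.LinearAlgebra.Eigenspace.Zero
import Mathlib.LinearAlgebra.Matrix.Gershgorin
import Mathlib.FieldTheory.Finite.Basic

/-!
# S14: the `ω²`-eigenspace of units modulo `p`-th powers is spanned by `η`

A generator of the Galois group acts on units modulo torsion with characteristic polynomial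
`1 + X + ⋯ + X ^ (m - 1)`, `m` the number of places, which is separable modulo `p`.
-/

set_option autoImplicit false
set_option maxSynthPendingDepth 3

noncomputable section

namespace FLTAgent.Ext

open NumberField NumberField.Units Polynomial InfinitePlace Finset
open scoped Classical

variable {p : ℕ} [Fact p.Prime] {K : Type*} [Field K] [NumberField K]
  [IsCyclotomicExtension {p} ℚ K]

section LogPlace

variable (K) in
/-- Units modulo torsion, additively. -/
abbrev UnitsModTor := Additive ((𝓞 K)ˣ ⧸ torsion K)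

/-- The class of a unit modulo torsion. -/
def toModTor (x : (𝓞 K)ˣ) : UnitsModTor K := Additive.ofMul (QuotientGroup.mk x)

omit [NumberField K] [IsCyclotomicExtension {p} ℚ K] in
lemma toModTor_surjective : Function.Surjective (toModTor (K := K)) := fun a =>
  let ⟨x, hx⟩ := QuotientGroup.mk_surjective a.toMul
  ⟨x, by rw [toModTor, hx]; rfl⟩

omit [NumberField K] [IsCyclotomicExtension {p} ℚ K] in
lemma toModTor_eq_zero {x : (𝓞 K)ˣ} : toModTor x = 0 ↔ x ∈ torsion K :=
  ofMul_eq_zero.trans (QuotientGroup.eq_one_iff x)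

/-- `log |x|_w` on units modulo torsion. -/
def logPlace (w : InfinitePlace K) : UnitsModTor K →+ ℝ :=
  MonoidHom.toAdditiveLeft (QuotientGroup.lift (torsion K)
    (MonoidHom.mk' (fun x : (𝓞 K)ˣ => Multiplicative.ofAdd (Real.log (w ((x : 𝓞 K) : K))))
      fun x y => by
        rw [← ofAdd_add, ← Real.log_mul (pos_at_place x w).ne' (pos_at_place y w).ne',
          ← map_mul]
        rfl)
    fun x hx => MonoidHom.mem_ker.mpr (by
      simp [(mem_torsion K).mp hx w]))

omit [IsCyclotomicExtension {p} ℚ K] in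
lemma logPlace_toModTor (w : InfinitePlace K) (x : (𝓞 K)ˣ) :
    logPlace w (toModTor x) = Real.log (w ((x : 𝓞 K) : K)) := rfl

omit [IsCyclotomicExtension {p} ℚ K] in
lemma eq_zero_of_forall_logPlace {a : UnitsModTor K} (h : ∀ w, logPlace w a = 0) : a = 0 := by
  obtain ⟨x, rfl⟩ := toModTor_surjective a
  refine toModTor_eq_zero.mpr ((mem_torsion K).mpr fun w => ?_)
  exact Real.eq_one_of_pos_of_log_eq_zero (pos_at_place x w) (h w)

lemma galUnits_mem_torsion (a : (ZMod p)ˣ) {x : (𝓞 K)ˣ}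
    (hx : x ∈ torsion K) : galUnits p K a x ∈ torsion K :=
  (CommGroup.mem_torsion _).mpr ((galUnits p K a).isOfFinOrder ((CommGroup.mem_torsion _).mp hx))

variable (p K) in
/-- The action on units modulo torsion. -/
def galModTor (a : (ZMod p)ˣ) : Module.End ℤ (UnitsModTor K) :=
  (MonoidHom.toAdditive (QuotientGroup.map (torsion K) (torsion K) (galUnits p K a)
    fun _ hx => galUnits_mem_torsion a hx)).toIntLinearMap

lemma galModTor_toModTor (a : (ZMod p)ˣ) (x : (𝓞 K)ˣ) :
    galModTor p K a (toModTor x) = toModTor (galUnits p K a x) := rfl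

lemma galModTor_pow (a : (ZMod p)ˣ) (i : ℕ) (x : (𝓞 K)ˣ) :
    (galModTor p K a ^ i) (toModTor x) = toModTor (galUnits p K (a ^ i) x) := by
  induction i with
  | zero => simp [galUnits_one]
  | succ i ih =>
    rw [pow_succ', Module.End.mul_apply, ih, galModTor_toModTor, pow_succ', galUnits_mul]

lemma logPlace_galModTor_pow (a : (ZMod p)ˣ) (i : ℕ) (w : InfinitePlace K) (b : UnitsModTor K) :
    logPlace w ((galModTor p K a ^ i) b) = logPlace ((gal p K a)⁻¹ ^ i • w) b := by
  obtain ⟨x, rfl⟩ := toModTor_surjective b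
  rw [galModTor_pow, logPlace_toModTor, logPlace_toModTor, InfinitePlace.smul_apply,
    coe_galUnits, map_pow, ← AlgEquiv.aut_inv, inv_pow, inv_inv]

end LogPlace

section Places

variable {g : (ZMod p)ˣ} (hg : ∀ b : (ZMod p)ˣ, b ∈ Subgroup.zpowers g)

include hg in
lemma smul_pow_injOn (w : InfinitePlace K) :
    Function.Bijective fun i : Fin (Fintype.card (InfinitePlace K)) =>
      ((gal p K g)⁻¹ ^ (i : ℕ)) • w := by
  have : IsGalois ℚ K := IsCyclotomicExtension.isGalois {p} ℚ K
  set ρ := (gal p K g)⁻¹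
  have horb : MulAction.orbit (Subgroup.zpowers ρ) w = Set.univ := by
    refine Set.eq_univ_of_forall fun w' => ?_
    obtain ⟨τ, hτ⟩ := exists_smul_eq_of_comap_eq (k := ℚ) (w := w) (w' := w') (Subsingleton.elim _ _)
    obtain ⟨k, hk⟩ := hg ((gal p K).symm τ)
    refine ⟨⟨τ, -k, ?_⟩, hτ⟩
    show ρ ^ (-k) = τ
    rw [inv_zpow, zpow_neg, inv_inv, ← map_zpow]
    exact (congrArg (gal p K) hk).trans ((gal p K).apply_symm_apply τ)
  have hper : Function.minimalPeriod (ρ • ·) w = Fintype.card (InfinitePlace K) := by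
    rw [MulAction.minimalPeriod_eq_card]
    exact Fintype.card_congr ((Equiv.setCongr horb).trans (Equiv.Set.univ _))
  rw [Fintype.bijective_iff_injective_and_card]
  refine ⟨fun i j h => Fin.ext ?_, Fintype.card_fin _⟩
  refine Function.iterate_injOn_Iio_minimalPeriod (f := (ρ • ·)) (x := w)
    (Set.mem_Iio.mpr (i.2.trans_eq hper.symm)) (Set.mem_Iio.mpr (j.2.trans_eq hper.symm)) ?_
  simpa [smul_iterate] using h

lemma isTotallyComplex_cyclotomic (h3 : 3 ≤ p) : IsTotallyComplex K :=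
  ⟨fun w => not_isReal_iff_isComplex.mp fun hw => by
    have h0 : nrRealPlaces K = 0 := IsCyclotomicExtension.Rat.nrRealPlaces_eq_zero K (n := p) (by omega)
    exact (Fintype.card_eq_zero_iff.mp h0).false ⟨w, hw⟩⟩

include hg in
lemma sum_range_galModTor (h3 : 3 ≤ p) :
    ∑ i ∈ range (Fintype.card (InfinitePlace K)), galModTor p K g ^ i = 0 := by
  refine LinearMap.ext fun b => ?_
  rw [LinearMap.zero_apply]
  refine eq_zero_of_forall_logPlace fun w => ?_
  rw [LinearMap.sum_apply, map_sum, ← Fin.sum_univ_eq_sum_range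
    (fun i => logPlace w ((galModTor p K g ^ i) b))]
  simp only [logPlace_galModTor_pow]
  rw [(smul_pow_injOn hg w).sum_comp fun v => logPlace v b]
  obtain ⟨x, rfl⟩ := toModTor_surjective b
  have h := sum_mult_mul_log x
  have : IsTotallyComplex K := isTotallyComplex_cyclotomic h3
  simp only [IsTotallyComplex.mult_eq, ← mul_sum, Nat.cast_ofNat] at h
  simpa [logPlace_toModTor] using h

include hg in
lemma exists_pows_independent :
    ∃ b : UnitsModTor K, ∀ c : Fin (rank K) → ℤ,
      (∑ i, c i • (galModTor p K g ^ (i : ℕ)) b) = 0 → c = 0 := by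
  let w₁ : InfinitePlace K := dirichletUnitTheorem.w₀
  obtain ⟨u, hu⟩ := dirichletUnitTheorem.exists_unit K w₁
  refine ⟨toModTor u, fun c hc => ?_⟩
  set ρ := (gal p K g)⁻¹
  set m := Fintype.card (InfinitePlace K) with hm
  have hmpos : 0 < m := Fintype.card_pos
  have hr : rank K + 1 = m := by rw [rank, ← hm]; omega
  let v : Fin (rank K) → InfinitePlace K := fun j => (ρ ^ (j : ℕ))⁻¹ • w₁
  let A : Matrix (Fin (rank K)) (Fin (rank K)) ℝ :=
    Matrix.of fun i j => logPlace (ρ ^ (i : ℕ) • v j) (toModTor u)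
  have hne : ∀ i : Fin (rank K), ∀ k : ℕ, k < m → k ≠ (i : ℕ) →
      ρ ^ k • v i ≠ w₁ := by
    intro i k hk hki h
    have h2 : ρ ^ (i : ℕ) • v i = w₁ := smul_inv_smul _ _
    exact hki (congrArg Fin.val ((smul_pow_injOn hg (v i)).1
      (a₁ := (⟨k, hk⟩ : Fin m)) (a₂ := ⟨i, by omega⟩) (h.trans h2.symm)))
  have hlt : ∀ (j : Fin (rank K)) (k : ℕ), k < m → k ≠ (j : ℕ) →
      logPlace (ρ ^ k • v j) (toModTor u) < 0 := fun j k hk hkj => hu _ (hne j k hk hkj)
  have hdet : A.det ≠ 0 := by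
    refine det_ne_zero_of_sum_col_lt_diag fun j => ?_
    have htot : ∑ k ∈ range m, logPlace (ρ ^ k • v j) (toModTor u) = 0 := by
      rw [← Fin.sum_univ_eq_sum_range fun k => logPlace (ρ ^ k • v j) (toModTor u),
        (smul_pow_injOn hg (v j)).sum_comp fun w => logPlace w (toModTor u)]
      have h := sum_mult_mul_log u
      have hmult : ∀ w : InfinitePlace K, mult w = mult w₁ := fun w => by
        obtain ⟨i, rfl⟩ := (smul_pow_injOn hg w₁).2 w
        unfold mult
        simp only [isReal_smul_iff]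
      simp only [hmult, ← mul_sum] at h
      simpa [logPlace_toModTor] using h
    rw [← hr, sum_range_succ, ← Fin.sum_univ_eq_sum_range
      (fun k => logPlace (ρ ^ k • v j) (toModTor u)), ← sum_erase_add _ _ (mem_univ j)] at htot
    have hlast := hlt j (rank K) (by omega) (Nat.ne_of_gt j.2)
    have hoff : ∀ i ∈ univ.erase j, A i j < 0 := fun i hi =>
      hlt j i (by omega) fun h => (mem_erase.mp hi).1 (Fin.ext h)
    have hs : ∑ i ∈ univ.erase j, ‖A i j‖ = -∑ i ∈ univ.erase j, A i j := by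
      rw [← sum_neg_distrib]
      exact sum_congr rfl fun i hi => by rw [Real.norm_eq_abs, abs_of_neg (hoff i hi)]
    have hnonpos : ∑ i ∈ univ.erase j, A i j ≤ 0 := sum_nonpos fun i hi => (hoff i hi).le
    simp only [A, Matrix.of_apply] at hs hnonpos htot ⊢
    rw [hs, Real.norm_eq_abs]
    exact lt_of_lt_of_le (by linarith) (le_abs_self _)
  have hcA : Matrix.vecMul (fun i => (c i : ℝ)) A = 0 := by
    funext j
    have := congrArg (logPlace (v j)) hc
    rw [map_zero, map_sum] at this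
    simpa [A, ρ, Matrix.vecMul, dotProduct, map_zsmul, logPlace_galModTor_pow] using this
  funext i
  simpa using congrFun (Matrix.eq_zero_of_vecMul_eq_zero hdet hcA) i

lemma geomPoly_spec (n : ℕ) :
    (∑ i ∈ range (n + 1), (X : ℤ[X]) ^ i).Monic ∧
      (∑ i ∈ range (n + 1), (X : ℤ[X]) ^ i).natDegree = n := by
  refine ⟨monic_geom_sum_X (by omega), natDegree_eq_of_le_of_coeff_ne_zero ?_ ?_⟩
  · refine natDegree_sum_le_of_forall_le _ _ fun i hi => ?_
    rw [natDegree_X_pow]
    exact Nat.le_of_lt_succ (mem_range.mp hi)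
  · simp [finsetSum_coeff, coeff_X_pow]

include hg in
lemma charpoly_galModTor (h3 : 3 ≤ p) :
    (galModTor p K g).charpoly = ∑ i ∈ range (Fintype.card (InfinitePlace K)), X ^ i := by
  have hr : rank K + 1 = Fintype.card (InfinitePlace K) := by
    rw [rank]; have := Fintype.card_pos (α := InfinitePlace K); omega
  set T := galModTor p K g
  obtain ⟨b, hb⟩ := exists_pows_independent hg (K := K)
  obtain ⟨hmon, hdeg⟩ := geomPoly_spec (rank K)
  rw [← hr]
  set Φ : ℤ[X] := ∑ i ∈ range (rank K + 1), X ^ i with hΦ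
  have hdT : T.charpoly.natDegree = rank K := by
    rw [LinearMap.charpoly_natDegree, Units.finrank_modTorsion]
  have haev : aeval T Φ = 0 := by
    rw [hΦ, map_sum]
    simpa [hr] using sum_range_galModTor hg (K := K) h3
  by_contra hne
  set q := T.charpoly - Φ
  have hq0 : q ≠ 0 := sub_ne_zero.mpr hne
  have hqdeg : q.natDegree < rank K := by
    have : q.degree < T.charpoly.degree := degree_sub_lt_left
      (by rw [degree_eq_natDegree T.charpoly_monic.ne_zero, degree_eq_natDegree hmon.ne_zero,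
        hdT, hdeg])
      T.charpoly_monic.ne_zero
      (by rw [T.charpoly_monic.leadingCoeff, hmon.leadingCoeff])
    rw [degree_eq_natDegree hq0, degree_eq_natDegree T.charpoly_monic.ne_zero, hdT] at this
    exact_mod_cast this
  have hqT : aeval T q = 0 := by rw [map_sub, LinearMap.aeval_self_charpoly, haev, sub_zero]
  refine hq0 (Polynomial.ext fun i => ?_)
  rcases lt_or_ge i (rank K) with hi | hi
  · have hsum := congrArg (fun f : Module.End ℤ (UnitsModTor K) => f b) hqT
    simp only [aeval_eq_sum_range' hqdeg, LinearMap.sum_apply, LinearMap.smul_apply,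
      LinearMap.zero_apply, ← Fin.sum_univ_eq_sum_range
      (fun i => q.coeff i • (T ^ i) b)] at hsum
    simpa using congrFun (hb _ hsum) ⟨i, hi⟩
  · rw [coeff_zero, coeff_eq_zero_of_natDegree_lt (hqdeg.trans_le hi)]

end Places

lemma exists_torsion_eigen_eq_pow (h3 : 3 ≤ p) {ζ : K} (hζ : IsPrimitiveRoot ζ p) {t : (𝓞 K)ˣ}
    (ht : t ∈ torsion K) (he : IsEigenUnit p t) : ∃ y : (𝓞 K)ˣ, t = y ^ p := by
  have hp : p.Prime := Fact.out
  have hodd : Odd p := hp.odd_of_ne_two (by omega)
  have fin : ∀ z : (𝓞 K)ˣ, z ∈ torsion K → IsOfFinOrder ((z : 𝓞 K) : K) := fun z hz =>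
    ((algebraMap (𝓞 K) K).toMonoidHom.comp (Units.coeHom (𝓞 K))).isOfFinOrder
      ((CommGroup.mem_torsion _).mp hz)
  let z : (𝓞 K)ˣ := ((zint_spec hζ).isUnit hp.ne_zero).unit
  have hz : ((z : 𝓞 K) : K) = ζ := rfl
  have hzfin : z ∈ torsion K := (CommGroup.mem_torsion _).mpr
    (isOfFinOrder_iff_pow_eq_one.mpr ⟨p, hp.pos, Units.ext (zint_spec hζ).pow_eq_one⟩)
  have hcases : ∀ x : (𝓞 K)ˣ, x ∈ torsion K → ∃ r : ℕ, x = z ^ r ∨ x = -z ^ r := fun x hx => by
    obtain ⟨r, -, hr | hr⟩ := hζ.exists_pow_or_neg_mul_pow_of_isOfFinOrder hodd (fin x hx)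
    · exact ⟨r, Or.inl (Units.ext (RingOfIntegers.ext (by simpa [hz] using hr)))⟩
    · exact ⟨r, Or.inr (Units.ext (RingOfIntegers.ext (by simpa [hz] using hr)))⟩
  have hneg : (-1 : (𝓞 K)ˣ) = (-1) ^ p := hodd.neg_one_pow.symm
  have hnot : ∀ n : ℕ, (∃ y : (𝓞 K)ˣ, z ^ n = y ^ p) → p ∣ n := by
    rintro n ⟨y, hy⟩
    have hyt : y ∈ torsion K := (CommGroup.mem_torsion _).mpr
      (((hy ▸ ((CommGroup.mem_torsion _).mp hzfin).pow : IsOfFinOrder (y ^ p))).of_pow hp.ne_zero)
    obtain ⟨r, rfl | rfl⟩ := hcases y hyt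
    · rw [← pow_mul, mul_comm, pow_mul, show z ^ p = 1 from Units.ext (zint_spec hζ).pow_eq_one,
        one_pow] at hy
      exact ((zint_spec hζ).pow_eq_one_iff_dvd n).mp (congrArg Units.val hy)
    · rw [neg_pow, ← pow_mul, mul_comm r, pow_mul,
        show z ^ p = 1 from Units.ext (zint_spec hζ).pow_eq_one, one_pow, mul_one,
        hodd.neg_one_pow] at hy
      have h2 : ((z : 𝓞 K) : K) ^ n = -1 := by
        simpa using congrArg (fun u : (𝓞 K)ˣ => ((u : 𝓞 K) : K)) hy
      have h3' := congrArg (· ^ p) h2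
      simp only [← pow_mul, mul_comm n, hodd.neg_one_pow] at h3'
      rw [pow_mul, hz, hζ.pow_eq_one, one_pow] at h3'
      exact absurd h3' (by norm_num)
  have hgal : ∀ a : (ZMod p)ˣ, galUnits p K a z = z ^ (a : ZMod p).val := fun a =>
    Units.ext (galInt_zint hζ a)
  obtain ⟨r, hr⟩ := hcases t ht
  -- remove the sign
  have hzr : IsEigenUnit p (z ^ r) := by
    rcases hr with rfl | rfl
    · exact he
    · intro a
      obtain ⟨y, hy⟩ := he a
      obtain ⟨s, hs⟩ : ∃ s : (𝓞 K)ˣ, s = (-1) ^ wexp p a * (-1) := ⟨_, rfl⟩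
      have hss : s ^ p = s := by
        rw [hs, mul_pow, ← pow_mul, mul_comm (wexp p a), pow_mul, ← hneg]
      refine ⟨s * y, ?_⟩
      have hgneg : galUnits p K a (-1) = -1 := Units.ext (by simp [galUnits])
      rw [← neg_one_mul (z ^ r), map_mul, hgneg, mul_pow] at hy
      have hy' := congrArg ((-1 : (𝓞 K)ˣ) * ·) hy
      simp only [← mul_assoc, neg_mul_neg, one_mul] at hy'
      rw [hy', mul_pow s, hss, hs]
      simp only [mul_comm, mul_assoc]
  obtain ⟨g, hg⟩ := IsCyclic.exists_generator (α := (ZMod p)ˣ)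
  obtain ⟨y, hy⟩ := hzr g
  rw [map_pow, hgal, ← pow_mul, ← pow_mul] at hy
  have hdiv : ∃ y' : (𝓞 K)ˣ, z ^ ((g : ZMod p).val * r + (p - 1) * (r * wexp p g)) = y' ^ p :=
    ⟨y * z ^ (r * wexp p g), by
      rw [pow_add, hy, mul_pow, ← pow_mul, mul_comm _ p,
        show p * (r * wexp p g) = r * wexp p g + (p - 1) * (r * wexp p g) by
          generalize r * wexp p g = t
          rw [Nat.sub_mul, one_mul, Nat.add_sub_cancel' (Nat.le_mul_of_pos_left _ hp.pos)], pow_add]
      simp only [mul_comm, mul_assoc, mul_left_comm]⟩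
  have h0 := hnot _ hdiv
  rw [← ZMod.natCast_eq_zero_iff, Nat.cast_add, Nat.cast_mul, Nat.cast_mul,
    Nat.cast_sub hp.one_le, ZMod.natCast_self, Nat.cast_mul, wexp_cast, ZMod.natCast_val,
    ZMod.cast_id, Nat.cast_one,
    show (g : ZMod p) * r + (0 - 1) * (r * (g : ZMod p) ^ 2) = (g : ZMod p) * (r * (1 - g)) by ring,
    mul_eq_zero, mul_eq_zero] at h0
  have hg1 : (1 : ZMod p) - g ≠ 0 := by
    rw [sub_ne_zero]
    intro h
    have h1 : g = 1 := Units.ext h.symm
    have hcard := orderOf_eq_card_of_forall_mem_zpowers hg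
    rw [h1, orderOf_one, Nat.card_eq_fintype_card, ZMod.card_units] at hcard
    omega
  rcases h0 with h0 | h0 | h0
  · exact absurd h0 g.ne_zero
  · obtain ⟨q, rfl⟩ := (ZMod.natCast_eq_zero_iff _ _).mp h0
    rcases hr with rfl | rfl
    · exact ⟨z ^ q, by rw [← pow_mul, mul_comm]⟩
    · exact ⟨-z ^ q, by rw [neg_pow (z ^ q), hodd.neg_one_pow, neg_one_mul, ← pow_mul, mul_comm]⟩
  · exact absurd h0 hg1

/-- Every eigen unit is a power of `η` up to `p`-th powers. -/
theorem exists_eq_etaUnit_pow_mul (h5 : 5 ≤ p) {ζ : K} (hζ : IsPrimitiveRoot ζ p) (h3 : 3 ≤ p)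
    {x : (𝓞 K)ˣ} (hx : IsEigenUnit p x) :
    ∃ (k : ℕ) (y : (𝓞 K)ˣ), x = etaUnit hζ h3 ^ k * y ^ p := by
  have hp : p.Prime := Fact.out
  obtain ⟨g, hg⟩ := IsCyclic.exists_generator (α := (ZMod p)ˣ)
  set m := Fintype.card (InfinitePlace K) with hm
  have hr : rank K + 1 = m := by
    rw [rank]; have := Fintype.card_pos (α := InfinitePlace K); omega
  have hm2 : 2 * m = p - 1 := by
    have : IsTotallyComplex K := isTotallyComplex_cyclotomic h3
    have h := IsTotallyComplex.finrank K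
    rw [IsCyclotomicExtension.finrank K (cyclotomic.irreducible_rat hp.pos),
      Nat.totient_prime hp] at h
    rw [hm, card_eq_nrRealPlaces_add_nrComplexPlaces, IsTotallyComplex.nrRealPlaces_eq_zero K,
      zero_add, h]
  set c : ZMod p := (g : ZMod p) ^ 2 with hc
  have hord := orderOf_eq_card_of_forall_mem_zpowers hg
  rw [Nat.card_eq_fintype_card, ZMod.card_units] at hord
  have hcm : c ^ m = 1 := by
    rw [hc, ← pow_mul, hm2, ← hord, ← Units.val_pow_eq_pow_val, pow_orderOf_eq_one, Units.val_one]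
  have hc1 : c ≠ 1 := by
    intro h
    have h2 : g ^ 2 = 1 := Units.ext (by simpa [hc] using h)
    have := Nat.le_of_dvd two_pos (orderOf_dvd_of_pow_eq_one h2)
    omega
  let B := Units.basisModTorsion K
  let M : Matrix (Fin (rank K)) (Fin (rank K)) (ZMod p) :=
    (LinearMap.toMatrix B B (galModTor p K g)).map (Int.castRingHom (ZMod p))
  let vec : (𝓞 K)ˣ → Fin (rank K) → ZMod p := fun u i => (B.repr (toModTor u) i : ZMod p)
  have hvec_mul : ∀ u u', vec (u * u') = vec u + vec u' := fun u u' => by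
    funext i
    show ((B.repr (toModTor u + toModTor u') i : ℤ) : ZMod p) = _
    simp [vec]
  have hvec_pow : ∀ (u) (n : ℕ), vec (u ^ n) = (n : ZMod p) • vec u := fun u n => by
    funext i
    show ((B.repr (n • toModTor u) i : ℤ) : ZMod p) = _
    simp [vec]
  have hMvec : ∀ u, M.mulVec (vec u) = vec (galUnits p K g u) := fun u => by
    funext i
    show _ = ((B.repr (galModTor p K g (toModTor u)) i : ℤ) : ZMod p)
    rw [← LinearMap.toMatrix_mulVec_repr B B (galModTor p K g) (toModTor u)]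
    exact ((RingHom.map_mulVec (Int.castRingHom (ZMod p)) _ _ i)).symm
  have hker : ∀ u, IsEigenUnit p u → vec u ∈ Module.End.eigenspace (Matrix.toLin' M) c := fun u hu => by
    obtain ⟨y, hy⟩ := hu g
    rw [Module.End.mem_eigenspace_iff, Matrix.toLin'_apply, hMvec, hy, hvec_mul, hvec_pow,
      hvec_pow, ZMod.natCast_self, zero_smul, add_zero, wexp_cast]
  have hdim : Module.finrank (ZMod p) (Module.End.eigenspace (Matrix.toLin' M) c) ≤ 1 := by
    refine (LinearMap.finrank_eigenspace_le _ _).trans ?_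
    rw [Matrix.charpoly_toLin', Matrix.charpoly_map, LinearMap.charpoly_toMatrix,
      charpoly_galModTor hg h3, Polynomial.map_sum]
    simp only [Polynomial.map_pow, map_X]
    have hgeom := geom_sum_mul (X : (ZMod p)[X]) m
    have hmne : (m : ZMod p) ≠ 0 := by
      rw [Ne, ZMod.natCast_eq_zero_iff]
      exact fun h => absurd (Nat.le_of_dvd (by omega) h) (by omega)
    have hsep : ((X : (ZMod p)[X]) ^ m - C 1).Separable := separable_X_pow_sub_C 1 hmne one_ne_zero
    rw [map_one, ← hgeom] at hsep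
    exact rootMultiplicity_le_one_of_separable (hsep.of_dvd (dvd_mul_right _ _)) _
  have htor : ∀ u, IsEigenUnit p u → vec u = 0 → ∃ y, u = y ^ p := by
    intro u hu h0
    have hdvd : ∀ i, (p : ℤ) ∣ B.repr (toModTor u) i := fun i =>
      (ZMod.intCast_zmod_eq_zero_iff_dvd _ _).mp (congrFun h0 i)
    choose q hq using hdvd
    obtain ⟨y, hy⟩ := toModTor_surjective (∑ i, q i • B i)
    have hu' : toModTor (u * (y ^ p)⁻¹) = 0 := by
      show toModTor u + -(p • toModTor y) = 0
      rw [hy, ← sub_eq_add_neg, sub_eq_zero, Finset.smul_sum]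
      conv_lhs => rw [← B.sum_repr (toModTor u)]
      refine sum_congr rfl fun i _ => ?_
      rw [hq, ← natCast_zsmul, smul_smul]
    have he : IsEigenUnit p (u * (y ^ p)⁻¹) := fun a => by
      obtain ⟨z, hz⟩ := hu a
      refine ⟨z * (galUnits p K a y)⁻¹ * y ^ wexp p a, ?_⟩
      rw [map_mul, map_inv, map_pow, hz, mul_pow, inv_pow, mul_pow, mul_pow, inv_pow,
        ← pow_mul, ← pow_mul, mul_comm p (wexp p a)]
      simp [mul_comm, mul_left_comm, mul_assoc]
    obtain ⟨z, hz⟩ := exists_torsion_eigen_eq_pow h3 hζ (toModTor_eq_zero.mp hu') he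
    exact ⟨z * y, by rw [mul_pow, ← hz, inv_mul_cancel_right]⟩
  have hη0 : vec (etaUnit hζ h3) ≠ 0 := fun h => by
    obtain ⟨y, hy⟩ := htor _ (etaUnit_isEigen hζ h3) h
    exact etaUnit_not_pow hζ h3 h5 ((y : 𝓞 K) : K) (by rw [hy]; simp)
  obtain ⟨v₀, hv₀⟩ := finrank_le_one_iff.mp hdim
  obtain ⟨a, ha⟩ := hv₀ ⟨_, hker _ (etaUnit_isEigen hζ h3)⟩
  obtain ⟨b, hb⟩ := hv₀ ⟨_, hker _ hx⟩
  have ha0 : a ≠ 0 := by
    rintro rfl
    rw [zero_smul] at ha
    exact hη0 (congrArg Subtype.val ha).symm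
  set k : ℕ := (b / a).val with hk
  have hkc : (k : ZMod p) = b / a := by rw [hk, ZMod.natCast_val, ZMod.cast_id]
  have hxk : vec x = (k : ZMod p) • vec (etaUnit hζ h3) := by
    have h1 := congrArg Subtype.val ha
    have h2 := congrArg Subtype.val hb
    rw [SetLike.val_smul] at h1 h2
    dsimp only at h1 h2
    rw [← h1, ← h2, hkc, smul_smul, div_mul_cancel₀ _ ha0]
  have he : IsEigenUnit p (x * (etaUnit hζ h3 ^ k)⁻¹) := fun a => by
    obtain ⟨z, hz⟩ := hx a
    obtain ⟨z', hz'⟩ := etaUnit_isEigen hζ h3 a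
    refine ⟨z * (z' ^ k)⁻¹, ?_⟩
    rw [map_mul, map_inv, map_pow, hz, hz', mul_pow (_ ^ wexp p a), mul_pow x, mul_pow z, inv_pow,
      inv_pow, ← pow_mul, ← pow_mul, ← pow_mul, ← pow_mul, mul_comm (wexp p a) k, mul_comm p k]
    simp [mul_comm, mul_left_comm, mul_assoc]
  have h0 : vec (x * (etaUnit hζ h3 ^ k)⁻¹) = 0 := by
    have := hvec_mul (x * (etaUnit hζ h3 ^ k)⁻¹) (etaUnit hζ h3 ^ k)
    rw [inv_mul_cancel_right, hvec_pow, hxk, right_eq_add] at this
    exact this
  obtain ⟨y, hy⟩ := htor _ he h0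
  exact ⟨k, y, by rw [← hy, mul_comm, inv_mul_cancel_right]⟩

end FLTAgent.Ext
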