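import Fermat.Agent.Ext.LocalSplit
import Fermat.Agent.Ext.UnitEigen
import Fermat.Prelude.Def_ExtCitation_KummerBridge
import Mathlib.LinearAlgebra.LinearIndependent.Lemmas

/-!
# S14: the Kummer generator of a cocycle
-/

set_option autoImplicit false
set_option maxSynthPendingDepth 3
set_option synthInstance.maxHeartbeats 200000

noncomputable section

namespace FLTAgent.Ext

open NumberField FLTAgent.Common ExtCitation
open scoped Pointwise Classical

variable {p : ℕ} [Fact p.Prime]

/-- The splitting data of an admissible extension, as a cocycle. -/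
structure AdmCocycle (p : ℕ) [Fact p.Prime] where
  /-- the cocycle -/
  toFun : GalQ → ZMod p
  map_mul : ∀ σ τ, toFun (σ * τ) = toFun σ * (cycloChar p τ : ZMod p) + toFun τ
  open_ker : ∃ U : Subgroup GalQ, IsOpen (U : Set GalQ) ∧ ∀ σ ∈ U, toFun σ = 0
  unramified : ∀ l : ℕ, l.Prime → l ≠ p → ∀ A : ValuationSubring QBar, A.LiesOverPrime l →
    ∀ σ ∈ A.inertiaSubgroupIn ℚ, cycloChar p σ = 1 ∧ toFun σ = 0
  split : ∀ A : ValuationSubring QBar, A.LiesOverPrime p →
    ∀ σ ∈ A.decompositionSubgroup ℚ, cycloChar p σ = 1 → toFun σ = 0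

lemma cycloChar_spec (σ : GalQ) {z : QBar} (hz : z ^ p = 1) :
    σ z = z ^ (cycloChar p σ : ZMod p).val :=
  haveI : NeZero p := ⟨(Fact.out : p.Prime).ne_zero⟩
  modularCyclotomicCharacter.spec QBar (card_rootsOfUnity_eq_self p) σ.toRingEquiv
    (rootsOfUnity.mkOfPowEq z hz).2

variable (p) in
/-- `ℚ(ζ_p)` inside `ℚ̄`. -/
def cycloField : IntermediateField ℚ QBar :=
  haveI : NeZero p := ⟨(Fact.out : p.Prime).ne_zero⟩
  IntermediateField.adjoin ℚ {(HasEnoughRootsOfUnity.exists_primitiveRoot QBar p).choose}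

variable (p) in
/-- The generator of `cycloField`. -/
def cycloRoot : cycloField p :=
  haveI : NeZero p := ⟨(Fact.out : p.Prime).ne_zero⟩
  ⟨_, IntermediateField.mem_adjoin_simple_self ℚ _⟩

lemma cycloRoot_spec : IsPrimitiveRoot (cycloRoot p) p := by
  have : NeZero p := ⟨(Fact.out : p.Prime).ne_zero⟩
  exact IsPrimitiveRoot.coe_submonoidClass_iff.mp
    (HasEnoughRootsOfUnity.exists_primitiveRoot QBar p).choose_spec

instance : IsCyclotomicExtension {p} ℚ (cycloField p) :=
  haveI : NeZero p := ⟨(Fact.out : p.Prime).ne_zero⟩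
  haveI := isAlgebraic_qbar
  (HasEnoughRootsOfUnity.exists_primitiveRoot QBar p).choose_spec.intermediateField_adjoin_isCyclotomicExtension ℚ

instance : NumberField (cycloField p) :=
  haveI : NeZero p := ⟨(Fact.out : p.Prime).ne_zero⟩
  IsCyclotomicExtension.numberField {p} ℚ _

lemma mem_cycloField_iff (σ : GalQ) : (∀ x ∈ cycloField p, σ x = x) ↔ cycloChar p σ = 1 := by
  have hp : p.Prime := Fact.out
  have : NeZero p := ⟨hp.ne_zero⟩
  have : Fact (1 < p) := ⟨hp.one_lt⟩
  set z := (HasEnoughRootsOfUnity.exists_primitiveRoot QBar p).choose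
  have hz : IsPrimitiveRoot z p := (HasEnoughRootsOfUnity.exists_primitiveRoot QBar p).choose_spec
  constructor
  · intro h
    have h1 := cycloChar_spec σ hz.pow_eq_one
    rw [h z (IntermediateField.mem_adjoin_simple_self ℚ z)] at h1
    refine Units.ext (ZMod.val_injective p (hz.pow_inj (ZMod.val_lt _) (ZMod.val_lt _) ?_))
    rw [← h1, Units.val_one, ZMod.val_one, pow_one]
  · intro h
    have hle : cycloField p ≤ IntermediateField.fixedField (Subgroup.zpowers σ) := by
      refine IntermediateField.adjoin_simple_le_iff.mpr ?_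
      rw [IntermediateField.mem_fixedField_iff]
      intro τ hτ
      obtain ⟨n, rfl⟩ := hτ
      refine (MulAction.mem_stabilizer_iff (G := GalQ)).mp
        (Subgroup.zpow_mem (MulAction.stabilizer GalQ z) (MulAction.mem_stabilizer_iff.mpr ?_) n)
      show σ z = z
      rw [cycloChar_spec σ hz.pow_eq_one, h, Units.val_one, ZMod.val_one, pow_one]
    exact fun x hx => (IntermediateField.mem_fixedField_iff _ _).mp (hle hx) σ (Subgroup.mem_zpowers σ)

/-- `cycloChar` computes the restriction to `ℚ(ζ_p)`. -/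
lemma apply_eq_gal (σ : GalQ) (x : cycloField p) :
    σ (x : QBar) = (gal p (cycloField p) (cycloChar p σ) x : QBar) := by
  have : NeZero p := ⟨(Fact.out : p.Prime).ne_zero⟩
  have h := cycloRoot_spec (p := p)
  have e : (σ : QBar →ₐ[ℚ] QBar).comp (cycloField p).val =
      (cycloField p).val.comp (gal p (cycloField p) (cycloChar p σ) : cycloField p →ₐ[ℚ] cycloField p) := by
    refine (h.powerBasis ℚ).algHom_ext ?_
    rw [h.powerBasis_gen ℚ]
    show σ (cycloRoot p : QBar) = (gal p (cycloField p) (cycloChar p σ) (cycloRoot p) : QBar)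
    rw [gal_apply_of_pow_eq_one _ h.pow_eq_one, cycloChar_spec σ
      (show ((cycloRoot p : cycloField p) : QBar) ^ p = 1 from congrArg Subtype.val h.pow_eq_one)]
    rfl
  exact DFunLike.congr_fun e x

lemma exists_cycloChar_eq (a : (ZMod p)ˣ) : ∃ σ : GalQ, cycloChar p σ = a := by
  have := isGalois_qbar
  have : NeZero p := ⟨(Fact.out : p.Prime).ne_zero⟩
  have : IsGalois ℚ (cycloField p) := IsCyclotomicExtension.isGalois {p} ℚ _
  obtain ⟨σ, hσ⟩ := AlgEquiv.restrictNormalHom_surjective (F := ℚ) (E := QBar)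
    (K₁ := cycloField p) (gal p (cycloField p) a)
  refine ⟨σ, (gal p (cycloField p)).injective (AlgEquiv.ext fun x => Subtype.ext ?_)⟩
  rw [← apply_eq_gal, ← hσ]
  exact (AlgEquiv.restrictNormal_commutes σ (cycloField p) x).symm

namespace AdmCocycle

variable (c : AdmCocycle p)

lemma map_one : c.toFun 1 = 0 := by
  have := c.map_mul 1 1
  rw [mul_one, _root_.map_one, Units.val_one, mul_one] at this
  simpa using this

lemma map_mul_of_mem {σ τ : GalQ} (hτ : cycloChar p τ = 1) :
    c.toFun (σ * τ) = c.toFun σ + c.toFun τ := by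
  rw [c.map_mul, hτ, Units.val_one, mul_one]

lemma map_pow {σ : GalQ} (hσ : cycloChar p σ = 1) (n : ℕ) :
    c.toFun (σ ^ n) = n * c.toFun σ := by
  induction n with
  | zero => simp [map_one]
  | succ n ih => rw [pow_succ, c.map_mul_of_mem hσ, ih, Nat.cast_succ, add_mul, one_mul]

lemma map_conj {σ : GalQ} (hσ : cycloChar p σ = 1) (d : GalQ) :
    c.toFun (d⁻¹ * σ * d) = c.toFun σ * (cycloChar p d : ZMod p) := by
  have h0 : c.toFun d⁻¹ * (cycloChar p d : ZMod p) + c.toFun d = 0 := by
    rw [← c.map_mul, inv_mul_cancel, map_one]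
  rw [c.map_mul, c.map_mul_of_mem hσ]
  linear_combination h0

/-- A Kummer generator: an integral `α ≠ 0` with `α ^ p ∈ ℚ(ζ_p)` and `σ α = ζ ^ c(σ) α`. -/
theorem exists_kummer {s : GalQ} (hs : cycloChar p s = 1) (hcs : c.toFun s = 1) :
    ∃ α : QBar, α ≠ 0 ∧ IsIntegral ℤ α ∧ α ^ p ∈ cycloField p ∧ s α ≠ α ∧
      ∀ σ : GalQ, cycloChar p σ = 1 →
        σ α = (cycloRoot p : QBar) ^ (c.toFun σ).val * α := by
  have hp : p.Prime := Fact.out
  have : NeZero p := ⟨hp.ne_zero⟩
  have := isGalois_qbar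
  set K := cycloField p
  set z : QBar := (cycloRoot p : QBar) with hz
  have hzp : IsPrimitiveRoot z p := cycloRoot_spec.map_of_injective (f := K.val) Subtype.val_injective
  have hfixz : ∀ σ : GalQ, cycloChar p σ = 1 → σ z = z := fun σ hσ =>
    (mem_cycloField_iff σ).mpr hσ z (cycloRoot p).2
  -- the subgroup cutting out the Kummer extension
  let H : Subgroup GalQ :=
    { carrier := {σ | cycloChar p σ = 1 ∧ c.toFun σ = 0}
      one_mem' := ⟨_root_.map_one _, c.map_one⟩
      mul_mem' := fun {a b} ha hb => ⟨by rw [_root_.map_mul, ha.1, hb.1, one_mul],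
        by rw [c.map_mul_of_mem hb.1, ha.2, hb.2, add_zero]⟩
      inv_mem' := fun {a} ha => by
        have h1 : cycloChar p a⁻¹ = 1 := by rw [map_inv, ha.1, inv_one]
        refine ⟨h1, ?_⟩
        have := c.map_mul_of_mem (σ := a) h1
        rw [mul_inv_cancel, c.map_one, ha.2, zero_add] at this
        exact this.symm }
  obtain ⟨U, hU, hUc⟩ := c.open_ker
  have hopen : IsOpen (H : Set GalQ) := by
    refine Subgroup.isOpen_mono (H₁ := U ⊓ K.fixingSubgroup) ?_ ?_
    · intro σ hσ
      exact ⟨(mem_cycloField_iff σ).mp ((IntermediateField.mem_fixingSubgroup_iff K σ).mp hσ.2),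
        hUc σ hσ.1⟩
    · rw [Subgroup.coe_inf]
      exact hU.inter K.fixingSubgroup_isOpen
  set L := IntermediateField.fixedField H with hL
  have hLfix : L.fixingSubgroup = H :=
    InfiniteGalois.fixingSubgroup_fixedField
      (⟨H, Subgroup.isClosed_of_isOpen H hopen⟩ : ClosedSubgroup GalQ)
  -- Dedekind independence of the powers of `s`
  let φ : Fin p → (L →* QBar) := fun i =>
    ((((s ^ (i : ℕ)) : GalQ) : QBar →ₐ[ℚ] QBar).comp L.val).toRingHom.toMonoidHom
  have hφ : Function.Injective φ := by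
    have key : ∀ i j : Fin p, (i : ℕ) ≤ j → φ i = φ j → i = j := by
      intro i j hij h
      have hmem : s ^ ((j : ℕ) - i) ∈ L.fixingSubgroup := by
        rw [IntermediateField.mem_fixingSubgroup_iff]
        intro x hx
        have h1 := DFunLike.congr_fun h ⟨x, hx⟩
        change (s ^ (i : ℕ)) x = (s ^ (j : ℕ)) x at h1
        refine (s ^ (i : ℕ)).injective ?_
        rw [← AlgEquiv.mul_apply, ← pow_add, Nat.add_sub_cancel' hij, h1]
      rw [hLfix] at hmem
      have h2 := hmem.2
      rw [c.map_pow hs, hcs, mul_one, ZMod.natCast_eq_zero_iff] at h2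
      have := Nat.eq_zero_of_dvd_of_lt h2 (by omega)
      exact Fin.ext (by omega)
    intro i j h
    rcases le_total (i : ℕ) j with hij | hij
    · exact key i j hij h
    · exact (key j i hij h.symm).symm
  obtain ⟨x, hx⟩ : ∃ x : L, ∑ i : Fin p, z⁻¹ ^ (i : ℕ) * φ i x ≠ 0 := by
    by_contra hcon
    push Not at hcon
    have hind := Fintype.linearIndependent_iff.mp
      ((linearIndependent_monoidHom L QBar).comp φ hφ) (fun i => z⁻¹ ^ (i : ℕ)) ?_ ⟨0, hp.pos⟩
    · simp at hind
    · funext x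
      rw [Finset.sum_apply, Pi.zero_apply]
      exact hcon x
  set β : QBar := ∑ i : Fin p, z⁻¹ ^ (i : ℕ) * φ i x with hβ
  set f : ℕ → QBar := fun i => z⁻¹ ^ i * (s ^ i) (x : QBar) with hf
  have hβf : β = ∑ i ∈ Finset.range p, f i := by
    rw [hβ, ← Fin.sum_univ_eq_sum_range f]
    rfl
  have hconjmem : ∀ {h : GalQ}, h ∈ H → ∀ i : ℕ, (s ^ i)⁻¹ * h * s ^ i ∈ H := fun {h} hh i => by
    have hsi : cycloChar p (s ^ i) = 1 := by rw [_root_.map_pow, hs, one_pow]
    exact ⟨by rw [_root_.map_mul, _root_.map_mul, map_inv, hsi, hh.1, inv_one, one_mul, one_mul],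
      by rw [c.map_conj hh.1, hh.2, zero_mul]⟩
  have hfixx : ∀ {h : GalQ}, h ∈ H → h (x : QBar) = x := fun {h} hh =>
    (IntermediateField.mem_fixedField_iff _ _).mp x.2 h hh
  have hHβ : ∀ h ∈ H, h β = β := by
    intro h hh
    rw [hβf, map_sum]
    refine Finset.sum_congr rfl fun i _ => ?_
    rw [hf, _root_.map_mul, _root_.map_pow, map_inv₀, hfixz h hh.1]
    congr 1
    conv_rhs => rw [← hfixx (hconjmem hh i), ← AlgEquiv.mul_apply, ← mul_assoc, mul_inv_cancel_left,
      AlgEquiv.mul_apply]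
  have hfp : f p = f 0 := by
    simp only [hf, inv_pow, hzp.pow_eq_one, inv_one, one_mul, pow_zero]
    exact hfixx ⟨by rw [_root_.map_pow, hs, one_pow],
      by rw [c.map_pow hs, ZMod.natCast_self, zero_mul]⟩
  have hz0 : z ≠ 0 := hzp.ne_zero hp.ne_zero
  have hsβ : s β = z * β := by
    have h2 : ∑ i ∈ Finset.range p, f (i + 1) = ∑ i ∈ Finset.range p, f i := by
      have h1 := Finset.sum_range_succ' f p
      rw [Finset.sum_range_succ, hfp] at h1
      exact (add_right_cancel h1).symm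
    rw [hβf, map_sum]
    conv_rhs => rw [← h2, Finset.mul_sum]
    refine Finset.sum_congr rfl fun i _ => ?_
    rw [hf, _root_.map_mul, _root_.map_pow, map_inv₀, hfixz s hs]
    show z⁻¹ ^ i * s ((s ^ i) (x : QBar)) = z * (z⁻¹ ^ (i + 1) * (s ^ (i + 1)) (x : QBar))
    rw [← AlgEquiv.mul_apply, ← pow_succ', pow_succ' z⁻¹, ← mul_assoc, ← mul_assoc,
      mul_inv_cancel₀ hz0, one_mul]
  have hspow : ∀ j : ℕ, (s ^ j) β = z ^ j * β := by
    intro j
    induction j with
    | zero => simp
    | succ j ih =>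
      rw [pow_succ', AlgEquiv.mul_apply, ih, _root_.map_mul, _root_.map_pow, hfixz s hs, hsβ,
        ← mul_assoc, ← pow_succ]
  have hact : ∀ σ : GalQ, cycloChar p σ = 1 → σ β = z ^ (c.toFun σ).val * β := by
    intro σ hσ
    set j := (c.toFun σ).val
    have hsj : cycloChar p (s ^ j) = 1 := by rw [_root_.map_pow, hs, one_pow]
    have hmem : (s ^ j)⁻¹ * σ ∈ H := by
      refine ⟨by rw [_root_.map_mul, map_inv, hsj, hσ, inv_one, one_mul], ?_⟩
      have h1 := c.map_mul_of_mem (σ := s ^ j) (τ := (s ^ j)⁻¹ * σ)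
        (by rw [_root_.map_mul, map_inv, hsj, hσ, inv_one, one_mul])
      rw [mul_inv_cancel_left, c.map_pow hs, hcs, mul_one, ZMod.natCast_val, ZMod.cast_id] at h1
      exact left_eq_add.mp h1
    have h2 := hHβ _ hmem
    rw [AlgEquiv.mul_apply] at h2
    have h3 := congrArg (s ^ j) h2
    rw [← AlgEquiv.mul_apply, mul_inv_cancel, AlgEquiv.one_apply, hspow] at h3
    exact h3
  -- clear denominators
  have halg : IsAlgebraic ℤ β := (IsFractionRing.isAlgebraic_iff ℤ ℚ QBar).mpr
    (Algebra.IsAlgebraic.isAlgebraic β)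
  obtain ⟨m, hm0, hm⟩ := halg.exists_integral_multiple
  have hz1 : z ≠ 1 := hzp.ne_one hp.one_lt
  refine ⟨(m : QBar) * β, mul_ne_zero (by exact_mod_cast hm0) hx, by
    simpa [zsmul_eq_mul] using hm, ?_, ?_, fun σ hσ => ?_⟩
  · show _ ∈ K
    rw [← InfiniteGalois.fixedField_fixingSubgroup K, IntermediateField.mem_fixedField_iff]
    intro σ hσ
    have hσ' := (mem_cycloField_iff σ).mp ((IntermediateField.mem_fixingSubgroup_iff K σ).mp hσ)
    rw [_root_.map_pow, _root_.map_mul, map_intCast, hact σ hσ', mul_pow, mul_pow, mul_pow,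
      ← pow_mul, mul_comm _ p, pow_mul, hzp.pow_eq_one, one_pow, one_mul]
  · rw [_root_.map_mul, map_intCast, hsβ, ← mul_assoc, mul_comm (m : QBar) z, mul_assoc]
    exact fun h => hz1 ((mul_eq_right₀ (mul_ne_zero (by exact_mod_cast hm0) hx)).mp h)
  · rw [_root_.map_mul, map_intCast, hact σ hσ]
    ring

end AdmCocycle

end FLTAgent.Ext
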