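import Fermat.Agent.Ext.ClassZeta
import Mathlib.Analysis.Complex.Exponential
import Mathlib.GroupTheory.FiniteAbelian.Duality

/-!
Area EXT, analytic parcel: for a non-trivial character of the class group the Euler product is
bounded near `s = 1`, which bounds the prime sum of the primes on which the character is trivial.
-/

set_option autoImplicit false
set_option maxHeartbeats 400000

noncomputable section

open NumberField Ideal Filter Topology Asymptotics
open scoped nonZeroDivisors Classical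

namespace FLTAgent.Ext

open Chebotarev (PrimeIdeal normRpow zetaReal suppSet primeSum eulerLog)

variable {K : Type*} [Field K] [NumberField K] (ψ : ClassGroup (𝓞 K) →* ℂˣ)

/-- the character as a function of integral ideals -/
def chiFun (I : Ideal (𝓞 K)) : ℂ :=
  if h : I ∈ (Ideal (𝓞 K))⁰ then (ψ (ClassGroup.mk0 ⟨I, h⟩) : ℂ) else 0

theorem chiFun_coe (I : (Ideal (𝓞 K))⁰) : chiFun ψ (I : Ideal (𝓞 K)) = ψ (ClassGroup.mk0 I) := by
  rw [chiFun, dif_pos I.2]

theorem chiFun_one : chiFun ψ 1 = 1 := by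
  have h := chiFun_coe ψ 1
  simpa using h

theorem chiFun_mul (I J : Ideal (𝓞 K)) : chiFun ψ (I * J) = chiFun ψ I * chiFun ψ J := by
  by_cases hI : I ∈ (Ideal (𝓞 K))⁰
  · by_cases hJ : J ∈ (Ideal (𝓞 K))⁰
    · rw [chiFun, chiFun, chiFun, dif_pos (mul_mem hI hJ), dif_pos hI, dif_pos hJ, ← Units.val_mul,
        ← map_mul, ← map_mul]
      rfl
    · rw [chiFun, chiFun, chiFun, dif_neg hJ, mul_zero, dif_neg]
      exact fun h => hJ (mul_mem_nonZeroDivisors.mp h).2
  · rw [chiFun, chiFun, dif_neg hI, zero_mul, dif_neg]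
    exact fun h => hI (mul_mem_nonZeroDivisors.mp h).1

theorem norm_psi (C : ClassGroup (𝓞 K)) : ‖(ψ C : ℂ)‖ = 1 :=
  (((Units.coeHom ℂ).comp ψ).isOfFinOrder (isOfFinOrder_of_finite C)).norm_eq_one

theorem norm_chiFun_le (I : Ideal (𝓞 K)) : ‖chiFun ψ I‖ ≤ 1 := by
  rw [chiFun]
  split
  · exact (norm_psi ψ _).le
  · simp

/-- the terms of the series -/
def lterm (s : ℝ) (I : Ideal (𝓞 K)) : ℂ := chiFun ψ I * (normRpow s I : ℂ)

theorem norm_lterm_le (s : ℝ) (I : Ideal (𝓞 K)) : ‖lterm ψ s I‖ ≤ normRpow s I := by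
  rw [lterm, norm_mul, Complex.norm_real, Real.norm_of_nonneg (Chebotarev.normRpow_nonneg s I)]
  exact mul_le_of_le_one_left (Chebotarev.normRpow_nonneg s I) (norm_chiFun_le ψ I)

theorem lterm_mul (s : ℝ) (I J : Ideal (𝓞 K)) :
    lterm ψ s (I * J) = lterm ψ s I * lterm ψ s J := by
  rw [lterm, lterm, lterm, chiFun_mul, Chebotarev.normRpow_mul, Complex.ofReal_mul]
  ring

theorem lterm_one (s : ℝ) : lterm ψ s (1 : Ideal (𝓞 K)) = 1 := by
  rw [lterm, chiFun_one, Chebotarev.normRpow_one, Complex.ofReal_one, one_mul]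

theorem lterm_pow (s : ℝ) (I : Ideal (𝓞 K)) (k : ℕ) : lterm ψ s (I ^ k) = lterm ψ s I ^ k := by
  induction k with
  | zero => rw [pow_zero, pow_zero, lterm_one]
  | succ k ih => rw [pow_succ, lterm_mul, ih, pow_succ]

theorem summable_lterm {s : ℝ} (hs : 1 < s) : Summable (lterm ψ s) :=
  Summable.of_norm_bounded (Chebotarev.summable_normRpow hs) (norm_lterm_le ψ s)

/-- the series of the character -/
def lfun (s : ℝ) : ℂ := ∑' I, lterm ψ s I

theorem lfun_eq_sum {s : ℝ} (hs : 1 < s) :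
    lfun ψ s = ∑ C : ClassGroup (𝓞 K), (ψ C : ℂ) * (classZeta C s : ℂ) := by
  have hsupp : Function.support (lterm ψ s) ⊆ ((Ideal (𝓞 K))⁰ : Set (Ideal (𝓞 K))) := fun I hI => by
    by_contra h
    exact hI (by rw [lterm, chiFun, dif_neg fun h' => h (SetLike.mem_coe.mpr h'), zero_mul])
  have hsum : Summable fun I : (Ideal (𝓞 K))⁰ => lterm ψ s I :=
    (summable_lterm ψ hs).comp_injective Subtype.val_injective
  let g : (Ideal (𝓞 K))⁰ → ℂ := fun I => lterm ψ s (I : Ideal (𝓞 K))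
  let e := Equiv.sigmaFiberEquiv fun I : (Ideal (𝓞 K))⁰ => ClassGroup.mk0 I
  have h0 : lfun ψ s = ∑' I, g I := (tsum_subtype_eq_of_support_subset hsupp).symm
  have h1 : Summable (g ∘ e) := e.summable_iff.mpr hsum
  rw [h0, ← e.tsum_eq g]
  refine (h1.tsum_sigma).trans ((tsum_fintype _).trans (Finset.sum_congr rfl fun C _ => ?_))
  rw [classZeta, Complex.ofReal_tsum, ← tsum_mul_left]
  refine tsum_congr fun I => ?_
  show lterm ψ s (I.1 : Ideal (𝓞 K)) = _
  rw [lterm, chiFun_coe, I.2]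

theorem lfun_isBigO (hψ : ψ ≠ 1) : (fun s => lfun ψ s) =O[𝓝[>] (1 : ℝ)] fun _ => (1 : ℝ) := by
  have hzero : ∑ C : ClassGroup (𝓞 K), (ψ C : ℂ) = 0 :=
    sum_hom_units_eq_zero ((Units.coeHom ℂ).comp ψ) fun h =>
      hψ (MonoidHom.ext fun C => Units.ext (DFunLike.congr_fun h C))
  have h : (fun s => ∑ C : ClassGroup (𝓞 K),
      (ψ C : ℂ) * ((classZeta C s - classZeta (1 : ClassGroup (𝓞 K)) s : ℝ) : ℂ))
      =O[𝓝[>] (1 : ℝ)] fun _ => (1 : ℝ) := by
    refine IsBigO.fun_sum fun C _ => ?_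
    have hC : (fun s => ((classZeta C s - classZeta (1 : ClassGroup (𝓞 K)) s : ℝ) : ℂ))
        =O[𝓝[>] (1 : ℝ)] fun _ => (1 : ℝ) :=
      Complex.isBigO_ofReal_left.mpr (classZeta_sub_isBigO C)
    exact hC.const_mul_left (ψ C : ℂ)
  refine h.congr' ?_ EventuallyEq.rfl
  filter_upwards [self_mem_nhdsWithin] with s (hs : 1 < s)
  simp only [lfun_eq_sum ψ hs, Complex.ofReal_sub, mul_sub, Finset.sum_sub_distrib, ← Finset.sum_mul,
    hzero, zero_mul, sub_zero]

theorem tsum_suppSet_lterm {s : ℝ} (hs : 1 < s) (T : Finset (Ideal (𝓞 K)))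
    (hT : ∀ P ∈ T, Prime P) :
    ∑' I : suppSet K T, lterm ψ s (I : Ideal (𝓞 K)) = ∏ P ∈ T, (1 - lterm ψ s P)⁻¹ := by
  induction T using Finset.induction with
  | empty =>
    have : suppSet K (∅ : Finset (Ideal (𝓞 K))) = {1} := by
      ext I
      simp only [suppSet, Set.mem_ofPred_eq, Set.mem_singleton_iff]
      constructor
      · rintro ⟨h0, h⟩
        by_contra h1
        obtain ⟨P, hP, hd⟩ := WfDvdMonoid.exists_irreducible_factor (mt isUnit_iff_eq_one.mp h1) h0
        exact absurd (h P (irreducible_iff_prime.mp hP) hd) (by simp)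
      · rintro rfl
        exact ⟨one_ne_zero, fun P hP hd => absurd (isUnit_of_dvd_one hd) hP.not_isUnit⟩
    rw [this, tsum_singleton (1 : Ideal (𝓞 K)) (lterm ψ s), Finset.prod_empty, lterm_one]
  | insert P T hPT ih =>
    have hP : Prime P := hT P (Finset.mem_insert_self P T)
    have hT' : ∀ Q ∈ T, Prime Q := fun Q hQ => hT Q (Finset.mem_insert_of_mem hQ)
    have hnd : ∀ J : suppSet K T, ¬ P ∣ (J : Ideal (𝓞 K)) :=
      fun J hd => hPT (J.2.2 P hP hd)
    let φ : ℕ × suppSet K T → suppSet K (insert P T) := fun kJ =>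
      ⟨P ^ kJ.1 * (kJ.2 : Ideal (𝓞 K)), mul_ne_zero (pow_ne_zero _ hP.ne_zero) kJ.2.2.1, by
        intro Q hQ hd
        rcases hQ.dvd_mul.mp hd with h | h
        · have : Q = P := associated_iff_eq.mp (hQ.associated_of_dvd hP (hQ.dvd_of_dvd_pow h))
          simp [this]
        · exact Finset.mem_insert_of_mem (kJ.2.2.2 Q hQ h)⟩
    have hφ : Function.Bijective φ := by
      constructor
      · rintro ⟨k, J⟩ ⟨l, J'⟩ h
        have h' : P ^ k * (J : Ideal (𝓞 K)) = P ^ l * (J' : Ideal (𝓞 K)) := congrArg Subtype.val h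
        have key : ∀ k l : ℕ, ∀ J J' : suppSet K T, k ≤ l →
            P ^ k * (J : Ideal (𝓞 K)) = P ^ l * (J' : Ideal (𝓞 K)) → k = l ∧ J = J' := by
          intro k l J J' hkl h
          obtain ⟨d, rfl⟩ := Nat.exists_eq_add_of_le hkl
          rw [pow_add, mul_assoc] at h
          have h'' := mul_left_cancel₀ (pow_ne_zero _ hP.ne_zero) h
          rcases d with _ | d
          · exact ⟨rfl, Subtype.ext (by simpa using h'')⟩
          · exact absurd ⟨P ^ d * (J' : Ideal (𝓞 K)), by rw [h'', pow_succ']; ring⟩ (hnd J)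
        rcases le_total k l with hkl | hkl
        · obtain ⟨rfl, rfl⟩ := key k l J J' hkl h'; rfl
        · obtain ⟨rfl, rfl⟩ := key l k J' J hkl h'.symm; rfl
      · rintro ⟨I, hI0, hI⟩
        obtain ⟨k, J, hJ, rfl⟩ := WfDvdMonoid.max_power_factor hI0 hP.irreducible
        refine ⟨(k, ⟨J, right_ne_zero_of_mul hI0, fun Q hQ hd => ?_⟩), rfl⟩
        rcases Finset.mem_insert.mp (hI Q hQ (dvd_mul_of_dvd_right hd _)) with rfl | h
        · exact absurd hd hJ
        · exact h
    rw [← (Equiv.ofBijective φ hφ).tsum_eq, Finset.prod_insert hPT, ← ih hT']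
    have hx1 : ‖lterm ψ s P‖ < 1 :=
      lt_of_le_of_lt (norm_lterm_le ψ s P)
        (lt_of_le_of_lt (Chebotarev.normRpow_prime_le_half hP hs.le) (by norm_num))
    have e : ∀ kJ : ℕ × suppSet K T, lterm ψ s ((Equiv.ofBijective φ hφ kJ : suppSet K (insert P T))
        : Ideal (𝓞 K)) = lterm ψ s P ^ kJ.1 * lterm ψ s (kJ.2 : Ideal (𝓞 K)) := fun kJ => by
      simp [φ, lterm_mul, lterm_pow]
    rw [tsum_congr e, ← tsum_mul_tsum_of_summable_norm (f := fun k : ℕ => lterm ψ s P ^ k)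
      (g := fun J : suppSet K T => lterm ψ s (J : Ideal (𝓞 K))),
      tsum_geometric_of_norm_lt_one hx1]
    · exact summable_norm_iff.mpr (summable_geometric_of_norm_lt_one hx1)
    · exact summable_norm_iff.mpr ((summable_lterm ψ hs).subtype _)

/-- the primes on which the character is not trivial -/
def badTerm (s : ℝ) (P : PrimeIdeal K) : ℝ :=
  if chiFun ψ P.1 = 1 then 0 else normRpow s P.1

theorem badTerm_nonneg (s : ℝ) (P : PrimeIdeal K) : 0 ≤ badTerm ψ s P := by
  rw [badTerm]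
  split
  · exact le_rfl
  · exact Chebotarev.normRpow_nonneg _ _

theorem badTerm_le (s : ℝ) (P : PrimeIdeal K) : badTerm ψ s P ≤ normRpow s P.1 := by
  rw [badTerm]
  split
  · exact Chebotarev.normRpow_nonneg _ _
  · exact le_rfl

theorem summable_badTerm {s : ℝ} (hs : 1 < s) : Summable (badTerm ψ s) :=
  Summable.of_nonneg_of_le (badTerm_nonneg ψ s) (badTerm_le ψ s) (Chebotarev.summable_primeSum hs)

/-- the prime sum of the bad primes -/
def badSum (s : ℝ) : ℝ := ∑' P, badTerm ψ s P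

theorem factor_bound {s : ℝ} (hs : 1 < s) (P : PrimeIdeal K) :
    Real.exp (normRpow s P.1 - 2 * badTerm ψ s P) ≤ ‖(1 - lterm ψ s P.1)⁻¹‖ := by
  have hx := Chebotarev.normRpow_nonneg s P.1
  have hx1 := Chebotarev.normRpow_prime_le_half P.2 hs.le
  rw [norm_inv]
  by_cases h : chiFun ψ P.1 = 1
  · rw [badTerm, if_pos h, lterm, h, one_mul, ← Complex.ofReal_one, ← Complex.ofReal_sub,
      Complex.norm_real, Real.norm_of_nonneg (by linarith), mul_zero, sub_zero,
      le_inv_comm₀ (Real.exp_pos _) (by linarith), ← Real.exp_neg]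
    linarith [Real.add_one_le_exp (-normRpow s P.1)]
  · have hle : ‖lterm ψ s P.1‖ ≤ normRpow s P.1 := norm_lterm_le ψ s P.1
    have hlow : 0 < ‖1 - lterm ψ s P.1‖ := by
      have := norm_sub_norm_le (1 : ℂ) (lterm ψ s P.1)
      rw [norm_one] at this
      linarith
    have hup : ‖1 - lterm ψ s P.1‖ ≤ Real.exp (normRpow s P.1) := by
      refine (norm_sub_le _ _).trans ?_
      rw [norm_one]
      linarith [Real.add_one_le_exp (normRpow s P.1)]
    rw [badTerm, if_neg h, show normRpow s P.1 - 2 * normRpow s P.1 = -normRpow s P.1 by ring,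
      Real.exp_neg]
    exact inv_anti₀ hlow hup

theorem exp_le_norm_lfun {s : ℝ} (hs : 1 < s) :
    Real.exp (primeSum K s - 2 * badSum ψ s) ≤ ‖lfun ψ s‖ := by
  have h1 : Tendsto (fun T : Finset (PrimeIdeal K) =>
      Real.exp (∑ P ∈ T, (normRpow s P.1 - 2 * badTerm ψ s P))) atTop
      (𝓝 (Real.exp (primeSum K s - 2 * badSum ψ s))) :=
    (Real.continuous_exp.tendsto _).comp
      ((Chebotarev.summable_primeSum hs).hasSum.sub ((summable_badTerm ψ hs).hasSum.mul_left 2))
  have h2 : Tendsto (fun T : Finset (PrimeIdeal K) =>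
      ‖lfun ψ s‖ + (zetaReal K s - Real.exp (∑ P ∈ T, eulerLog K s P))) atTop (𝓝 ‖lfun ψ s‖) := by
    have := ((Real.continuous_exp.tendsto _).comp
      (Chebotarev.summable_eulerLog (K := K) hs).hasSum)
    rw [Chebotarev.tsum_eulerLog hs, Real.exp_log
      (zero_lt_one.trans_le (Chebotarev.one_le_zetaReal hs))] at this
    have h3 : Tendsto (fun _ : Finset (PrimeIdeal K) => zetaReal K s) atTop (𝓝 (zetaReal K s)) :=
      tendsto_const_nhds
    simpa using (h3.sub this).const_add ‖lfun ψ s‖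
  refine le_of_tendsto_of_tendsto h1 h2 (Eventually.of_forall fun T' => ?_)
  set T := T'.map (Function.Embedding.subtype _) with hTdef
  have hT : ∀ P ∈ T, Prime P := fun P hP => by
    obtain ⟨Q, _, rfl⟩ := Finset.mem_map.mp hP
    exact Q.2
  simp only
  rw [Real.exp_sum]
  refine (Finset.prod_le_prod (fun P _ => (Real.exp_pos _).le) fun P _ => factor_bound ψ hs P).trans ?_
  rw [← norm_prod, Chebotarev.exp_sum_eulerLog hs T hT T' hTdef.symm,
    show ∏ P ∈ T', (1 - lterm ψ s P.1)⁻¹ = ∏ P ∈ T, (1 - lterm ψ s P)⁻¹ by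
      rw [hTdef, Finset.prod_map]; rfl,
    ← tsum_suppSet_lterm ψ hs T hT]
  have hz := (Chebotarev.summable_normRpow (K := K) hs).tsum_subtype_add_tsum_subtype_compl
    (suppSet K T)
  have hl := (summable_lterm ψ hs).tsum_subtype_add_tsum_subtype_compl (suppSet K T)
  have hc : ‖∑' I : ((suppSet K T)ᶜ : Set (Ideal (𝓞 K))), lterm ψ s (I : Ideal (𝓞 K))‖ ≤
      ∑' I : ((suppSet K T)ᶜ : Set (Ideal (𝓞 K))), normRpow s (I : Ideal (𝓞 K)) :=
    tsum_of_norm_bounded ((Chebotarev.summable_normRpow hs).subtype _).hasSum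
      fun I => norm_lterm_le ψ s _
  rw [zetaReal, ← hz, add_sub_cancel_left, eq_sub_of_add_eq hl]
  exact (norm_sub_le _ _).trans (add_le_add le_rfl hc)

/-- The bad primes of a non-trivial character have prime sum at least half of all primes. -/
theorem primeSum_le_badSum (hψ : ψ ≠ 1) :
    ∃ C : ℝ, ∀ᶠ s in 𝓝[>] (1 : ℝ), primeSum K s - 2 * badSum ψ s ≤ C := by
  obtain ⟨C, hC⟩ := (lfun_isBigO ψ hψ).bound
  refine ⟨C, ?_⟩
  filter_upwards [hC, self_mem_nhdsWithin] with s hs (hs1 : 1 < s)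
  rw [norm_one, mul_one] at hs
  have h1 := exp_le_norm_lfun ψ hs1
  have h2 := Real.add_one_le_exp (primeSum K s - 2 * badSum ψ s)
  linarith

end FLTAgent.Ext
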