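import Fermat.Agent.Ext.Places
import Fermat.Agent.Ext.AuxField

/-!
# S14: the local condition at `p`

If the decomposition groups over `p` fix a `p`-th root `α` of an element of `K = ℚ(ζ_p)`, the
prime `(ζ - 1)` splits completely in `K(α)`.
-/

set_option autoImplicit false
set_option maxSynthPendingDepth 3
set_option synthInstance.maxHeartbeats 200000

noncomputable section

namespace FLTAgent.Ext

open NumberField FLTAgent.Common Polynomial
open scoped Pointwise nonZeroDivisors Classical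

lemma mem_nonunits_inv_smul {A : ValuationSubring QBar} (τ : GalQ) (x : QBar) :
    x ∈ (τ⁻¹ • A).nonunits ↔ τ x ∈ A.nonunits := by
  rcases eq_or_ne x 0 with rfl | hx
  · simp
  have hmem : ∀ y : QBar, y ∈ τ⁻¹ • A ↔ τ y ∈ A := fun y => by
    rw [ValuationSubring.mem_pointwise_smul_iff_inv_smul_mem, inv_inv]; rfl
  have key : ∀ (B : ValuationSubring QBar) {y : QBar}, y ≠ 0 → (y ∈ B.nonunits ↔ y⁻¹ ∉ B) := by
    intro B y hy
    rw [ValuationSubring.mem_nonunits_iff, ← B.valuation_le_one_iff, map_inv₀,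
      inv_le_one₀ (zero_lt_iff.mpr ((_root_.map_ne_zero _).mpr hy)), not_le]
  rw [key _ hx, key _ ((_root_.map_ne_zero τ).mpr hx), hmem, map_inv₀]

section

variable {p : ℕ} [Fact p.Prime] (K : IntermediateField ℚ QBar) [NumberField K]
  [IsCyclotomicExtension {p} ℚ K] {ζ : K} (hζ : IsPrimitiveRoot ζ p)

/-- `α` is fixed by the elements over `K` of the decomposition groups above `p`. -/
def IsSplitAt (p : ℕ) (α : QBar) : Prop :=
  ∀ A : ValuationSubring QBar, A.LiesOverPrime p → ∀ σ ∈ A.decompositionSubgroup ℚ,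
    (∀ x ∈ K, σ x = x) → σ α = α

include hζ in
lemma absNorm_zint_sub_one : Ideal.absNorm (Ideal.span {zint hζ - 1}) = p := by
  have hp : p.Prime := Fact.out
  have : NeZero p := ⟨hp.ne_zero⟩
  have h := congrArg Ideal.absNorm (span_pi_pow (L := K) hp hζ)
  rw [map_pow, Ideal.absNorm_span_natCast, RingOfIntegers.rank,
    IsCyclotomicExtension.finrank (↥K) (cyclotomic.irreducible_rat hp.pos),
    Nat.totient_prime hp] at h
  exact Nat.pow_left_injective (by have := hp.two_le; omega) h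

include hζ in
theorem exists_split_prime (α : QBar) (hα : α ^ p ∈ K) (hfix : IsSplitAt K p α) :
    ∃ (M : IntermediateField K QBar) (_ : NumberField M) (Q : Ideal (𝓞 M)),
      α ∈ M ∧ Q.IsPrime ∧ Ideal.absNorm Q = p ∧
        algebraMap (𝓞 K) (𝓞 M) (zint hζ - 1) ∈ Q ∧
        algebraMap (𝓞 K) (𝓞 M) (zint hζ - 1) ∉ Q ^ 2 := by
  classical
  have hp : p.Prime := Fact.out
  have : NeZero p := ⟨hp.ne_zero⟩
  have := isGalois_qbar
  have hint : IsIntegral K α := Algebra.IsIntegral.isIntegral α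
  set M : IntermediateField K QBar := IntermediateField.adjoin K {α} with hM
  have hαM : α ∈ M := IntermediateField.mem_adjoin_simple_self K α
  have : FiniteDimensional K M := IntermediateField.adjoin.finiteDimensional hint
  have : FiniteDimensional ℚ M := FiniteDimensional.trans ℚ K M
  have hNF : NumberField M := { to_finiteDimensional := inferInstance }
  -- an automorphism over `K` with orbit of the right size
  obtain ⟨σ, k, hk, hσK, hrank, hσ⟩ : ∃ (σ : GalQ) (k : ℕ), 1 ≤ k ∧ (∀ x ∈ K, σ x = x) ∧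
      Module.finrank K M ≤ k ∧ ∀ j < k, 0 < j → (σ ^ j) α ≠ α := by
    by_cases hαK : α ∈ K
    · refine ⟨1, 1, le_rfl, fun x _ => rfl, ?_, fun j hj hj0 => by omega⟩
      refine (IntermediateField.finrank_eq_one_iff.mpr ?_).le
      rw [hM, IntermediateField.adjoin_simple_eq_bot_iff, IntermediateField.mem_bot]
      exact ⟨⟨α, hαK⟩, rfl⟩
    · have hnot : ¬ ∀ σ ∈ K.fixingSubgroup, σ α = α := fun h => hαK (by
        rw [← InfiniteGalois.fixedField_fixingSubgroup K, IntermediateField.mem_fixedField_iff]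
        exact h)
      push Not at hnot
      obtain ⟨σ, hσmem, hσα⟩ := hnot
      have hσK : ∀ x ∈ K, σ x = x := (IntermediateField.mem_fixingSubgroup_iff K σ).mp hσmem
      have hα0 : α ≠ 0 := fun h => hαK (h ▸ K.zero_mem)
      have hζQ : IsPrimitiveRoot ((ζ : K) : QBar) p := hζ.map_of_injective (f := K.val) Subtype.val_injective
      obtain ⟨i, hi, hiζ⟩ := hζQ.eq_pow_of_pow_eq_one (show (σ α / α) ^ p = 1 by
        rw [div_pow, ← map_pow, hσK _ hα, div_self (pow_ne_zero _ hα0)])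
      have hpowj : ∀ j : ℕ, (σ ^ j) α = ((ζ : K) : QBar) ^ (i * j) * α := by
        intro j
        induction j with
        | zero => simp
        | succ j ih =>
          rw [pow_succ', AlgEquiv.mul_apply, ih, map_mul, map_pow, hσK _ ζ.2,
            show σ α = ((ζ : K) : QBar) ^ i * α by rw [hiζ, div_mul_cancel₀ _ hα0], ← mul_assoc,
            ← pow_add, Nat.mul_succ]
      refine ⟨σ, p, hp.pos, hσK, ?_, fun j hj hj0 h => ?_⟩
      · rw [hM, IntermediateField.adjoin.finrank hint]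
        refine (natDegree_le_of_dvd (minpoly.dvd K α (p := X ^ p - C ⟨α ^ p, hα⟩) ?_)
          (X_pow_sub_C_ne_zero hp.pos _)).trans (natDegree_X_pow_sub_C).le
        simp
      · rw [hpowj] at h
        have h1 : ((ζ : K) : QBar) ^ (i * j) = 1 :=
          mul_right_cancel₀ hα0 (h.trans (one_mul α).symm)
        rcases hp.dvd_mul.mp ((hζQ.pow_eq_one_iff_dvd _).mp h1) with hd | hd
        · obtain rfl := Nat.eq_zero_of_dvd_of_lt hd hi
          rw [pow_zero, eq_comm, div_eq_one_iff_eq hα0] at hiζ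
          exact hσα hiζ
        · have := Nat.le_of_dvd hj0 hd
          omega
  -- a place above p
  have hv : (Ideal.span {zint hζ - 1}).IsMaximal :=
    isMaximal_of_absNorm_prime hp (absNorm_zint_sub_one K hζ)
  obtain ⟨A, hA⟩ := exists_centreAt_eq (algebraMap K QBar) (Ideal.span {zint hζ - 1})
  have hAp : A.LiesOverPrime p := by
    have h := natCast_mem_of_absNorm (absNorm_zint_sub_one K hζ)
    rw [← hA, mem_centreAt] at h
    show (p : QBar) ∈ A.nonunits
    rw [A.mem_nonunits_iff]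
    simpa using h
  let Qj : Fin k → Ideal (𝓞 M) :=
    fun j => centreAt (algebraMap M QBar) ((σ ^ (j : ℕ))⁻¹ • A)
  have hover : ∀ j : ℕ, ((σ ^ j)⁻¹ • A).LiesOverPrime p := fun j => by
    show (p : QBar) ∈ ((σ ^ j)⁻¹ • A).nonunits
    rw [mem_nonunits_inv_smul, map_natCast]
    exact hAp
  have hπmem : ∀ j, algebraMap (𝓞 K) (𝓞 M) (zint hζ - 1) ∈ Qj j := by
    intro j
    have h : zint hζ - 1 ∈ centreAt (algebraMap K QBar) A := hA ▸ Ideal.mem_span_singleton_self _
    rw [mem_centreAt, ← A.mem_nonunits_iff] at h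
    rw [mem_centreAt, ← ValuationSubring.mem_nonunits_iff, mem_nonunits_inv_smul]
    have hfixj : ∀ x ∈ K, (σ ^ (j : ℕ)) x = x := by
      intro x hx
      exact (IntermediateField.mem_fixingSubgroup_iff K _).mp
        (pow_mem ((IntermediateField.mem_fixingSubgroup_iff K σ).mpr hσK) _) x hx
    change (σ ^ (j : ℕ)) (algebraMap K QBar ((zint hζ - 1 : 𝓞 K) : K)) ∈ A.nonunits
    exact (congrArg (· ∈ A.nonunits)
      (hfixj (((zint hζ - 1 : 𝓞 K) : K) : QBar) (SetLike.coe_mem _))).mpr h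
  have hne : ∀ j, Qj j ≠ ⊥ := fun j => centreAt_ne_bot _ hp.ne_zero (hover j)
  have hinj : Function.Injective Qj := by
    have key : ∀ i d : ℕ, 0 < d → i + d < k →
        centreAt (algebraMap M QBar) ((σ ^ i)⁻¹ • A) ≠
          centreAt (algebraMap M QBar) ((σ ^ (i + d))⁻¹ • A) := by
      intro i d hd hlt h
      have : FiniteDimensional ℚ (M.restrictScalars ℚ) :=
        inferInstanceAs (FiniteDimensional ℚ M)
      obtain ⟨g, hg, hgM⟩ := exists_decomposition_lift (M.restrictScalars ℚ) hp (hover i) (σ ^ d)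
        (fun b hb => by
          have hbint : IsIntegral ℤ (⟨(b : QBar), hb⟩ : M) :=
            (isIntegral_algHom_iff (M.val.restrictScalars ℤ) Subtype.val_injective).mp b.2
          have hc := SetLike.ext_iff.mp h ⟨⟨(b : QBar), hb⟩, hbint⟩
          have hc' := ((mem_centreAt _).symm.trans hc).trans (mem_centreAt _)
          rw [← ValuationSubring.mem_nonunits_iff, ← ValuationSubring.mem_nonunits_iff] at hc'
          refine (show (b : QBar) ∈ ((σ ^ i)⁻¹ • A).nonunits ↔
            (b : QBar) ∈ ((σ ^ (i + d))⁻¹ • A).nonunits from hc').trans ?_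
          rw [mem_nonunits_inv_smul, mem_nonunits_inv_smul, pow_add, AlgEquiv.mul_apply])
      have hgK : ∀ x ∈ K, g x = x := fun x hx => by
        rw [hgM x (IntermediateField.mem_restrictScalars ℚ |>.mpr (M.algebraMap_mem ⟨x, hx⟩))]
        exact (IntermediateField.mem_fixingSubgroup_iff K _).mp
          (pow_mem ((IntermediateField.mem_fixingSubgroup_iff K σ).mpr hσK) _) x hx
      have := hfix _ (hover i) g hg hgK
      rw [hgM α hαM] at this
      exact hσ d (by omega) hd this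
    intro i j h
    rcases lt_trichotomy (i : ℕ) j with hij | hij | hij
    · exact absurd h (by
        simpa [Qj, Nat.add_sub_cancel' hij.le] using key i (j - i) (by omega) (by omega))
    · exact Fin.ext hij
    · exact absurd h.symm (by
        simpa [Qj, Nat.add_sub_cancel' hij.le] using key j (i - j) (by omega) (by omega))
  -- norms
  have hmax : ∀ j, (Qj j).IsMaximal := fun j => (centreAt_isPrime _ _).isMaximal (hne j)
  set π : 𝓞 M := algebraMap (𝓞 K) (𝓞 M) (zint hζ - 1) with hπ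
  obtain ⟨R, hR⟩ : ∏ j, Qj j ∣ Ideal.span {π} := Finset.prod_dvd_of_coprime
    (fun i _ j _ hij => Ideal.isCoprime_iff_sup_eq.mpr ((hmax i).coprime_of_ne (hmax j)
      fun h => hij (hinj h)))
    fun j _ => Ideal.dvd_span_singleton.mpr (hπmem j)
  have hN : Ideal.absNorm (Ideal.span {π}) = p ^ Module.finrank K M := by
    have h := congrArg Ideal.absNorm (congrArg (Ideal.map (algebraMap (𝓞 K) (𝓞 M)))
      (span_pi_pow (L := K) hp hζ))
    rw [Ideal.map_pow, Ideal.map_span, Set.image_singleton, Ideal.map_span, Set.image_singleton,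
      map_natCast, map_pow, Ideal.absNorm_span_natCast, RingOfIntegers.rank,
      ← Module.finrank_mul_finrank ℚ K M,
      IsCyclotomicExtension.finrank (↥K) (cyclotomic.irreducible_rat hp.pos),
      Nat.totient_prime hp, mul_comm, pow_mul] at h
    exact Nat.pow_left_injective (by have := hp.two_le; omega) h
  have hlow : ∀ j, p ≤ Ideal.absNorm (Qj j) := fun j => by
    have hdvd : Ideal.absNorm (Qj j) ∣ p ^ Module.finrank K M :=
      hN ▸ Ideal.absNorm_dvd_absNorm_of_le ((Ideal.span_singleton_le_iff_mem _).mpr (hπmem j))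
    obtain ⟨e, -, he⟩ := (Nat.dvd_prime_pow hp).mp hdvd
    rw [he]
    refine Nat.le_self_pow (fun he0 => (hmax j).ne_top ?_) p
    rw [← Ideal.absNorm_eq_one_iff, he, he0, pow_zero]
  have hprodN : (∏ j, Ideal.absNorm (Qj j)) * Ideal.absNorm R = p ^ Module.finrank K M := by
    rw [← hN, hR, map_mul, map_prod]
  have hR1 : 1 ≤ Ideal.absNorm R := Nat.one_le_iff_ne_zero.mpr fun h0 => by
    rw [h0, mul_zero] at hprodN
    exact pow_ne_zero _ hp.ne_zero hprodN.symm
  have hle : (∏ j, Ideal.absNorm (Qj j)) * Ideal.absNorm R ≤ ∏ _j : Fin k, p := by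
    rw [hprodN, Finset.prod_const, Finset.card_univ, Fintype.card_fin]
    exact Nat.pow_le_pow_right hp.pos hrank
  have hj0 : ∀ j, Ideal.absNorm (Qj j) = p := by
    intro j
    refine le_antisymm ?_ (hlow j)
    by_contra hlt
    push Not at hlt
    have h2 : ∏ _j : Fin k, p < ∏ i, Ideal.absNorm (Qj i) :=
      Finset.prod_lt_prod (fun _ _ => hp.pos) (fun i _ => hlow i) ⟨j, Finset.mem_univ j, hlt⟩
    nlinarith
  have hRtop : Ideal.absNorm R = 1 := by
    refine le_antisymm ?_ hR1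
    rw [Finset.prod_congr rfl fun j _ => hj0 j] at hle
    exact Nat.le_of_mul_le_mul_left (by rw [mul_one]; exact hle) (Finset.prod_pos fun _ _ => hp.pos)
  rw [Ideal.absNorm_eq_one_iff] at hRtop
  rw [hRtop, ← Ideal.one_eq_top, mul_one] at hR
  refine ⟨M, hNF, Qj ⟨0, hk⟩, hαM, centreAt_isPrime _ _, hj0 _, hπmem _, fun h2 => ?_⟩
  set j₀ : Fin k := ⟨0, hk⟩
  have hd : Qj j₀ * Qj j₀ ∣ Qj j₀ * ∏ j ∈ Finset.univ.erase j₀, Qj j := by
    rw [Finset.mul_prod_erase _ _ (Finset.mem_univ j₀), ← hR, ← sq]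
    exact Ideal.dvd_span_singleton.mpr h2
  have hc : IsCoprime (Qj j₀) (∏ j ∈ Finset.univ.erase j₀, Qj j) := IsCoprime.prod_right fun j hj =>
    Ideal.isCoprime_iff_sup_eq.mpr ((hmax j₀).coprime_of_ne (hmax j)
      fun h => Finset.ne_of_mem_erase hj (hinj h).symm)
  exact (hmax j₀).ne_top (Ideal.isUnit_iff.mp
    (hc.isUnit_of_dvd' dvd_rfl ((mul_dvd_mul_iff_left (hne j₀)).mp hd)))

include hζ in
/-- The exponent at `p` of a `p`-th power split at `p`. -/
theorem dvd_idealCount_zint (a : 𝓞 K) (ha : a ≠ 0) (α : QBar)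
    (hα : α ^ p = ((a : K) : QBar)) (hfix : IsSplitAt K p α) :
    p ∣ idealCount (Ideal.span {zint hζ - 1}) (Ideal.span {a}) := by
  have hp : p.Prime := Fact.out
  obtain ⟨M, _, Q, hαM, hQ, hQN, hπ1, hπ2⟩ := exists_split_prime K hζ α (hα ▸ (a : K).2) hfix
  have hαint : IsIntegral ℤ (⟨α, hαM⟩ : M) := by
    refine (isIntegral_algHom_iff (M.val.restrictScalars ℤ) Subtype.val_injective).mp ?_
    exact IsIntegral.of_pow hp.pos
      (hα ▸ (RingOfIntegers.isIntegral_coe a).map (K.val.restrictScalars ℤ))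
  set α' : 𝓞 M := ⟨⟨α, hαM⟩, hαint⟩ with hα'
  have hpow : α' ^ p = algebraMap (𝓞 K) (𝓞 M) a := RingOfIntegers.coe_injective (Subtype.ext hα)
  have hv := isMaximal_of_absNorm_prime hp (absNorm_zint_sub_one K hζ)
  have hvp : Prime (Ideal.span {zint hζ - 1}) := Ideal.prime_of_isPrime (fun h => by
    have := absNorm_zint_sub_one K hζ; rw [h, Ideal.absNorm_bot] at this
    exact hp.ne_zero this.symm) hv.isPrime
  have hQ0 : Q ≠ ⊥ := fun h => hp.ne_zero (by rw [h, Ideal.absNorm_bot] at hQN; exact hQN.symm)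
  have hover : Q.LiesOver (Ideal.span {zint hζ - 1}) :=
    ⟨hv.eq_of_le (Ideal.comap_ne_top _ hQ.ne_top) ((Ideal.span_singleton_le_iff_mem _).mpr hπ1)⟩
  have hI : Ideal.span {a} ≠ (0 : Ideal (𝓞 K)) := fun h => ha (Ideal.span_singleton_eq_bot.mp h)
  have h := idealCount_map (S := 𝓞 M) hvp hI hover
  rw [Ideal.map_span, Set.image_singleton, Ideal.map_span, Set.image_singleton, ← hpow,
    ← Ideal.span_singleton_pow, idealCount_pow] at h
  have hπ0 : Ideal.span {algebraMap (𝓞 K) (𝓞 M) (zint hζ - 1)} ≠ (0 : Ideal (𝓞 M)) := fun h0 =>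
    hπ2 (by rw [Ideal.span_singleton_eq_bot.mp h0]; exact zero_mem _)
  have hQp := Ideal.prime_of_isPrime hQ0 hQ
  have hone : idealCount Q (Ideal.span {algebraMap (𝓞 K) (𝓞 M) (zint hζ - 1)}) = 1 :=
    le_antisymm (Nat.le_of_lt_succ (not_le.mp fun h2 => hπ2
      (Ideal.dvd_span_singleton.mp ((pow_dvd_iff_le_idealCount hQp hπ0 2).mpr h2))))
      ((pow_dvd_iff_le_idealCount hQp hπ0 1).mp (by
        rw [pow_one]; exact Ideal.dvd_span_singleton.mpr hπ1))
  rw [hone, mul_one] at h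
  exact ⟨_, h.symm⟩

include hζ in
/-- A unit whose `p`-th root is split at `p` is a `p`-th power modulo `p`. -/
theorem exists_pow_congr_of_split (u : 𝓞 K) (θ : QBar) (hθ : θ ^ p = ((u : K) : QBar))
    (hfix : IsSplitAt K p θ) : ∃ n : ℕ, (p : 𝓞 K) ∣ u - (n : 𝓞 K) ^ p := by
  have hp : p.Prime := Fact.out
  have : NeZero p := ⟨hp.ne_zero⟩
  obtain ⟨M, _, Q, hθM, hQ, hQN, hπ1, hπ2⟩ := exists_split_prime K hζ θ (hθ ▸ (u : K).2) hfix
  have hθint : IsIntegral ℤ (⟨θ, hθM⟩ : M) := by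
    refine (isIntegral_algHom_iff (M.val.restrictScalars ℤ) Subtype.val_injective).mp ?_
    exact IsIntegral.of_pow hp.pos
      (hθ ▸ (RingOfIntegers.isIntegral_coe u).map (K.val.restrictScalars ℤ))
  set θ' : 𝓞 M := ⟨⟨θ, hθM⟩, hθint⟩
  have hpow : θ' ^ p = algebraMap (𝓞 K) (𝓞 M) u := RingOfIntegers.coe_injective (Subtype.ext hθ)
  obtain ⟨n, hn⟩ := exists_natCast_sub_mem hp hQN θ'
  refine ⟨n, ?_⟩
  set v : Ideal (𝓞 K) := Ideal.span {zint hζ - 1} with hv'
  have hvp' := span_pi_pow (L := K) hp hζ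
  rw [← Ideal.mem_span_singleton, ← hvp']
  by_cases h0 : u - (n : 𝓞 K) ^ p = 0
  · rw [h0]; exact zero_mem _
  have hpQ : (p : 𝓞 M) ∈ Q ^ (p - 1) := by
    have h1 : algebraMap (𝓞 K) (𝓞 M) (p : 𝓞 K) ∈
        (Ideal.span {((p : ℕ) : 𝓞 K)}).map (algebraMap (𝓞 K) (𝓞 M)) :=
      Ideal.mem_map_of_mem _ (Ideal.mem_span_singleton_self _)
    rw [← hvp', Ideal.map_pow, map_natCast, Ideal.map_span, Set.image_singleton] at h1
    exact Ideal.pow_right_mono ((Ideal.span_singleton_le_iff_mem _).mpr hπ1) _ h1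
  have hdiff : θ' ^ p - (n : 𝓞 M) ^ p ∈ Q ^ (p - 1) := by
    obtain ⟨r, hr⟩ := exists_add_pow_prime_eq hp (n : 𝓞 M) (θ' - n)
    rw [add_sub_cancel] at hr
    rw [hr, add_assoc, add_sub_cancel_left]
    exact add_mem (Ideal.pow_le_pow_right (Nat.sub_le p 1) (Ideal.pow_mem_pow hn p))
      (Ideal.mul_mem_right _ _ (Ideal.mul_mem_right _ _ (Ideal.mul_mem_right _ _ hpQ)))
  rw [hpow, ← map_natCast (algebraMap (𝓞 K) (𝓞 M)) n, ← map_pow, ← map_sub] at hdiff
  have hvm := isMaximal_of_absNorm_prime hp (absNorm_zint_sub_one K hζ)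
  have hvprime : Prime v := Ideal.prime_of_isPrime (fun h => by
    have := absNorm_zint_sub_one K hζ; rw [← hv', h, Ideal.absNorm_bot] at this
    exact hp.ne_zero this.symm) hvm.isPrime
  have hQ0 : Q ≠ ⊥ := fun h => hp.ne_zero (by rw [h, Ideal.absNorm_bot] at hQN; exact hQN.symm)
  have hQp := Ideal.prime_of_isPrime hQ0 hQ
  have hover : Q.LiesOver v :=
    ⟨hvm.eq_of_le (Ideal.comap_ne_top _ hQ.ne_top) ((Ideal.span_singleton_le_iff_mem _).mpr hπ1)⟩
  set x := u - (n : 𝓞 K) ^ p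
  have hI : Ideal.span {x} ≠ (0 : Ideal (𝓞 K)) := fun h => h0 (Ideal.span_singleton_eq_bot.mp h)
  have hI' : Ideal.span {algebraMap (𝓞 K) (𝓞 M) x} ≠ (0 : Ideal (𝓞 M)) := fun h => h0
    ((map_eq_zero_iff _ (FaithfulSMul.algebraMap_injective (𝓞 K) (𝓞 M))).mp
      (Ideal.span_singleton_eq_bot.mp h))
  have hπ0 : Ideal.span {algebraMap (𝓞 K) (𝓞 M) (zint hζ - 1)} ≠ (0 : Ideal (𝓞 M)) := fun h =>
    hπ2 (by rw [Ideal.span_singleton_eq_bot.mp h]; exact zero_mem _)
  have hone : idealCount Q (Ideal.span {algebraMap (𝓞 K) (𝓞 M) (zint hζ - 1)}) = 1 :=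
    le_antisymm (Nat.le_of_lt_succ (not_le.mp fun h2 => hπ2
      (Ideal.dvd_span_singleton.mp ((pow_dvd_iff_le_idealCount hQp hπ0 2).mpr h2))))
      ((pow_dvd_iff_le_idealCount hQp hπ0 1).mp (by
        rw [pow_one]; exact Ideal.dvd_span_singleton.mpr hπ1))
  have h := idealCount_map (S := 𝓞 M) hvprime hI hover
  rw [hv', Ideal.map_span, Set.image_singleton, Ideal.map_span, Set.image_singleton, hone,
    mul_one] at h
  rw [← Ideal.dvd_span_singleton]
  show v ^ (p - 1) ∣ _
  rw [pow_dvd_iff_le_idealCount hvprime hI, hv', ← h,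
    ← pow_dvd_iff_le_idealCount hQp hI', Ideal.dvd_span_singleton]
  exact hdiff

end

end FLTAgent.Ext
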