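import Fermat.Agent.SS2.Unramified
import Fermat.Agent.Ext.Factor

/-!
# S14: primes of number fields inside `ℚ̄` and valuation subrings
-/

set_option autoImplicit false
set_option maxSynthPendingDepth 3
set_option synthInstance.maxHeartbeats 200000
set_option linter.style.haveILetI false

noncomputable section

namespace FLTAgent.Ext

open NumberField FLTAgent.Common
open scoped Pointwise nonZeroDivisors

variable {E : Type*} [Field E] (ι : E →+* QBar)

/-- Algebraic integers of `E` inside `ℚ̄`. -/
def intEmb : 𝓞 E →+* ZBar where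
  toFun a := ⟨ι (a : E), map_isIntegral_int ι (RingOfIntegers.isIntegral_coe a)⟩
  map_one' := Subtype.ext (map_one ι)
  map_mul' a b := Subtype.ext (map_mul ι (a : E) (b : E))
  map_zero' := Subtype.ext (map_zero ι)
  map_add' a b := Subtype.ext (map_add ι (a : E) (b : E))

lemma coe_intEmb (a : 𝓞 E) : (intEmb ι a : QBar) = ι (a : E) := rfl

/-- The prime of `E` below a valuation subring. -/
def centreAt (A : ValuationSubring QBar) : Ideal (𝓞 E) := (centre A).comap (intEmb ι)

lemma mem_centreAt {A : ValuationSubring QBar} {a : 𝓞 E} :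
    a ∈ centreAt ι A ↔ A.valuation (ι (a : E)) < 1 :=
  Ideal.mem_comap.trans (mem_centre.trans A.mem_nonunits_iff)

lemma centreAt_isPrime (A : ValuationSubring QBar) : (centreAt ι A).IsPrime := by
  have := centre_isPrime A
  exact Ideal.IsPrime.comap (intEmb ι)

lemma valuation_le_one (A : ValuationSubring QBar) (a : 𝓞 E) : A.valuation (ι (a : E)) ≤ 1 :=
  (A.valuation_le_one_iff _).mpr
    (SS2.integral_mem A (map_isIntegral_int ι (RingOfIntegers.isIntegral_coe a)))

lemma natCast_mem_centreAt {A : ValuationSubring QBar} {q : ℕ} (hA : A.LiesOverPrime q) :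
    (q : 𝓞 E) ∈ centreAt ι A := by
  rw [mem_centreAt, show ι ((q : 𝓞 E) : E) = (q : QBar) by simp]
  exact hA

variable [NumberField E]

lemma centreAt_ne_bot {A : ValuationSubring QBar} {q : ℕ} (hq : q ≠ 0) (hA : A.LiesOverPrime q) :
    centreAt ι A ≠ ⊥ := fun h => by
  have := natCast_mem_centreAt ι hA
  rw [h, Ideal.mem_bot] at this
  exact hq (Nat.cast_eq_zero.mp this)

/-- A larger exponent at the centre gives a smaller valuation. -/
lemma valuation_lt_of_idealCount_lt {A : ValuationSubring QBar} (hne : centreAt ι A ≠ ⊥)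
    {x y : 𝓞 E} (hx : x ≠ 0) (hy : y ≠ 0)
    (h : idealCount (centreAt ι A) (Ideal.span {x}) < idealCount (centreAt ι A) (Ideal.span {y})) :
    A.valuation (ι (y : E)) < A.valuation (ι (x : E)) := by
  set v := centreAt ι A
  have hvp : Prime v := Ideal.prime_of_isPrime hne (centreAt_isPrime ι A)
  have hX : Ideal.span {x} ≠ (0 : Ideal (𝓞 E)) := fun h0 => hx (Ideal.span_singleton_eq_bot.mp h0)
  have hY : Ideal.span {y} ≠ (0 : Ideal (𝓞 E)) := fun h0 => hy (Ideal.span_singleton_eq_bot.mp h0)
  obtain ⟨R, hR⟩ := (pow_dvd_iff_le_idealCount hvp hX _).mpr le_rfl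
  have hR0 : R ≠ 0 := fun h0 => hX (by rw [hR, h0, mul_zero])
  have hnd : ¬ v ∣ R := fun hd => by
    have h1 : v ^ (idealCount v (Ideal.span {x}) + 1) ∣
        v ^ idealCount v (Ideal.span {x}) * R := by rw [pow_succ]; exact mul_dvd_mul_left _ hd
    rw [← hR] at h1
    have := (pow_dvd_iff_le_idealCount hvp hX _).mp h1
    omega
  obtain ⟨t, htR, htv⟩ := Set.not_subset.mp fun hle => hnd (Ideal.dvd_iff_le.mpr hle)
  have hmem : y * t ∈ Ideal.span {x} * v := by
    have hyv : y ∈ v ^ (idealCount v (Ideal.span {x}) + 1) :=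
      Ideal.dvd_span_singleton.mp ((pow_dvd_iff_le_idealCount hvp hY _).mpr h)
    have := Ideal.mul_mem_mul hyv htR
    rwa [pow_succ, mul_right_comm, ← hR] at this
  obtain ⟨m, hm, hmeq⟩ := Ideal.mem_span_singleton_mul.mp hmem
  have ht1 : A.valuation (ι (t : E)) = 1 :=
    le_antisymm (valuation_le_one ι A t) (not_lt.mp fun hlt => htv ((mem_centreAt ι).mpr hlt))
  have hm1 := (mem_centreAt ι).mp hm
  have hx0 : A.valuation (ι (x : E)) ≠ 0 := (map_ne_zero _).mpr ((map_ne_zero ι).mpr
    (by simpa using hx))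
  have heq := congrArg (fun z : 𝓞 E => A.valuation (ι (z : E))) hmeq
  simp only [map_mul] at heq
  rw [ht1, mul_one] at heq
  rw [← heq]
  exact mul_lt_of_lt_one_right (zero_lt_iff.mpr hx0) hm1

/-- Equal valuations give equal exponents. -/
lemma idealCount_eq_of_valuation_eq {A : ValuationSubring QBar} (hne : centreAt ι A ≠ ⊥)
    {x y : 𝓞 E} (hx : x ≠ 0) (hy : y ≠ 0)
    (h : A.valuation (ι (x : E)) = A.valuation (ι (y : E))) :
    idealCount (centreAt ι A) (Ideal.span {x}) = idealCount (centreAt ι A) (Ideal.span {y}) := by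
  rcases lt_trichotomy (idealCount (centreAt ι A) (Ideal.span {x}))
    (idealCount (centreAt ι A) (Ideal.span {y})) with h1 | h1 | h1
  · exact absurd h (valuation_lt_of_idealCount_lt ι hne hx hy h1).ne'
  · exact h1
  · exact absurd h (valuation_lt_of_idealCount_lt ι hne hy hx h1).ne

omit [NumberField E] in
/-- Every prime is the centre of a valuation subring. -/
lemma exists_centreAt_eq (v : Ideal (𝓞 E)) [v.IsMaximal] :
    ∃ A : ValuationSubring QBar, centreAt ι A = v := by
  let R : Subring QBar := (ι.comp (algebraMap (𝓞 E) E)).range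
  let f : 𝓞 E →+* R := (ι.comp (algebraMap (𝓞 E) E)).rangeRestrict
  have hf : Function.Bijective f := ⟨fun a b h => RingOfIntegers.coe_injective
    (ι.injective (congrArg Subtype.val h)), RingHom.rangeRestrict_surjective _⟩
  let e := RingEquiv.ofBijective f hf
  have hne : v.map (e : 𝓞 E →+* R) ≠ ⊤ := by
    intro h
    apply Ideal.IsMaximal.ne_top ‹v.IsMaximal›
    rw [← Ideal.comap_map_of_bijective (e : 𝓞 E →+* R) e.bijective (I := v), h, Ideal.comap_top]
  obtain ⟨A, hA⟩ := Ideal.image_subset_nonunits_valuationSubring (v.map (e : 𝓞 E →+* R)) hne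
  have hle : v ≤ centreAt ι A := fun a ha => by
    rw [mem_centreAt]
    exact A.mem_nonunits_iff.mp (hA.2 ⟨e a, Ideal.mem_map_of_mem _ ha, rfl⟩)
  exact ⟨A, (Ideal.IsMaximal.eq_of_le ‹_› (centreAt_isPrime ι A).ne_top hle).symm⟩

section Lift

variable (M : IntermediateField ℚ QBar) [FiniteDimensional ℚ M]

/-- An automorphism preserving the prime of `M` below `A` agrees on `M` with an element of the
decomposition group of `A`. -/
theorem exists_decomposition_lift {q : ℕ} (hq : q.Prime) {A : ValuationSubring QBar}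
    (hA : A.LiesOverPrime q) (σ : GalQ)
    (hσ : ∀ b : ZBar, (b : QBar) ∈ M →
      ((b : QBar) ∈ A.nonunits ↔ σ (b : QBar) ∈ A.nonunits)) :
    ∃ g ∈ A.decompositionSubgroup ℚ, ∀ x ∈ M, g x = σ x := by
  classical
  have := isGalois_qbar
  haveI : NumberField M := { to_finiteDimensional := inferInstance }
  let H : Subgroup GalQ := M.fixingSubgroup
  have hclosed : IsClosed (H : Set GalQ) :=
    Subgroup.isClosed_of_isOpen H M.fixingSubgroup_isOpen
  letI : Algebra (𝓞 M) ZBar := (intEmb M.val.toRingHom).toAlgebra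
  have hcoe : ∀ a : 𝓞 M, ((algebraMap (𝓞 M) ZBar a : ZBar) : QBar) = ((a : M) : QBar) :=
    fun a => rfl
  letI : SMulCommClass H (𝓞 M) ZBar := by
    refine ⟨fun h a b => ?_⟩
    rw [Algebra.smul_def, Algebra.smul_def, smul_mul']
    congr 1
    exact Subtype.ext ((IntermediateField.mem_fixingSubgroup_iff M (h : GalQ)).mp h.2
      _ (a : M).2)
  have : Algebra.IsInvariant (𝓞 M) ZBar H := by
    refine ⟨fun b hb => ?_⟩
    have hbM : (b : QBar) ∈ M := by
      rw [← InfiniteGalois.fixedField_fixingSubgroup M, IntermediateField.mem_fixedField_iff]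
      exact fun u hu => congrArg Subtype.val (hb ⟨u, hu⟩)
    refine ⟨⟨⟨(b : QBar), hbM⟩, ?_⟩, rfl⟩
    exact (isIntegral_algHom_iff (M.val.restrictScalars ℤ) Subtype.val_injective).mp b.2
  letI : TopologicalSpace ZBar := ⊥
  haveI : DiscreteTopology ZBar := ⟨rfl⟩
  haveI : ContinuousSMul H ZBar := by
    rw [continuousSMul_iff_stabilizer_isOpen]
    intro b
    have h1 := stabilizer_isOpen_of_isIntegral (K := ℚ) (L := QBar) (b : QBar)
    have : (MulAction.stabilizer H b : Set H)
        = (fun h : H => (h : GalQ)) ⁻¹' (MulAction.stabilizer GalQ (b : QBar) : Set GalQ) := by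
      ext h
      exact Subtype.ext_iff
    rw [this]
    exact h1.preimage continuous_subtype_val
  haveI : CompactSpace H := isCompact_iff_compactSpace.mp hclosed.isCompact
  haveI : TotallyDisconnectedSpace GalQ := by
    haveI := krullTopology_isTotallySeparated (K := ℚ) (L := QBar)
    infer_instance
  have hQ : (centre A).IsPrime := centre_isPrime A
  haveI : (σ⁻¹ • centre A).IsPrime := inferInstance
  have hunder : (centre A).under (𝓞 M) = (σ⁻¹ • centre A).under (𝓞 M) := by
    ext a
    rw [Ideal.mem_comap, Ideal.mem_comap, Ideal.mem_pointwise_smul_iff_inv_smul_mem, inv_inv,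
      mem_centre, mem_centre]
    exact hσ _ (a : M).2
  obtain ⟨h, hh⟩ := Algebra.IsInvariant.exists_smul_of_under_eq_of_profinite (A := 𝓞 M) (G := H)
    (centre A) (σ⁻¹ • centre A) hunder
  set g : GalQ := σ * (h : GalQ) with hg
  have hgQ : g • centre A = centre A := by
    rw [hg, mul_smul]
    exact (congrArg (σ • ·) hh.symm).trans (smul_inv_smul σ _)
  refine ⟨g, ?_, fun x hx => ?_⟩
  · have key : ∀ g' : GalQ, g' • centre A = centre A → ∀ x ∈ A, g' x ∈ A := by
      intro g' hg' x hx
      obtain ⟨s, hs, hsx⟩ := exists_unit_denominator A hx hq hA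
      have hgs : (g' • s : ZBar) ∉ centre A := fun hmem => hs (mem_centre.mp (by
        rwa [← hg', Ideal.smul_mem_pointwise_smul_iff] at hmem))
      have h1 : A.valuation (g' (s : QBar)) = 1 :=
        le_antisymm ((A.valuation_le_one_iff _).mpr (SS2.integral_mem A (g' • s : ZBar).2))
          (not_lt.mp fun hlt => hgs (mem_centre.mpr (A.mem_nonunits_iff.mpr hlt)))
      have h2 := (A.valuation_le_one_iff _).mpr
        (SS2.integral_mem A (g' • (⟨_, hsx⟩ : ZBar) : ZBar).2)
      change A.valuation (g' ((s : QBar) * x)) ≤ 1 at h2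
      rw [map_mul, map_mul, h1, one_mul] at h2
      exact (A.valuation_le_one_iff _).mp h2
    show g • A = A
    refine SetLike.ext fun x => ?_
    rw [ValuationSubring.mem_smul_pointwise_iff_exists]
    refine ⟨?_, fun hx => ⟨g⁻¹ x, key g⁻¹ (by rw [inv_smul_eq_iff, hgQ]) x hx, g.apply_symm_apply x⟩⟩
    rintro ⟨y, hy, rfl⟩
    exact key g hgQ y hy
  · rw [hg]
    exact congrArg σ ((IntermediateField.mem_fixingSubgroup_iff M (h : GalQ)).mp h.2 x hx)

end Lift

end FLTAgent.Ext
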