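import Fermat.Agent.Ext.Cyclo
import Mathlib.RingTheory.Ideal.Norm.AbsNorm
import Mathlib.NumberTheory.NumberField.ClassNumber

/-!
# S14: ideals of prime norm, and the totally split primes of the cyclotomic field
-/

set_option autoImplicit false

noncomputable section

namespace FLTAgent.Ext

open NumberField Ideal Polynomial

section PrimeNorm

variable {F : Type*} [Field F] [NumberField F] {P : Ideal (𝓞 F)} {l : ℕ}

lemma natCast_mem_of_absNorm (hnorm : absNorm P = l) : ((l : ℕ) : 𝓞 F) ∈ P :=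
  hnorm ▸ absNorm_mem P

lemma isMaximal_of_absNorm_prime (hl : l.Prime) (hnorm : absNorm P = l) : P.IsMaximal := by
  have h := Ideal.isPrime_of_irreducible_absNorm (show Irreducible (absNorm P) by rw [hnorm]; exact hl)
  refine h.isMaximal fun h0 => ?_
  rw [h0, absNorm_bot] at hnorm
  exact hl.ne_zero hnorm.symm

lemma natCast_mem_iff_dvd (hl : l.Prime) (hnorm : absNorm P = l) (n : ℕ) :
    (n : 𝓞 F) ∈ P ↔ l ∣ n := by
  refine ⟨fun h => ?_, fun ⟨k, hk⟩ => ?_⟩
  · by_contra hc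
    obtain ⟨a, b, hab⟩ := (Int.isCoprime_iff_gcd_eq_one (m := (l : ℤ)) (n := n)).mpr
      (by simpa [Int.gcd_natCast_natCast] using (hl.coprime_iff_not_dvd.mpr hc))
    refine (isMaximal_of_absNorm_prime hl hnorm).ne_top ((eq_top_iff_one P).mpr ?_)
    have : ((a * l + b * n : ℤ) : 𝓞 F) ∈ P := by
      push_cast
      exact add_mem (P.mul_mem_left _ (natCast_mem_of_absNorm hnorm)) (P.mul_mem_left _ h)
    simpa [hab] using this
  · rw [hk, Nat.cast_mul]
    exact P.mul_mem_right _ (natCast_mem_of_absNorm hnorm)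

lemma exists_natCast_sub_mem (hl : l.Prime) (hnorm : absNorm P = l) (x : 𝓞 F) :
    ∃ n : ℕ, x - n ∈ P := by
  have : Finite (𝓞 F ⧸ P) := Ideal.finiteQuotientOfFreeOfNeBot P fun h => by
    rw [h, absNorm_bot] at hnorm; exact hl.ne_zero hnorm.symm
  let _ := Fintype.ofFinite (𝓞 F ⧸ P)
  have hcard : Fintype.card (𝓞 F ⧸ P) = l := by
    rw [← hnorm, absNorm_apply, Submodule.cardQuot_apply, Nat.card_eq_fintype_card]
  let f : Fin l → 𝓞 F ⧸ P := fun i => Ideal.Quotient.mk P (i : ℕ)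
  have hf : Function.Injective f := by
    intro i j h
    rcases le_total (i : ℕ) j with hij | hij
    · have h' := (natCast_mem_iff_dvd hl hnorm (j - i)).mp (by
        rw [Nat.cast_sub hij]; exact (Submodule.Quotient.eq P).mp h.symm)
      exact Fin.ext (by have := Nat.eq_zero_of_dvd_of_lt h' (by omega); omega)
    · have h' := (natCast_mem_iff_dvd hl hnorm (i - j)).mp (by
        rw [Nat.cast_sub hij]; exact (Submodule.Quotient.eq P).mp h)
      exact Fin.ext (by have := Nat.eq_zero_of_dvd_of_lt h' (by omega); omega)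
  obtain ⟨i, hi⟩ := ((Fintype.bijective_iff_injective_and_card f).mpr
    ⟨hf, by rw [Fintype.card_fin, hcard]⟩).2 (Ideal.Quotient.mk P x)
  exact ⟨i, (Submodule.Quotient.eq P).mp hi.symm⟩

end PrimeNorm

variable {p : ℕ} [Fact p.Prime] {K : Type*} [Field K] [NumberField K]
  [IsCyclotomicExtension {p} ℚ K] {ζ : K} (hζ : IsPrimitiveRoot ζ p)
  {P : Ideal (𝓞 K)} {l : ℕ}

variable (p) in
/-- The conjugates of an ideal. -/
def conjIdeal (a : (ZMod p)ˣ) (P : Ideal (𝓞 K)) : Ideal (𝓞 K) :=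
  P.map (galInt p K a : 𝓞 K →+* 𝓞 K)

lemma mem_conjIdeal {a : (ZMod p)ˣ} {x : 𝓞 K} :
    galInt p K a x ∈ conjIdeal p a P ↔ x ∈ P :=
  by
    rw [conjIdeal]
    refine ⟨fun h => ?_, fun h => Ideal.mem_map_of_mem _ h⟩
    obtain ⟨y, hy, hyx⟩ := (Ideal.mem_map_iff_of_surjective _ (galInt p K a).surjective).mp h
    rwa [← (galInt p K a).injective hyx]

lemma absNorm_conjIdeal (a : (ZMod p)ˣ) : absNorm (conjIdeal p a P) = absNorm P := by
  rw [absNorm_apply, absNorm_apply, Submodule.cardQuot_apply, Submodule.cardQuot_apply]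
  exact (Nat.card_congr (Ideal.quotientEquiv P (conjIdeal p a P) (galInt p K a) rfl).toEquiv).symm

lemma exists_pow_sub_mem_of_dvd (hl : l.Prime) (hnorm : absNorm P = l) (hlp : l = p) (x : 𝓞 K) :
    x ^ p - x ∈ P := by
  subst hlp
  obtain ⟨n, hn⟩ := exists_natCast_sub_mem hl hnorm x
  have hq : Ideal.Quotient.mk P x = Ideal.Quotient.mk P (n : 𝓞 K) :=
    Ideal.Quotient.eq.mpr hn
  rw [← Ideal.Quotient.eq, map_pow, hq, ← map_pow, Ideal.Quotient.eq, ← Nat.cast_pow,
    ← Nat.cast_sub (Nat.le_self_pow hl.ne_zero n), natCast_mem_iff_dvd hl hnorm]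
  have : Fact l.Prime := ⟨hl⟩
  rw [← ZMod.natCast_eq_zero_iff, Nat.cast_sub (Nat.le_self_pow hl.ne_zero n), Nat.cast_pow,
    ZMod.pow_card, sub_self]

include hζ in
omit [IsCyclotomicExtension {p} ℚ K] in
lemma not_mem_zint_pow_sub (hl : l.Prime) (hnorm : absNorm P = l) (hlp : l ≠ p) {a b : (ZMod p)ˣ}
    (h : zint hζ ^ (a : ZMod p).val - zint hζ ^ (b : ZMod p).val ∈ P) : a = b := by
  have hp : p.Prime := Fact.out
  have : NeZero p := ⟨hp.ne_zero⟩
  have := isMaximal_of_absNorm_prime hl hnorm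
  let _ := Ideal.Quotient.field P
  have hp0 : ((p : ℕ) : 𝓞 K ⧸ P) ≠ 0 := by
    rw [← map_natCast (Ideal.Quotient.mk P), Ne, Ideal.Quotient.eq_zero_iff_mem,
      natCast_mem_iff_dvd hl hnorm, Nat.prime_dvd_prime_iff_eq hl hp]
    exact hlp
  have : NeZero ((p : ℕ) : 𝓞 K ⧸ P) := ⟨hp0⟩
  have hz : IsPrimitiveRoot (Ideal.Quotient.mk P (zint hζ)) p := by
    rw [← isRoot_cyclotomic_iff, ← map_cyclotomic p (Ideal.Quotient.mk P)]
    exact ((zint_spec hζ).isRoot_cyclotomic hp.pos).map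
  refine Units.ext (ZMod.val_injective p (hz.pow_inj (ZMod.val_lt _) (ZMod.val_lt _) ?_))
  rw [← map_pow, ← map_pow]
  exact Ideal.Quotient.eq.mpr h

include hζ in
lemma conjIdeal_injective (hl : l.Prime) (hnorm : absNorm P = l) (hlp : l ≠ p) :
    Function.Injective fun a => conjIdeal p a P := by
  intro a b h
  obtain ⟨c, rfl⟩ : ∃ c, b = a * c := ⟨a⁻¹ * b, by group⟩
  obtain ⟨n, hn⟩ := exists_natCast_sub_mem hl hnorm (zint hζ)
  have h1 : galInt p K (a * c) (zint hζ - n) ∈ conjIdeal p a P := by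
    rw [show conjIdeal p a P = conjIdeal p (a * c) P from h]
    exact mem_conjIdeal.mpr hn
  rw [galInt_mul, mem_conjIdeal, map_sub, map_natCast, galInt_zint] at h1
  have h2 : zint hζ ^ (c : ZMod p).val - zint hζ ^ ((1 : (ZMod p)ˣ) : ZMod p).val ∈ P := by
    rw [Units.val_one, ZMod.val_one, pow_one, ← sub_sub_sub_cancel_right _ _ (n : 𝓞 K)]
    exact sub_mem h1 hn
  rw [not_mem_zint_pow_sub hζ hl hnorm hlp h2, mul_one]

include hζ in
/-- A rational prime with a degree one prime above it splits completely. -/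
lemma prod_conjIdeal (hl : l.Prime) (hnorm : absNorm P = l) (hlp : l ≠ p) :
    ∏ a : (ZMod p)ˣ, conjIdeal p a P = span {((l : ℕ) : 𝓞 K)} := by
  classical
  have hl0 : ((l : ℕ) : 𝓞 K) ≠ 0 := by exact_mod_cast hl.ne_zero
  have hmax : ∀ a, (conjIdeal p a P).IsMaximal := fun a =>
    isMaximal_of_absNorm_prime hl ((absNorm_conjIdeal a).trans hnorm)
  have hdvd : ∏ a : (ZMod p)ˣ, conjIdeal p a P ∣ span {((l : ℕ) : 𝓞 K)} := by
    refine Finset.prod_dvd_of_coprime (fun a _ b _ hab => ?_) fun a _ => ?_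
    · exact Ideal.isCoprime_iff_sup_eq.mpr ((hmax a).coprime_of_ne (hmax b)
        fun h => hab (conjIdeal_injective hζ hl hnorm hlp h))
    · rw [Ideal.dvd_span_singleton]
      exact natCast_mem_of_absNorm ((absNorm_conjIdeal a).trans hnorm)
  obtain ⟨J, hJ⟩ := hdvd
  have hN := congrArg absNorm hJ
  rw [map_mul, map_prod, absNorm_span_natCast,
    Finset.prod_congr rfl (fun a _ => (absNorm_conjIdeal a).trans hnorm),
    Finset.prod_const, Finset.card_univ, ZMod.card_units, RingOfIntegers.rank K, IsCyclotomicExtension.finrank K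
      (cyclotomic.irreducible_rat (Fact.out : p.Prime).pos), Nat.totient_prime Fact.out] at hN
  have hJ1 : absNorm J = 1 :=
    Nat.eq_of_mul_eq_mul_left (pow_pos hl.pos (p - 1)) (by rw [mul_one]; exact hN.symm)
  rw [hJ, absNorm_eq_one_iff.mp hJ1, ← one_eq_top, mul_one]

end FLTAgent.Ext
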