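import Fermat.Agent.Ext.Descent
import Fermat.Prelude.Def_ExtCitation_AdmissibleExtension_v2

/-!
# S14: admissible extensions split
-/

set_option autoImplicit false

noncomputable section

namespace FLTAgent.Ext

open ExtCitation FLTAgent.Common

theorem extVanishingCts {p : ℕ} [Fact p.Prime] (h3 : 3 ≤ p) : ExtVanishingCts p := by
  intro V _ _ _ _ C hadm
  have hp : p.Prime := Fact.out
  have : NeZero p := ⟨hp.ne_zero⟩
  -- a basis
  obtain ⟨e, he⟩ : ∃ e : C, e ≠ 0 := by
    have : Finite C := Nat.finite_of_card_ne_zero (by rw [hadm.card_sub]; exact hp.ne_zero)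
    have : Nontrivial C := Finite.one_lt_card_iff_nontrivial.mp
      (hadm.card_sub.symm ▸ hp.one_lt)
    exact exists_ne 0
  have hCfin : Finite C := Nat.finite_of_card_ne_zero (by rw [hadm.card_sub]; exact hp.ne_zero)
  have hVfin : Finite V :=
    Nat.finite_of_card_ne_zero (by rw [hadm.card_total]; exact pow_ne_zero _ hp.ne_zero)
  have hspan : Function.Bijective fun a : ZMod p => a • e := by
    rw [Nat.bijective_iff_injective_and_card]
    exact ⟨smul_left_injective _ he, by rw [Nat.card_zmod, hadm.card_sub]⟩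
  obtain ⟨v, hv⟩ : ∃ v : V, v ∉ C := by
    by_contra hcon
    push Not at hcon
    have h := Nat.card_congr ((Equiv.subtypeUnivEquiv hcon : {x // x ∈ C} ≃ V))
    rw [hadm.card_total] at h
    have := hadm.card_sub
    rw [show Nat.card C = p ^ 2 from h] at this
    nlinarith [hp.two_le]
  have hbas : Function.Bijective fun ab : ZMod p × ZMod p => ab.1 • (e : V) + ab.2 • v := by
    rw [Nat.bijective_iff_injective_and_card]
    refine ⟨fun x y h => ?_, by rw [Nat.card_prod, Nat.card_zmod, hadm.card_total, sq]⟩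
    simp only at h
    have h2 : x.2 = y.2 := by
      by_contra hne
      apply hv
      have hd : (x.2 - y.2) • v = (y.1 - x.1) • (e : V) := by
        rw [sub_smul, sub_smul, sub_eq_sub_iff_add_eq_add, add_comm (x.2 • v), h, add_comm]
      have := C.smul_mem (x.2 - y.2)⁻¹ (hd ▸ C.smul_mem _ e.2 : (x.2 - y.2) • v ∈ C)
      rwa [smul_smul, inv_mul_cancel₀ (sub_ne_zero.mpr hne), one_smul] at this
    rw [h2, add_left_inj] at h
    exact Prod.ext (hspan.1 (Subtype.ext h)) h2
  have hω : ∀ σ : GalQ, (cycloExp p σ : ZMod p) = (cycloChar p σ : ZMod p) :=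
    fun σ => (coe_cycloChar p σ).symm
  have hex : ∀ σ : GalQ, ∃ a : ZMod p, a • (e : V) = σ • v - (cycloChar p σ : ZMod p) • v :=
    fun σ => by
    obtain ⟨a, ha⟩ := hspan.2 ⟨_, hω σ ▸ hadm.cyclo_quot σ v⟩
    exact ⟨a, congrArg Subtype.val ha⟩
  choose c hc using hex
  have hinj : ∀ {a b : ZMod p}, a • (e : V) = b • (e : V) → a = b := fun h =>
    hspan.1 (Subtype.ext h)
  have hσv : ∀ σ : GalQ, σ • v = (cycloChar p σ : ZMod p) • v + c σ • (e : V) := fun σ => by
    rw [hc]; abel
  have hσe : ∀ σ : GalQ, σ • (e : V) = e := fun σ => hadm.fixed_sub σ e e.2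
  have hmul : ∀ σ τ, c (σ * τ) = c σ * (cycloChar p τ : ZMod p) + c τ := by
    intro σ τ
    refine hinj ?_
    rw [hc, mul_smul, hσv τ, smul_add, smul_comm σ (cycloChar p τ : ZMod p) v,
      smul_comm σ (c τ) (e : V), hσe, hσv σ, map_mul, Units.val_mul, add_smul, smul_add,
      smul_smul, smul_smul, mul_comm (cycloChar p τ : ZMod p), mul_comm (cycloChar p τ : ZMod p)]
    abel_nf
  have hfixall : ∀ σ : GalQ, (∀ x : V, σ • x = x) → cycloChar p σ = 1 ∧ c σ = 0 := by
    intro σ hσ
    have h := hσv σ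
    rw [hσ v] at h
    have h2 := hbas.1 (a₁ := ((0 : ZMod p), (1 : ZMod p)))
      (a₂ := (c σ, (cycloChar p σ : ZMod p))) (by simp only; rw [zero_smul, one_smul, zero_add,
        add_comm, ← h])
    exact ⟨Units.ext (congrArg Prod.snd h2).symm, (congrArg Prod.fst h2).symm⟩
  let coc : AdmCocycle p :=
    { toFun := c
      map_mul := hmul
      open_ker := ⟨{ carrier := {σ | ∀ x : V, σ • x = x}
                     one_mem' := one_smul _
                     mul_mem' := fun {a b} ha hb x => by rw [mul_smul, hb, ha]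
                     inv_mem' := fun {a} ha x => by rw [inv_smul_eq_iff, ha] },
        hadm.open_kernel, fun σ hσ => (hfixall σ hσ).2⟩
      unramified := fun l hl hlp A hA σ hσ =>
        hfixall σ fun x => hadm.unramified_outside l hl hlp A hA σ hσ x
      split := fun A hA σ hσ h1 => by
        obtain ⟨C', hst, hcompl⟩ := hadm.locally_split A hA
        have hv' : v ∈ C ⊔ C' := hcompl.sup_eq_top ▸ Submodule.mem_top
        obtain ⟨y, hy, w, hw, hyw⟩ := Submodule.mem_sup.mp hv'
        have hmem : σ • w - w ∈ C' := sub_mem (hst σ hσ w hw) hw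
        have heq : σ • w - w = c σ • (e : V) := by
          have : w = v - y := eq_sub_of_add_eq' hyw
          rw [this, smul_sub, hadm.fixed_sub σ y hy, hσv, h1, Units.val_one, one_smul]
          abel
        have h0 : c σ • (e : V) ∈ C ⊓ C' := ⟨C.smul_mem _ e.2, heq ▸ hmem⟩
        rw [hcompl.inf_eq_bot, Submodule.mem_bot] at h0
        exact hinj (h0.trans (zero_smul _ _).symm) }
  have hzero : ∀ σ, cycloChar p σ = 1 → c σ = 0 := fun σ h => coc.eq_zero h3 h
  -- the cocycle is a coboundary
  obtain ⟨τ, hτ⟩ := exists_cycloChar_eq (p := p) (-1)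
  have hτ1 : (cycloChar p τ : ZMod p) - 1 ≠ 0 := by
    rw [hτ, Units.val_neg, Units.val_one, sub_ne_zero]
    exact fun h => absurd (ZMod.neg_eq_self_iff _ |>.mp h |>.resolve_left one_ne_zero) (by
      rw [ZMod.val_one_eq_one_mod, Nat.one_mod_eq_one.mpr hp.ne_one]; omega)
  set t := c τ / ((cycloChar p τ : ZMod p) - 1)
  have hcob : ∀ σ, c σ = t * ((cycloChar p σ : ZMod p) - 1) := by
    intro σ
    have hw : cycloChar p ((σ * τ)⁻¹ * (τ * σ)) = 1 := by
      rw [map_mul, map_inv, map_mul, map_mul, mul_comm (cycloChar p τ), inv_mul_cancel]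
    have h1 : c (τ * σ) = c (σ * τ) := by
      have := hmul (σ * τ) ((σ * τ)⁻¹ * (τ * σ))
      rwa [mul_inv_cancel_left, hw, Units.val_one, mul_one, hzero _ hw, add_zero] at this
    rw [hmul, hmul] at h1
    rw [show t = c τ / ((cycloChar p τ : ZMod p) - 1) from rfl, div_mul_eq_mul_div,
      eq_div_iff hτ1]
    linear_combination -h1
  refine ⟨Submodule.span (ZMod p) {v + t • (e : V)}, ?_, ?_⟩
  · intro σ x hx
    obtain ⟨a, rfl⟩ := Submodule.mem_span_singleton.mp hx
    refine Submodule.mem_span_singleton.mpr ⟨a * (cycloChar p σ : ZMod p), ?_⟩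
    rw [smul_comm σ a, smul_add σ, smul_comm σ t, hσe, hσv, hcob, mul_smul, smul_add,
      smul_add, smul_add, smul_add, smul_smul, smul_smul, smul_smul, smul_smul, smul_smul, add_assoc,
      ← add_smul]
    congr 2
    ring
  · refine ⟨Submodule.disjoint_def.mpr fun x hx hx' => ?_,
      codisjoint_iff.mpr (eq_top_iff.mpr fun x _ => ?_)⟩
    · obtain ⟨a, rfl⟩ := Submodule.mem_span_singleton.mp hx'
      rcases eq_or_ne a 0 with rfl | ha
      · rw [zero_smul]
      · refine absurd ?_ hv
        have := sub_mem (C.smul_mem a⁻¹ hx) (C.smul_mem t e.2)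
        rwa [smul_smul, inv_mul_cancel₀ ha, one_smul, add_sub_cancel_right] at this
    · obtain ⟨⟨a, b⟩, rfl⟩ := hbas.2 x
      refine Submodule.mem_sup.mpr ⟨(a - b * t) • (e : V), C.smul_mem _ e.2,
        b • (v + t • (e : V)), Submodule.smul_mem _ _ (Submodule.mem_span_singleton_self _), ?_⟩
      rw [smul_add, sub_smul, smul_smul]
      abel

end FLTAgent.Ext
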