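import Fermat.Agent.Ext.AuxField
import Fermat.Agent.Ext.Factor
import Mathlib.RepresentationTheory.Homological.GroupCohomology.Hilbert90
import Mathlib.RingTheory.Norm.Transitivity

/-!
# S14: Thaine's annihilation for the character `ω²`

If `η` is not a `p`-th power modulo a prime of norm `l`, the `ω²`-projection of the class of that
prime is a `p`-th power.
-/

set_option autoImplicit false
set_option maxSynthPendingDepth 3

noncomputable section

namespace FLTAgent.Ext

open NumberField Ideal Polynomial Finset UniqueFactorizationMonoid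
open scoped nonZeroDivisors Classical

section Galois

variable {K : Type*} [Field K] [NumberField K]
  {l : ℕ} [NeZero l] (hl : l.Prime)
  {L : Type*} [Field L] [NumberField L] [Algebra K L] [IsCyclotomicExtension {l} K L]
  {z : L} (hz : IsPrimitiveRoot z l) (hfin : Module.finrank K L = l - 1)

variable (K) in
/-- An automorphism of `L / K` on the integers. -/
def autInt (σ : L ≃ₐ[K] L) : 𝓞 L ≃+* 𝓞 L := RingOfIntegers.mapRingEquiv (σ : L ≃+* L)

omit [NumberField K] [NumberField L] [IsCyclotomicExtension {l} K L] [NeZero l] in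
lemma coe_autInt (σ : L ≃ₐ[K] L) (x : 𝓞 L) : (autInt K σ x : L) = σ (x : L) := rfl

include hl hz hfin in
omit [NumberField K] [NumberField L] in
lemma exists_galGenerator :
    ∃ (τ : L ≃ₐ[K] L) (g : (ZMod l)ˣ), (∀ σ, σ ∈ Subgroup.zpowers τ) ∧
      (∀ b, b ∈ Subgroup.zpowers g) ∧ τ z = z ^ (g : ZMod l).val := by
  have : Fact l.Prime := ⟨hl⟩
  have : IsGalois K L := IsCyclotomicExtension.isGalois {l} K L
  have : FiniteDimensional K L := IsCyclotomicExtension.finiteDimensional {l} K L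
  have hbij : Function.Bijective (hz.autToPow K) := by
    rw [Nat.bijective_iff_injective_and_card]
    refine ⟨hz.autToPow_injective K, ?_⟩
    rw [IsGalois.card_aut_eq_finrank, hfin, Nat.card_eq_fintype_card, ZMod.card_units]
  obtain ⟨g, hg⟩ := IsCyclic.exists_generator (α := (ZMod l)ˣ)
  obtain ⟨τ, hτ⟩ := hbij.2 g
  refine ⟨τ, g, fun σ => ?_, hg, ?_⟩
  · obtain ⟨k, hk⟩ := hg (hz.autToPow K σ)
    exact ⟨k, hbij.1 (by rw [map_zpow, hτ]; exact hk)⟩
  · rw [← hτ]
    exact (hz.autToPow_spec K τ).symm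

include hl hz hfin in
lemma prod_aut_one_add_mul (hodd : Odd l) {x : L} (hx : x ^ l = x) (hx1 : 1 + x ≠ 0) (hσx : ∀ σ : L ≃ₐ[K] L, σ x = x) :
    ∏ σ : L ≃ₐ[K] L, σ (1 + x * z) = 1 := by
  have : IsGalois K L := IsCyclotomicExtension.isGalois {l} K L
  have : FiniteDimensional K L := IsCyclotomicExtension.finiteDimensional {l} K L
  have hinj : Function.Injective fun σ : L ≃ₐ[K] L => σ z := fun σ τ h => by
    refine AlgEquiv.coe_toAlgHom_injective ((hz.powerBasis K).algHom_ext ?_)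
    simpa [hz.powerBasis_gen K] using h
  have himg : univ.image (fun σ : L ≃ₐ[K] L => σ z) = primitiveRoots l L := by
    refine Finset.eq_of_subset_of_card_le ?_ ?_
    · intro μ hμ
      obtain ⟨σ, -, rfl⟩ := Finset.mem_image.mp hμ
      exact (mem_primitiveRoots hl.pos).mpr (hz.map_of_injective σ.injective)
    · rw [Finset.card_image_of_injective _ hinj, Finset.card_univ, ← Nat.card_eq_fintype_card,
        IsGalois.card_aut_eq_finrank, hfin, hz.card_primitiveRoots, Nat.totient_prime hl]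
  have h := hz.pow_add_pow_eq_prod_add_mul (x := (1 : L)) (y := x) hodd
  rw [one_pow, hx, nthRootsFinset_eq_of_prime hl, Finset.union_comm, ← Finset.insert_eq,
    Finset.prod_insert (fun h1 => ((mem_primitiveRoots hl.pos).mp h1).ne_one hl.one_lt rfl),
    one_mul] at h
  have h1 : ∏ μ ∈ primitiveRoots l L, (1 + μ * x) = 1 :=
    mul_left_cancel₀ hx1 (by rw [← h, mul_one])
  rw [← himg, Finset.prod_image hinj.injOn] at h1
  refine Eq.trans ?_ h1
  exact Finset.prod_congr rfl fun σ _ => by simp only [map_add, map_one, map_mul, hσx, mul_comm]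

end Galois

variable {p : ℕ} [Fact p.Prime] {K : Type} [Field K] [NumberField K]
  [IsCyclotomicExtension {p} ℚ K] {ζ : K} (hζ : IsPrimitiveRoot ζ p) (h3 : 3 ≤ p)

include hζ in
omit [IsCyclotomicExtension {p} ℚ K] in
lemma prime_norm_mod {P : Ideal (𝓞 K)} {l : ℕ} (hl : l.Prime) (hnorm : absNorm P = l)
    (hlp : l ≠ p) : l % p = 1 ∧ zint hζ ^ l = zint hζ := by
  have hp : p.Prime := Fact.out
  have hne : l % p ≠ 0 := fun h => hlp
    (((Nat.prime_dvd_prime_iff_eq hp hl).mp (Nat.dvd_of_mod_eq_zero h)).symm)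
  have hu : IsUnit ((l : ℕ) : ZMod p) := by
    rw [isUnit_iff_ne_zero, Ne, ZMod.natCast_eq_zero_iff]
    exact fun h => hne (Nat.mod_eq_zero_of_dvd h)
  obtain ⟨n, hn⟩ := exists_natCast_sub_mem hl hnorm (zint hζ)
  have := isMaximal_of_absNorm_prime hl hnorm
  have hpow : zint hζ ^ l - zint hζ ∈ P := by
    have hq : Ideal.Quotient.mk P (zint hζ) = Ideal.Quotient.mk P (n : 𝓞 K) :=
      Ideal.Quotient.eq.mpr hn
    have : Fact l.Prime := ⟨hl⟩
    rw [← Ideal.Quotient.eq, map_pow, hq, ← map_pow, Ideal.Quotient.eq, ← Nat.cast_pow,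
      ← Nat.cast_sub (Nat.le_self_pow hl.ne_zero n), natCast_mem_iff_dvd hl hnorm,
      ← ZMod.natCast_eq_zero_iff, Nat.cast_sub (Nat.le_self_pow hl.ne_zero n), Nat.cast_pow,
      ZMod.pow_card, sub_self]
  have h1 : hu.unit = 1 := by
    refine not_mem_zint_pow_sub hζ hl hnorm hlp (?_ : _ ∈ P)
    rwa [Units.val_one, ZMod.val_one, pow_one, IsUnit.unit_spec, ZMod.val_natCast,
      ← pow_eq_pow_mod _ (zint_spec hζ).pow_eq_one]
  have hmod : l % p = 1 := by
    have := congrArg (fun u : (ZMod p)ˣ => (u : ZMod p).val) h1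
    simpa [ZMod.val_natCast, ZMod.val_one] using this
  refine ⟨hmod, ?_⟩
  rw [pow_eq_pow_mod _ (zint_spec hζ).pow_eq_one, hmod, pow_one]

include hζ h3 in
/-- Thaine's relation. -/
theorem eigenProj_prime_mem (P : (Ideal (𝓞 K))⁰) {l : ℕ} (hl : l.Prime)
    (hnorm : absNorm (P : Ideal (𝓞 K)) = l)
    (hbad : ∀ y : 𝓞 K, y ^ p - (etaUnit hζ h3 : 𝓞 K) ∉ (P : Ideal (𝓞 K))) :
    ∃ C : ClassGroup (𝓞 K), eigenProj p (ClassGroup.mk0 P) = C ^ p := by
  have hp : p.Prime := Fact.out
  have hlp : l ≠ p := fun h => hbad _ (exists_pow_sub_mem_of_dvd hl hnorm h _)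
  have : NeZero l := ⟨hl.ne_zero⟩
  have : Fact l.Prime := ⟨hl⟩
  obtain ⟨hlmod, hzl⟩ := prime_norm_mod hζ hl hnorm hlp
  have hpl : p ∣ l - 1 := by
    rw [← hlmod]
    exact Nat.dvd_sub_mod l
  have hl2 : l ≠ 2 := by
    rintro rfl
    have := Nat.le_of_dvd one_pos hpl
    omega
  have hlodd : Odd l := hl.odd_of_ne_two hl2
  -- the auxiliary field
  let L := CyclotomicField l K
  have : NumberField L := IsCyclotomicExtension.numberField {l} K L
  have : IsGalois K L := IsCyclotomicExtension.isGalois {l} K L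
  have : FiniteDimensional K L := IsCyclotomicExtension.finiteDimensional {l} K L
  have hz := IsCyclotomicExtension.zeta_spec l K L
  set z : L := IsCyclotomicExtension.zeta l K L with hzdef
  set zO : 𝓞 L := hz.toInteger with hzO
  have hzcoe : (zO : L) = z := rfl
  obtain ⟨hfin, Λ, hΛ⟩ := exists_totallyRamified hζ hl hnorm hlp (L := L) hz
  obtain ⟨τ, g, hτgen, hggen, hτz⟩ := exists_galGenerator hl hz hfin
  have : IsCyclic (L ≃ₐ[K] L) := ⟨⟨τ, hτgen⟩⟩
  set i := algebraMap (𝓞 K) (𝓞 L) with hi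
  have hicoe : ∀ x : 𝓞 K, (i x : L) = algebraMap K L (x : K) := fun x => rfl
  set π : 𝓞 L := zO - 1 with hπ
  -- the Thaine unit
  set w : (ZMod p)ˣ → 𝓞 L := fun a => 1 + i (zint hζ ^ (a : ZMod p).val) * zO with hw
  have hxa : ∀ a : (ZMod p)ˣ, (zint hζ ^ (a : ZMod p).val) ^ l = zint hζ ^ (a : ZMod p).val :=
    fun a => by rw [← pow_mul, mul_comm, pow_mul, hzl]
  have hwprod : ∀ a, ∏ σ : L ≃ₐ[K] L, σ (w a : L) = 1 := fun a => by
    have h1 : (1 : L) + algebraMap K L ((zint hζ ^ (a : ZMod p).val : 𝓞 K) : K) ≠ 0 := by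
      rw [← map_one (algebraMap K L), ← map_add, Ne, map_eq_zero]
      intro h0
      refine (onePlus hζ h3 a).ne_zero (RingOfIntegers.ext ?_)
      rw [coe_onePlus]
      exact h0
    have h := prod_aut_one_add_mul hl hz hfin hlodd
      (x := algebraMap K L ((zint hζ ^ (a : ZMod p).val : 𝓞 K) : K))
      (by rw [← map_pow, ← map_pow, hxa]) h1 (fun σ => σ.commutes _)
    rw [← h]
    rfl
  have hwunit : ∀ a, IsUnit (w a) := fun a => by
    have h : ∏ σ : L ≃ₐ[K] L, autInt K σ (w a) = 1 :=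
      RingOfIntegers.coe_injective (by rw [map_prod, map_one]; exact hwprod a)
    have := isUnit_of_dvd_one (h ▸ Finset.dvd_prod_of_mem (fun σ : L ≃ₐ[K] L => autInt K σ (w a))
      (Finset.mem_univ 1))
    exact this
  set u : 𝓞 L := ∏ a, w a ^ wexp p a⁻¹ with hu
  have huunit : IsUnit u := IsUnit.prod_iff.mpr fun a _ => (hwunit a).pow _
  have hunorm : Algebra.norm K (u : L) = 1 := by
    apply (algebraMap K L).injective
    have hcoe : (u : L) = ∏ a, (w a : L) ^ wexp p a⁻¹ := by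
      rw [hu]
      exact (map_prod (algebraMap (𝓞 L) L) _ _).trans (Finset.prod_congr rfl fun a _ => map_pow _ _ _)
    rw [map_one, hcoe, map_prod, map_prod]
    refine Finset.prod_eq_one fun a _ => ?_
    rw [map_pow, map_pow, Algebra.norm_eq_prod_automorphisms, hwprod, one_pow]
  -- Hilbert 90
  obtain ⟨y, hy⟩ := groupCohomology.exists_div_of_norm_eq_one hτgen hunorm
  obtain ⟨⟨m, hm⟩, hmy⟩ := IsIntegral.exists_multiple_integral_of_isLocalization
    (nonZeroDivisors ℤ) (y : L) (Algebra.IsAlgebraic.isAlgebraic (R := ℚ) (y : L)).isIntegral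
  obtain ⟨α, hα⟩ : ∃ α : 𝓞 L, (α : L) = (m : L) * y :=
    ⟨⟨(m : L) * y, show IsIntegral ℤ _ by
      have h := hmy
      simp only [Submonoid.smul_def, zsmul_eq_mul] at h
      convert h using 2
      all_goals rfl⟩, rfl⟩
  have hm0 : m ≠ 0 := nonZeroDivisors.ne_zero hm
  have hα0 : α ≠ 0 := by
    intro h0
    have h1 : (m : L) * y = 0 := by rw [← hα, h0]; rfl
    exact (mul_eq_zero.mp h1).elim (by exact_mod_cast hm0) y.ne_zero
  have hτy : (τ (y : L)) * (u : L) = y := by
    rw [← hy, mul_div_cancel₀ _ (by simp)]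
  have hτα : u * autInt K τ α = α := by
    refine RingOfIntegers.coe_injective ?_
    rw [map_mul]
    change (u : L) * τ (α : L) = (α : L)
    rw [hα, map_mul, map_intCast, mul_comm, mul_assoc, hτy]
  -- stability of the ideal of α
  have hspanτ : span {autInt K τ α} = span {α} := by
    conv_rhs => rw [← hτα, span_singleton_mul_left_unit huunit]
  have hspan : ∀ σ : L ≃ₐ[K] L, span {autInt K σ α} = span {α} := fun σ => by
    obtain ⟨n, rfl⟩ := (mem_powers_iff_mem_zpowers (x := τ)).mpr (hτgen σ)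
    induction n with
    | zero => exact congrArg (fun x => span {x}) (RingOfIntegers.ext rfl)
    | succ n ih =>
      have h1 : autInt K (τ ^ (n + 1)) α = autInt K τ (autInt K (τ ^ n) α) :=
        RingOfIntegers.ext (by rw [coe_autInt, coe_autInt, coe_autInt, pow_succ']; rfl)
      show span {autInt K (τ ^ (n + 1)) α} = _
      rw [h1, ← hspanτ]
      obtain ⟨e, he⟩ := span_singleton_eq_span_singleton.mp ih
      refine span_singleton_eq_span_singleton.mpr ⟨Units.map (autInt K τ).toRingHom.toMonoidHom e, ?_⟩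
      exact (map_mul (autInt K τ) _ _).symm.trans (congrArg _ he)
  -- the norm
  set β : 𝓞 K := RingOfIntegers.norm K α with hβ
  have hiβ : i β = ∏ σ : L ≃ₐ[K] L, autInt K σ α := by
    refine RingOfIntegers.coe_injective ?_
    rw [map_prod]
    change algebraMap K L (β : K) = ∏ σ : L ≃ₐ[K] L, σ (α : L)
    rw [hβ, RingOfIntegers.coe_norm, Algebra.norm_eq_prod_automorphisms]
  have hJmap : (span {β}).map i = span {α} ^ (l - 1) := by
    rw [Ideal.map_span, Set.image_singleton, hiβ, ← Ideal.prod_span_singleton,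
      Finset.prod_congr rfl fun σ _ => hspan σ, Finset.prod_const, Finset.card_univ,
      ← Nat.card_eq_fintype_card, IsGalois.card_aut_eq_finrank, hfin]
  have hβ0 : β ≠ 0 := by
    intro h0
    rw [h0, span_singleton_eq_bot.mpr rfl, Ideal.map_bot, ← zero_eq_bot, eq_comm] at hJmap
    exact hα0 (span_singleton_eq_bot.mp (eq_zero_of_pow_eq_zero hJmap))
  have hJ0 : span {β} ≠ (0 : Ideal (𝓞 K)) := fun h => hβ0 (span_singleton_eq_bot.mp h)
  have hαI : span {α} ≠ (0 : Ideal (𝓞 L)) := fun h => hα0 (span_singleton_eq_bot.mp h)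
  have hΛp : ∀ a, Prime (Λ a) := fun a => by
    refine Ideal.prime_of_isPrime ?_ (isMaximal_of_absNorm_prime hl (hΛ a).1).isPrime
    intro h
    have := (hΛ a).1
    rw [h, absNorm_bot] at this
    exact hl.ne_zero this.symm
  have hcp : ∀ a, Prime (conjIdeal p a (P : Ideal (𝓞 K))) := fun a => by
    have hn := (absNorm_conjIdeal a).trans hnorm
    refine Ideal.prime_of_isPrime (fun h => ?_) (isMaximal_of_absNorm_prime hl hn).isPrime
    rw [h, absNorm_bot] at hn
    exact hl.ne_zero hn.symm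
  have hover : ∀ a, (Λ a).LiesOver (conjIdeal p a (P : Ideal (𝓞 K))) := fun a => by
    have := (isMaximal_of_absNorm_prime hl (hΛ a).1)
    refine ⟨(isMaximal_of_absNorm_prime hl ((absNorm_conjIdeal a).trans hnorm)).eq_of_le
      (Ideal.comap_ne_top _ this.ne_top) (Ideal.map_le_iff_le_comap.mp ?_)⟩
    rw [← (hΛ a).2.1]
    exact Ideal.pow_le_self (by have := hl.two_le; omega)
  set r : (ZMod p)ˣ → ℕ := fun a => idealCount (Λ a) (span {α}) with hr
  -- exponents of the norm
  have hcount : ∀ a, idealCount (conjIdeal p a (P : Ideal (𝓞 K))) (span {β}) = r a := fun a => by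
    have h := idealCount_map (S := 𝓞 L) (hcp a) hJ0 (hover a)
    rw [← hi, hJmap, idealCount_pow, ← (hΛ a).2.1, idealCount_pow, idealCount_self (hΛp a),
      mul_one, mul_comm _ (l - 1)] at h
    exact (Nat.eq_of_mul_eq_mul_left (by have := hl.two_le; omega) h).symm
  have houtside : ∀ v : Ideal (𝓞 K), Prime v →
      v ∉ Set.range (fun a => conjIdeal p a (P : Ideal (𝓞 K))) → p ∣ idealCount v (span {β}) := by
    intro v hv hnot
    have hvp : v.IsPrime := Ideal.isPrime_of_prime hv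
    have hvm : v.IsMaximal := hvp.isMaximal hv.ne_zero
    have hlv : ((l : ℕ) : 𝓞 K) ∉ v := by
      intro hmem
      have hle : ∏ a, conjIdeal p a (P : Ideal (𝓞 K)) ≤ v := by
        rw [prod_conjIdeal hζ hl hnorm hlp, span_singleton_le_iff_mem]; exact hmem
      obtain ⟨a, -, ha⟩ := (Ideal.IsPrime.prod_le hvp).mp hle
      exact hnot ⟨a, (isMaximal_of_absNorm_prime hl ((absNorm_conjIdeal a).trans hnorm)).eq_of_le
        hvm.ne_top ha⟩
    obtain ⟨Q, hQ, hQv⟩ := Ideal.exists_maximal_ideal_liesOver_of_isIntegral (S := 𝓞 L) v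
    have hQ0 : Q ≠ ⊥ := Ideal.ne_bot_of_liesOver_of_ne_bot hv.ne_zero Q
    have hQp : Prime Q := Ideal.prime_of_isPrime hQ0 hQ.isPrime
    have hQl : ((l : ℕ) : 𝓞 L) ∉ Q := fun h => hlv (by
      rw [hQv.over, Ideal.under_def, Ideal.mem_comap, map_natCast]; exact h)
    have hmap0 : v.map i ≠ 0 := fun h0 => hv.ne_zero
      ((Ideal.map_eq_bot_iff_of_injective (FaithfulSMul.algebraMap_injective (𝓞 K) (𝓞 L))).mp h0)
    have hone : idealCount Q (v.map i) = 1 := by
      have h1 := (pow_dvd_iff_le_idealCount hQp hmap0 1).mp (by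
        rw [pow_one]; exact Ideal.dvd_iff_le.mpr (Ideal.map_le_iff_le_comap.mpr hQv.over.le))
      have h2 : ¬ 2 ≤ idealCount Q (v.map i) := fun h =>
        not_sq_dvd_map hl hz Q hQl v hv.ne_zero ((pow_dvd_iff_le_idealCount hQp hmap0 2).mpr h)
      omega
    have h := idealCount_map (S := 𝓞 L) hv hJ0 hQv
    rw [← hi, hJmap, idealCount_pow, hone, mul_one] at h
    rw [← h]
    exact dvd_mul_of_dvd_left hpl _
  have hclass : ∏ a, idealClassMod p (conjIdeal p a (P : Ideal (𝓞 K))) ^ r a = 1 := by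
    rw [Finset.prod_congr rfl fun a _ => by rw [← hcount a],
      ← idealClassMod_eq_prod (conjIdeal_injective hζ hl hnorm hlp) hJ0 houtside, idealClassMod,
      dif_pos (mem_nonZeroDivisors_of_ne_zero hJ0),
      (ClassGroup.mk0_eq_one_iff _).mpr ⟨⟨β, rfl⟩⟩, QuotientGroup.mk_one]
  -- the congruence at each prime
  have hcong : ∀ a, galInt p K a⁻¹ (etaUnit hζ h3 : 𝓞 K) * ((g : ZMod l).val : 𝓞 K) ^ r a - 1
      ∈ (P : Ideal (𝓞 K)) := by
    intro a
    obtain ⟨hQn, -, hπQ, hπQ2⟩ := hΛ a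
    set Q := Λ a with hQdef
    have hQm := isMaximal_of_absNorm_prime hl hQn
    have hQ0 : Q ≠ ⊥ := (hΛp a).ne_zero
    have hπ0 : span {π} ≠ (0 : Ideal (𝓞 L)) := fun h => hπQ2 (by
      show π ∈ Q ^ 2
      rw [span_singleton_eq_bot.mp h]; exact zero_mem _)
    have hπcount : idealCount Q (span {π}) = 1 := by
      have h1 := (pow_dvd_iff_le_idealCount (hΛp a) hπ0 1).mp (by
        rw [pow_one, dvd_span_singleton]; exact hπQ)
      have h2 : ¬ 2 ≤ idealCount Q (span {π}) := fun h => hπQ2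
        (dvd_span_singleton.mp ((pow_dvd_iff_le_idealCount (hΛp a) hπ0 2).mpr h))
      exact le_antisymm (Nat.le_of_lt_succ (not_le.mp h2)) h1
    have hπr : π ^ r a ∈ Q ^ r a := Ideal.pow_mem_pow hπQ _
    have hπr1 : π ^ r a ∉ Q ^ (r a + 1) := fun h => by
      have := (pow_dvd_iff_le_idealCount (hΛp a) (pow_ne_zero (r a) hπ0) (r a + 1)).mp
        (by rw [span_singleton_pow, dvd_span_singleton]; exact h)
      rw [idealCount_pow, hπcount] at this
      omega
    have hαr : α ∈ Q ^ r a :=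
      dvd_span_singleton.mp ((pow_dvd_iff_le_idealCount (hΛp a) hαI _).mpr le_rfl)
    have hαr1 : α ∉ Q ^ (r a + 1) := fun h => by
      have := (pow_dvd_iff_le_idealCount (hΛp a) hαI (r a + 1)).mp (dvd_span_singleton.mpr h)
      exact Nat.not_succ_le_self (r a) this
    obtain ⟨d, e, he, hde⟩ := Ideal.exists_mul_add_mem_pow_succ hQ0 _ α hπr hπr1 hαr
    have hd : d ∉ Q := fun h => hαr1 (by
      rw [← hde, pow_succ]
      exact add_mem (Ideal.mul_mem_mul hπr h) (by rw [← pow_succ]; exact he))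
    obtain ⟨n, hn⟩ := exists_natCast_sub_mem hl hQn d
    set S : 𝓞 L := ∑ j ∈ range (g : ZMod l).val, zO ^ j with hS
    have hτπ : autInt K τ π = π * S := by
      rw [hS, mul_comm, hπ, geom_sum_mul, map_sub, map_one]
      congr 1
      refine RingOfIntegers.coe_injective ?_
      rw [map_pow]
      exact hτz
    have hτQ : ∀ x ∈ Q, autInt K τ x ∈ Q := by
      have key : autInt K τ π ∈ Q := by rw [hτπ]; exact Q.mul_mem_right _ hπQ
      intro x hx
      have hmap : Q.map (autInt K τ : 𝓞 L →+* 𝓞 L) = Q := by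
        have hle : (Q.map (autInt K τ : 𝓞 L →+* 𝓞 L)).IsPrime :=
          Ideal.map_isPrime_of_equiv (autInt K τ)
        have hc := (hover a).over
        have hle' : (conjIdeal p a (P : Ideal (𝓞 K))).map i ≤ Q.map (autInt K τ : 𝓞 L →+* 𝓞 L) := by
          rw [Ideal.map_le_iff_le_comap]
          intro b hb
          rw [Ideal.mem_comap, show i b = autInt K τ (i b) from
            RingOfIntegers.ext (by rw [coe_autInt, hicoe]; exact (τ.commutes _).symm)]
          exact Ideal.mem_map_of_mem _ (by rw [hc] at hb; exact hb)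
        rw [← (hΛ a).2.1] at hle'
        exact (hQm.eq_of_le (Ideal.IsPrime.ne_top hle) ((hle.pow_le_iff
          (by have := hl.two_le; omega)).mp hle')).symm
      rw [← hmap]
      exact Ideal.mem_map_of_mem _ hx
    have hτQn : ∀ k, ∀ x ∈ Q ^ k, autInt K τ x ∈ Q ^ k := fun k x hx => by
      have hle : Q.map (autInt K τ : 𝓞 L →+* 𝓞 L) ≤ Q :=
        Ideal.map_le_iff_le_comap.mpr fun x hx => hτQ x hx
      exact Ideal.pow_right_mono hle k (by rw [← Ideal.map_pow]; exact Ideal.mem_map_of_mem _ hx)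
    let q := Ideal.Quotient.mk (Q ^ (r a + 1))
    have hq : ∀ x y : 𝓞 L, x - y ∈ Q → q (π ^ r a * x) = q (π ^ r a * y) := fun x y h => by
      rw [Ideal.Quotient.eq, ← mul_sub, pow_succ]
      exact Ideal.mul_mem_mul hπr h
    have hαn : q α = q (π ^ r a * n) := by
      rw [← hde, map_add, Ideal.Quotient.eq_zero_iff_mem.mpr he, add_zero]
      exact hq _ _ hn
    have hτe : q (autInt K τ α) = q (π ^ r a * (S ^ r a * n)) := by
      have h1 : autInt K τ α - π ^ r a * (S ^ r a * n) ∈ Q ^ (r a + 1) := by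
        have := hτQn _ _ (Ideal.Quotient.eq.mp hαn)
        rwa [map_sub, map_mul, map_natCast, map_pow, hτπ, mul_pow, mul_assoc] at this
      exact Ideal.Quotient.eq.mpr h1
    have hrel : π ^ r a * ((u * S ^ r a - 1) * n) ∈ Q ^ (r a + 1) := by
      have h1 : q (u * autInt K τ α) = q α := by rw [hτα]
      rw [map_mul, hτe, hαn, ← map_mul, Ideal.Quotient.eq] at h1
      convert h1 using 1
      ring
    have hnQ : (n : 𝓞 L) ∉ Q := fun h => hd (by simpa using Q.add_mem hn h)
    have hmem := ((hQm.isPrime).mem_or_mem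
      (Ideal.mem_prime_of_mul_mem_pow hQ0 hπr1 hrel)).resolve_right hnQ
    -- reduce modulo Q
    let ρ := Ideal.Quotient.mk Q
    have hz1 : ρ zO = 1 := by
      rw [← map_one ρ]; exact Ideal.Quotient.eq.mpr hπQ
    have hS1 : ρ S = ((g : ZMod l).val : 𝓞 L ⧸ Q) := by
      simp [hS, map_sum, hz1]
    have hu1 : ρ u = ρ (i (etaUnit hζ h3 : 𝓞 K)) := by
      rw [hu, etaUnit, Units.coe_prod, map_prod, map_prod, map_prod]
      refine Finset.prod_congr rfl fun b _ => ?_
      rw [Units.val_pow_eq_pow_val, map_pow, map_pow, map_pow, coe_onePlus, hw]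
      simp [hz1]
    have hdown : (etaUnit hζ h3 : 𝓞 K) * ((g : ZMod l).val : 𝓞 K) ^ r a - 1
        ∈ conjIdeal p a (P : Ideal (𝓞 K)) := by
      rw [(hover a).over, Ideal.under_def, Ideal.mem_comap, map_sub, map_mul, map_pow, map_natCast,
        map_one, ← Ideal.Quotient.eq_zero_iff_mem, map_sub, map_mul, map_pow, map_natCast, map_one]
      have h0 := Ideal.Quotient.eq_zero_iff_mem.mpr hmem
      rw [map_sub, map_mul, map_pow, map_one, hu1, hS1] at h0
      exact h0
    rw [← mem_conjIdeal (a := a), map_sub, map_mul, ← galInt_mul, mul_inv_cancel, galInt_one,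
      map_pow, map_natCast, map_one]
    exact hdown
  -- discrete logarithm
  have hPm := isMaximal_of_absNorm_prime hl hnorm
  have : Finite (𝓞 K ⧸ (P : Ideal (𝓞 K))) :=
    Ideal.finiteQuotientOfFreeOfNeBot _ (nonZeroDivisors.coe_ne_zero P)
  let _ := Fintype.ofFinite (𝓞 K ⧸ (P : Ideal (𝓞 K)))
  have hcardl : Fintype.card (𝓞 K ⧸ (P : Ideal (𝓞 K))) = l := by
    rw [← Nat.card_eq_fintype_card, ← hnorm, absNorm_apply, Submodule.cardQuot_apply]
  let φ : 𝓞 K →+* ZMod l :=
    (ZMod.ringEquivOfPrime _ hl hcardl).symm.toRingHom.comp (Ideal.Quotient.mk _)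
  have hφ : ∀ x, φ x = 0 ↔ x ∈ (P : Ideal (𝓞 K)) := fun x => by
    simp [φ, Ideal.Quotient.eq_zero_iff_mem]
  let Φ : (𝓞 K)ˣ →* (ZMod l)ˣ := Units.map φ.toMonoidHom
  obtain ⟨k, hk⟩ := (mem_powers_iff_mem_zpowers (x := g)).mpr (hggen (Φ (etaUnit hζ h3)))
  simp only at hk
  have hkp : ¬ p ∣ k := by
    rintro ⟨k', rfl⟩
    refine hbad ((((g : ZMod l) ^ k').val : ℕ) : 𝓞 K) ((hφ _).mp ?_)
    rw [map_sub, map_pow, map_natCast, ZMod.natCast_val, ZMod.cast_id, ← pow_mul, mul_comm,
      sub_eq_zero, ← Units.val_pow_eq_pow_val, hk]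
    rfl
  have hr' : ∀ a, ((r a + k * wexp p a⁻¹ : ℕ) : ZMod p) = 0 := by
    intro a
    obtain ⟨y, hy⟩ := etaUnit_isEigen hζ h3 a⁻¹
    obtain ⟨j, hj⟩ := (mem_powers_iff_mem_zpowers (x := g)).mpr (hggen (Φ y))
    simp only at hj
    have h1 : Φ (galUnits p K a⁻¹ (etaUnit hζ h3)) * g ^ r a = 1 := by
      refine Units.ext ?_
      have h := (hφ _).mpr (hcong a)
      rw [map_sub, map_mul, map_pow, map_natCast, map_one, sub_eq_zero, ZMod.natCast_val,
        ZMod.cast_id] at h
      exact h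
    rw [hy, map_mul, map_pow, map_pow, ← hk, ← hj, ← pow_mul, ← pow_mul, ← pow_add, ← pow_add] at h1
    have h2 := orderOf_dvd_of_pow_eq_one h1
    rw [orderOf_eq_card_of_forall_mem_zpowers hggen, Nat.card_eq_fintype_card,
      ZMod.card_units] at h2
    have h3' := (ZMod.natCast_eq_zero_iff _ _).mpr (hpl.trans h2)
    simpa [add_comm] using h3'
  -- conclude
  set X : (ZMod p)ˣ → ClassModPow p K :=
    fun a => idealClassMod p (conjIdeal p a (P : Ideal (𝓞 K))) with hX
  have hE : (QuotientGroup.mk (eigenProj p (ClassGroup.mk0 P)) : ClassModPow p K) =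
      ∏ a, X a ^ wexp p a⁻¹ := by
    rw [eigenProj, QuotientGroup.mk_prod]
    refine Finset.prod_congr rfl fun a _ => ?_
    rw [QuotientGroup.mk_pow, galClass_mk0, ← idealClassMod_coe]
    rfl
  have hpowk : (∏ a, X a ^ wexp p a⁻¹) ^ k = 1 := by
    calc (∏ a, X a ^ wexp p a⁻¹) ^ k = (∏ a, X a ^ r a) * (∏ a, X a ^ wexp p a⁻¹) ^ k := by
          rw [hclass, one_mul]
      _ = ∏ a, X a ^ (r a + k * wexp p a⁻¹) := by
          rw [← Finset.prod_pow, ← Finset.prod_mul_distrib]
          exact Finset.prod_congr rfl fun a _ => by rw [pow_add, ← pow_mul, mul_comm k]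
      _ = 1 := Finset.prod_eq_one fun a _ => by
          obtain ⟨m', hm'⟩ := (ZMod.natCast_eq_zero_iff _ _).mp (hr' a)
          rw [hm', pow_mul, classModPow_pow_eq_one, one_pow]
  have hgcd := Nat.Coprime.gcd_eq_one ((hp.coprime_iff_not_dvd.mpr hkp).symm)
  have hE1 : ∏ a, X a ^ wexp p a⁻¹ = 1 := by
    rw [← pow_one (∏ a, X a ^ wexp p a⁻¹), ← hgcd]
    exact pow_gcd_eq_one.mpr ⟨hpowk, classModPow_pow_eq_one _⟩
  rw [hE1, QuotientGroup.eq_one_iff] at hE
  obtain ⟨C, hC⟩ := hE
  exact ⟨C, hC.symm⟩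

end FLTAgent.Ext
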